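import Mathlib
import Fermat.Prelude.Def_ModularCurve_X0ModL
import Fermat.Agent.Lib.Gamma0Count.PrimCount

/-!
# S28 (Igusa), piece P6 (Ψ): arithmetic of `dedekindPsi`

* `dedekindPsi_mul_prime` : `ψ(M p) = (if p ∣ M then p else p + 1) · ψ(M)`;
* `dedekindPsi_mul_prime_of_dvd`, `dedekindPsi_mul_prime_of_not_dvd`, `dedekindPsi_pos`.
-/

set_option autoImplicit false

noncomputable section

namespace Fermat.Agent.S28.Assemble

open ModularCurve IntermediateField

/-! ## (Ψ) arithmetic of `dedekindPsi` -/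

theorem dedekindPsi_mul_prime {M p : ℕ} (hM : M ≠ 0) (hp : p.Prime) :
    dedekindPsi (M * p) = (if p ∣ M then p else p + 1) * dedekindPsi M := by
  obtain ⟨a, M', hM', rfl⟩ := Nat.exists_eq_pow_mul_and_not_dvd hM p hp.ne_one
  have hcop : ∀ b : ℕ, (p ^ b).Coprime M' := fun b =>
    Nat.Coprime.pow_left b ((Nat.Prime.coprime_iff_not_dvd hp).mpr hM')
  have hpow : ∀ b : ℕ, dedekindPsi (p ^ (b + 1)) = p ^ (b + 1) + p ^ b := fun b => by
    rw [Fermat.Agent.Lib.Gamma0Count.dedekindPsi_prime_pow hp (Nat.succ_pos b)]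
    rfl
  have h1 : p ^ a * M' * p = p ^ (a + 1) * M' := by ring
  rw [h1, Fermat.Agent.Lib.Gamma0Count.dedekindPsi_mul (hcop (a + 1)),
    Fermat.Agent.Lib.Gamma0Count.dedekindPsi_mul (hcop a), hpow a]
  rcases Nat.eq_zero_or_pos a with rfl | ha
  · have hnd : ¬ p ∣ p ^ 0 * M' := by simpa using hM'
    rw [if_neg hnd]
    simp
  · have hd : p ∣ p ^ a * M' := Dvd.dvd.mul_right (dvd_pow_self p ha.ne') M'
    obtain ⟨b, rfl⟩ : ∃ b, a = b + 1 := ⟨a - 1, by omega⟩
    rw [if_pos hd, hpow b]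
    ring

theorem dedekindPsi_mul_prime_of_dvd {M p : ℕ} (hM : M ≠ 0) (hp : p.Prime) (h : p ∣ M) :
    dedekindPsi (M * p) = p * dedekindPsi M := by
  rw [dedekindPsi_mul_prime hM hp, if_pos h]

theorem dedekindPsi_mul_prime_of_not_dvd {M p : ℕ} (hM : M ≠ 0) (hp : p.Prime) (h : ¬ p ∣ M) :
    dedekindPsi (M * p) = (p + 1) * dedekindPsi M := by
  rw [dedekindPsi_mul_prime hM hp, if_neg h]

theorem dedekindPsi_pos {M : ℕ} (hM : M ≠ 0) : 0 < dedekindPsi M := by
  rw [dedekindPsi]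
  have h1 : (1 : ℕ) ∈ M.divisors.filter (fun d => Squarefree d) := by
    simp [hM]
  have hle : M / 1 ≤ ∑ d ∈ M.divisors.filter (fun d => Squarefree d), M / d :=
    Finset.single_le_sum (f := fun d => M / d) (fun _ _ => Nat.zero_le _) h1
  have : 0 < M / 1 := by
    rw [Nat.div_one]; exact Nat.pos_of_ne_zero hM
  exact lt_of_lt_of_le this hle

end Fermat.Agent.S28.Assemble
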