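import Mathlib
import Fermat.Prelude.Def_ModularCurve_X0ModL

/-!
# S28 (Igusa), shared basics: rotation `t ↦ c t` and the derivation `θ = t d/dt` of Laurent series

Over an arbitrary commutative ring `A`:

* `rot c : LaurentSeries A ≃+* LaurentSeries A` for a unit `c`, coefficient `n ↦ a_n c^n`;
* `theta : LaurentSeries A →+ LaurentSeries A`, coefficient `n ↦ n a_n`, with the Leibniz rule;
* compatibility with `ModularCurve.qExpand` (`t ↦ t^m`) and `ModularCurve.coeffMap`.
-/

set_option autoImplicit false

noncomputable section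

namespace Fermat.Agent.S28

open ModularCurve

variable {A B : Type*} [CommRing A] [CommRing B]

/-! ### products of Hahn series with controlled supports -/

theorem coeff_mul_both {x y : LaurentSeries A} {a : ℤ} {s t : Set ℤ} (hs : s.IsPWO)
    (ht : t.IsPWO) (hxs : x.support ⊆ s) (hyt : y.support ⊆ t) :
    (x * y).coeff a = ∑ ij ∈ Finset.antidiagonal hs ht a, x.coeff ij.1 * y.coeff ij.2 := by
  rw [HahnSeries.coeff_mul_left' hs hxs]
  refine Finset.sum_subset (Finset.antidiagonal_mono_right hyt) (fun ij hmem hij => ?_)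
  have : ij.2 ∉ y.support := by
    intro h2
    apply hij
    rw [Finset.mem_antidiagonal] at hmem ⊢
    exact ⟨hmem.1, h2, hmem.2.2⟩
  have h0 : y.coeff ij.2 = 0 := by
    simpa [HahnSeries.mem_support] using this
  rw [h0, mul_zero]

/-! ### The rotation `t ↦ c t` -/

/-- `L(c t)`. -/
def rotFun (c : Aˣ) (L : LaurentSeries A) : LaurentSeries A where
  coeff n := L.coeff n * ((c ^ n : Aˣ) : A)
  isPWO_support' := L.isPWO_support.mono (fun n hn => by
    simp only [Function.mem_support, ne_eq] at hn
    simp only [HahnSeries.mem_support, ne_eq]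
    intro h
    exact hn (by rw [h, zero_mul]))

@[simp] theorem coeff_rotFun (c : Aˣ) (L : LaurentSeries A) (n : ℤ) :
    (rotFun c L).coeff n = L.coeff n * ((c ^ n : Aˣ) : A) := rfl

theorem support_rotFun_subset (c : Aˣ) (L : LaurentSeries A) :
    (rotFun c L).support ⊆ L.support := by
  intro n hn
  simp only [HahnSeries.mem_support, ne_eq, coeff_rotFun] at hn ⊢
  intro h
  exact hn (by rw [h, zero_mul])

theorem rotFun_one (L : LaurentSeries A) : rotFun 1 L = L := by
  ext n
  simp

theorem rotFun_rotFun (c c' : Aˣ) (L : LaurentSeries A) :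
    rotFun c (rotFun c' L) = rotFun (c' * c) L := by
  ext n
  simp only [coeff_rotFun, mul_zpow, Units.val_mul]
  ring

theorem rotFun_add (c : Aˣ) (x y : LaurentSeries A) :
    rotFun c (x + y) = rotFun c x + rotFun c y := by
  ext n
  simp only [coeff_rotFun, HahnSeries.coeff_add]
  ring

theorem rotFun_mul (c : Aˣ) (x y : LaurentSeries A) :
    rotFun c (x * y) = rotFun c x * rotFun c y := by
  ext a
  rw [coeff_rotFun, HahnSeries.coeff_mul,
    coeff_mul_both x.isPWO_support y.isPWO_support (support_rotFun_subset c x)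
      (support_rotFun_subset c y), Finset.sum_mul]
  refine Finset.sum_congr rfl (fun ij hij => ?_)
  rw [Finset.mem_antidiagonal] at hij
  rw [coeff_rotFun, coeff_rotFun, ← hij.2.2, zpow_add, Units.val_mul]
  ring

/-- The rotation `t ↦ c t` as a ring automorphism of `A((t))`. -/
def rot (c : Aˣ) : LaurentSeries A ≃+* LaurentSeries A where
  toFun := rotFun c
  invFun := rotFun c⁻¹
  left_inv L := by
    rw [rotFun_rotFun, mul_inv_cancel, rotFun_one]
  right_inv L := by
    rw [rotFun_rotFun, inv_mul_cancel, rotFun_one]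
  map_mul' x y := rotFun_mul c x y
  map_add' x y := rotFun_add c x y

@[simp] theorem coeff_rot (c : Aˣ) (L : LaurentSeries A) (n : ℤ) :
    (rot c L).coeff n = L.coeff n * ((c ^ n : Aˣ) : A) := rfl

theorem rot_one (L : LaurentSeries A) : rot (1 : Aˣ) L = L := rotFun_one L

theorem rot_rot (c c' : Aˣ) (L : LaurentSeries A) : rot c (rot c' L) = rot (c' * c) L :=
  rotFun_rotFun c c' L

theorem rot_pow (c : Aˣ) (n : ℕ) (L : LaurentSeries A) : (rot c)^[n] L = rot (c ^ n) L := by
  induction n generalizing L with
  | zero => simp [rot_one]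
  | succ n ih =>
    rw [Function.iterate_succ_apply', ih, rot_rot, pow_succ]

theorem rot_single (c : Aˣ) (n : ℤ) (a : A) :
    rot c (HahnSeries.single n a) = HahnSeries.single n (a * ((c ^ n : Aˣ) : A)) := by
  ext m
  rw [coeff_rot]
  rcases eq_or_ne m n with rfl | hm
  · simp
  · simp [HahnSeries.coeff_single_of_ne hm]

theorem rot_C (c : Aˣ) (a : A) : rot c (HahnSeries.C a) = HahnSeries.C a := by
  show rot c (HahnSeries.single 0 a) = HahnSeries.single 0 a
  rw [rot_single]
  simp

theorem coeff_rot_eq_zero_iff (c : Aˣ) (L : LaurentSeries A) (n : ℤ) :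
    (rot c L).coeff n = 0 ↔ L.coeff n = 0 := by
  rw [coeff_rot]
  exact Units.mul_left_eq_zero _

theorem support_rot (c : Aˣ) (L : LaurentSeries A) : (rot c L).support = L.support := by
  ext n
  simp only [HahnSeries.mem_support, ne_eq, coeff_rot_eq_zero_iff]

/-- The rotation preserves the order. -/
theorem order_rot (c : Aˣ) (L : LaurentSeries A) : (rot c L).order = L.order := by
  by_cases hL : L = 0
  · subst hL
    simp
  have hL' : rot c L ≠ 0 := by
    intro h
    exact hL ((rot c).map_eq_zero_iff.mp h)
  apply le_antisymm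
  · refine HahnSeries.order_le_of_coeff_ne_zero ?_
    rw [ne_eq, coeff_rot_eq_zero_iff, HahnSeries.coeff_order_eq_zero]
    exact hL
  · refine HahnSeries.order_le_of_coeff_ne_zero ?_
    rw [ne_eq, ← coeff_rot_eq_zero_iff c, HahnSeries.coeff_order_eq_zero]
    exact hL'

/-- rotation commutes with change of coefficients -/
theorem coeffMap_rot (f : A →+* B) (c : Aˣ) (L : LaurentSeries A) :
    coeffMap f (rot c L) = rot (Units.map (f : A →* B) c) (coeffMap f L) := by
  ext n
  rw [coeffMap_coeff, coeff_rot, coeff_rot, coeffMap_coeff, map_mul, ← map_zpow]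
  rfl

/-- rotation and `t ↦ t^m` -/
theorem rot_qExpand (m : ℕ) [NeZero m] (c : Aˣ) (L : LaurentSeries A) :
    rot c (qExpand A m L) = qExpand A m (rot (c ^ m) L) := by
  ext n
  by_cases hn : (m : ℤ) ∣ n
  · obtain ⟨k, rfl⟩ := hn
    rw [coeff_rot, qExpand_coeff_mul, qExpand_coeff_mul, coeff_rot, ← zpow_natCast, ← zpow_mul]
  · rw [coeff_rot, qExpand_coeff_of_not_dvd m _ hn, qExpand_coeff_of_not_dvd m _ hn, zero_mul]

/-- a rotation by an `m`-th root of unity fixes the series in `t^m` -/
theorem rot_qExpand_of_pow_eq_one (m : ℕ) [NeZero m] (c : Aˣ) (hc : c ^ m = 1)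
    (L : LaurentSeries A) : rot c (qExpand A m L) = qExpand A m L := by
  rw [rot_qExpand, hc, rot_one]

/-! ### The derivation `θ = t d/dt` -/

/-- `θ L = t L'`. -/
def thetaFun (L : LaurentSeries A) : LaurentSeries A where
  coeff n := (n : A) * L.coeff n
  isPWO_support' := L.isPWO_support.mono (fun n hn => by
    simp only [Function.mem_support, ne_eq] at hn
    simp only [HahnSeries.mem_support, ne_eq]
    intro h
    exact hn (by rw [h, mul_zero]))

theorem support_thetaFun_subset (L : LaurentSeries A) : (thetaFun L).support ⊆ L.support := by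
  intro n hn
  simp only [HahnSeries.mem_support, ne_eq] at hn ⊢
  intro h
  exact hn (by show (n : A) * L.coeff n = 0; rw [h, mul_zero])

/-- The derivation `θ = t d/dt` of `A((t))`, as an additive map. -/
def theta : LaurentSeries A →+ LaurentSeries A where
  toFun := thetaFun
  map_zero' := by
    ext n
    show (n : A) * (0 : LaurentSeries A).coeff n = 0
    simp
  map_add' x y := by
    ext n
    show (n : A) * (x + y).coeff n = (n : A) * x.coeff n + (n : A) * y.coeff n
    rw [HahnSeries.coeff_add, mul_add]

@[simp] theorem coeff_theta (L : LaurentSeries A) (n : ℤ) :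
    (theta L).coeff n = (n : A) * L.coeff n := rfl

theorem support_theta_subset (L : LaurentSeries A) : (theta L).support ⊆ L.support :=
  support_thetaFun_subset L

/-- **Leibniz rule**. -/
theorem theta_mul (x y : LaurentSeries A) : theta (x * y) = theta x * y + x * theta y := by
  ext a
  rw [coeff_theta, HahnSeries.coeff_add, HahnSeries.coeff_mul,
    coeff_mul_both x.isPWO_support y.isPWO_support (support_theta_subset x) subset_rfl,
    coeff_mul_both x.isPWO_support y.isPWO_support subset_rfl (support_theta_subset y),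
    Finset.mul_sum, ← Finset.sum_add_distrib]
  refine Finset.sum_congr rfl (fun ij hij => ?_)
  rw [Finset.mem_antidiagonal] at hij
  rw [coeff_theta, coeff_theta, ← hij.2.2]
  push_cast
  ring

theorem theta_single (n : ℤ) (a : A) :
    theta (HahnSeries.single n a) = HahnSeries.single n ((n : A) * a) := by
  ext m
  rw [coeff_theta]
  rcases eq_or_ne m n with rfl | hm
  · simp
  · simp [HahnSeries.coeff_single_of_ne hm]

theorem theta_C (a : A) : theta (HahnSeries.C a) = 0 := by
  show theta (HahnSeries.single 0 a) = 0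
  rw [theta_single]
  simp

theorem theta_one : theta (1 : LaurentSeries A) = 0 := by
  have := theta_C (1 : A)
  rwa [map_one] at this

theorem theta_neg (x : LaurentSeries A) : theta (-x) = -theta x := map_neg theta x

theorem theta_sub (x y : LaurentSeries A) : theta (x - y) = theta x - theta y :=
  map_sub theta x y

theorem theta_C_mul (a : A) (x : LaurentSeries A) :
    theta (HahnSeries.C a * x) = HahnSeries.C a * theta x := by
  rw [theta_mul, theta_C, zero_mul, zero_add]

theorem theta_pow (x : LaurentSeries A) (n : ℕ) :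
    theta (x ^ (n + 1)) = ((n + 1 : ℕ) : LaurentSeries A) * x ^ n * theta x := by
  induction n with
  | zero => simp
  | succ n ih =>
    rw [pow_succ, theta_mul, ih]
    push_cast
    ring

/-- `θ` commutes with change of coefficients -/
theorem coeffMap_theta (f : A →+* B) (L : LaurentSeries A) :
    coeffMap f (theta L) = theta (coeffMap f L) := by
  ext n
  rw [coeffMap_coeff, coeff_theta, coeff_theta, coeffMap_coeff, map_mul, map_intCast]

/-- chain rule for `t ↦ t^m` -/
theorem theta_qExpand (m : ℕ) [NeZero m] (L : LaurentSeries A) :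
    theta (qExpand A m L) = HahnSeries.C (m : A) * qExpand A m (theta L) := by
  ext n
  rw [HahnSeries.C_mul_eq_smul, HahnSeries.coeff_smul, smul_eq_mul]
  by_cases hn : (m : ℤ) ∣ n
  · obtain ⟨k, rfl⟩ := hn
    rw [coeff_theta, qExpand_coeff_mul, qExpand_coeff_mul, coeff_theta]
    push_cast
    ring
  · rw [coeff_theta, qExpand_coeff_of_not_dvd m _ hn, qExpand_coeff_of_not_dvd m _ hn,
      mul_zero, mul_zero]

/-- `θ` on power series is `X d/dX` -/
theorem theta_ofPowerSeries (S : PowerSeries A) :
    theta (HahnSeries.ofPowerSeries ℤ A S)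
      = HahnSeries.ofPowerSeries ℤ A (PowerSeries.X * PowerSeries.derivative A S) := by
  ext n
  rw [coeff_theta]
  rcases lt_or_ge n 0 with hn | hn
  · rw [ModularCurve.ofPowerSeries_coeff_of_neg _ hn, ModularCurve.ofPowerSeries_coeff_of_neg _ hn,
      mul_zero]
  · lift n to ℕ using hn
    rw [HahnSeries.ofPowerSeries_apply_coeff, HahnSeries.ofPowerSeries_apply_coeff]
    rcases n with _ | n
    · simp
    · rw [PowerSeries.coeff_succ_X_mul, PowerSeries.coeff_derivative]
      push_cast
      ring

section Field

variable {k : Type*} [Field k]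

theorem theta_inv {x : LaurentSeries k} (hx : x ≠ 0) : theta x⁻¹ = -(theta x) / x ^ 2 := by
  have h := theta_mul x x⁻¹
  rw [mul_inv_cancel₀ hx, theta_one] at h
  have h2 : x * theta x⁻¹ = -(theta x * x⁻¹) := by
    rw [eq_neg_iff_add_eq_zero, add_comm]
    exact h.symm
  have hx2 : x ^ 2 ≠ 0 := pow_ne_zero 2 hx
  rw [eq_div_iff hx2]
  calc theta x⁻¹ * x ^ 2 = (x * theta x⁻¹) * x := by ring
    _ = -(theta x * x⁻¹) * x := by rw [h2]
    _ = -theta x := by
      rw [neg_mul, mul_assoc, inv_mul_cancel₀ hx, mul_one]

theorem theta_div {x y : LaurentSeries k} (hy : y ≠ 0) :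
    theta (x / y) = (theta x * y - x * theta y) / y ^ 2 := by
  rw [div_eq_mul_inv, theta_mul, theta_inv hy]
  field_simp
  ring

end Field

end Fermat.Agent.S28
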