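import Mathlib
import Fermat.Prelude.Def_ModularCurve_X0ModL
import Fermat.Agent.Lib.ModJ.Rot
import Fermat.Agent.Lib.ModJ.QExpJ
import Fermat.Agent.Lib.ModJ.Surj
import Fermat.Agent.S20.CuspEstimate

/-!
# S28 (Igusa), piece P3, part 1: Lemma L

A holomorphic `SL₂(ℤ)`-invariant function on `ℍ` which is the sum of a Laurent series `L` in
`q_N = exp(2πiz/N)` is a polynomial in `j`; its coefficients lie in every subring of `ℂ` which
contains the coefficients of `L`.
-/

set_option autoImplicit false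

noncomputable section

open UpperHalfPlane Function Complex Filter Topology CongruenceSubgroup
open scoped MatrixGroups Manifold ModularForm

namespace Fermat.Agent.S28.LemmaL

open Fermat.Agent.Lib.ModJ ModularCurve

local notation "𝕢" => Periodic.qParam

/-- the complex `q`-expansion of `j`, in the prelude's normal form -/
theorem jqC_eq_jqModC : jqC = jqModC ℂ := by
  rw [jqC, coeffEmb, ← jqModC_rat]
  exact coeffMap_jqModC (algebraMap ℚ ℂ)

theorem natCast_pos_real' (N : ℕ) [NeZero N] : (0 : ℝ) < (N : ℝ) := by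
  exact_mod_cast Nat.pos_of_ne_zero (NeZero.ne N)

theorem qParam_one_eq_pow' (N : ℕ) [NeZero N] (z : ℍ) : 𝕢 1 z = 𝕢 (N : ℝ) z ^ N := by
  have hN : (N : ℂ) ≠ 0 := by exact_mod_cast NeZero.ne N
  simp only [Periodic.qParam, ← Complex.exp_nat_mul]
  congr 1
  push_cast
  field_simp

/-- the `q_N`-expansion of `j` -/
theorem hasQL_jFun_level (N : ℕ) [NeZero N] : HasQL N jFun (qExpand ℂ N (jqModC ℂ)) := by
  rw [← jqC_eq_jqModC]
  exact hasQL_jFun.comp N id (fun z => qParam_one_eq_pow' N z)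

/-- a weight-zero level-one form from an invariant holomorphic function bounded at `i∞` -/
theorem const_of_isZeroAtImInfty {h : ℍ → ℂ} (hh : MDiff h)
    (hinv : ∀ (γ : SL(2, ℤ)) (z : ℍ), h (γ • z) = h z)
    (h0 : UpperHalfPlane.IsZeroAtImInfty h) : ∀ z, h z = 0 := by
  have hslash : ∀ γ : SL(2, ℤ), h ∣[(0 : ℤ)] γ = h := by
    intro γ
    ext z
    rw [ModularForm.SL_slash_apply, hinv γ z]
    simp
  let f : CuspForm 𝒮ℒ 0 :=
    { toFun := h
      slash_action_eq' := by
        rintro A ⟨g, hg, rfl⟩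
        exact hslash g
      holo' := hh
      zero_at_cusps' := by
        intro c hc
        rw [Subgroup.IsArithmetic.isCusp_iff_isCusp_SL2Z] at hc
        rw [OnePoint.isZeroAt_iff_forall_SL2Z hc]
        intro γ _
        rw [hslash γ]
        exact h0 }
  obtain ⟨c, hc⟩ := ModularFormClass.levelOne_weight_zero_const f
  have hc' : ∀ z, h z = c := fun z => congrFun hc z
  have hlim : Tendsto h atImInfty (𝓝 0) := h0
  have hlim2 : Tendsto h atImInfty (𝓝 c) := by
    have : h = fun _ => c := funext hc'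
    rw [this]
    exact tendsto_const_nhds
  have hc0 : c = 0 := tendsto_nhds_unique hlim2 hlim
  intro z
  rw [hc' z, hc0]


/-! ### Laurent series with coefficients in a subring -/

/-- all coefficients of `L` lie in the subring `A` -/
def CoeffIn (A : Subring ℂ) (L : LaurentSeries ℂ) : Prop := ∀ n : ℤ, L.coeff n ∈ A

namespace CoeffIn

variable {A : Subring ℂ} {L L' : LaurentSeries ℂ}

theorem zero : CoeffIn A 0 := fun n => by simp [A.zero_mem]

theorem add (h : CoeffIn A L) (h' : CoeffIn A L') : CoeffIn A (L + L') := fun n => by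
  rw [HahnSeries.coeff_add]
  exact A.add_mem (h n) (h' n)

theorem neg (h : CoeffIn A L) : CoeffIn A (-L) := fun n => by
  rw [HahnSeries.coeff_neg]
  exact A.neg_mem (h n)

theorem sub (h : CoeffIn A L) (h' : CoeffIn A L') : CoeffIn A (L - L') := by
  rw [sub_eq_add_neg]
  exact h.add h'.neg

theorem mul (h : CoeffIn A L) (h' : CoeffIn A L') : CoeffIn A (L * L') := fun n => by
  rw [HahnSeries.coeff_mul]
  exact A.sum_mem (fun ij _ => A.mul_mem (h _) (h' _))

theorem single {c : ℂ} (hc : c ∈ A) (k : ℤ) : CoeffIn A (HahnSeries.single k c) := fun n => by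
  rw [HahnSeries.coeff_single]
  split_ifs
  · exact hc
  · exact A.zero_mem

theorem C {c : ℂ} (hc : c ∈ A) : CoeffIn A (HahnSeries.C c) := single hc 0

theorem one : CoeffIn A 1 := C A.one_mem

theorem pow (h : CoeffIn A L) (n : ℕ) : CoeffIn A (L ^ n) := by
  induction n with
  | zero => rw [pow_zero]; exact one
  | succ n ih => rw [pow_succ]; exact ih.mul h

theorem qExpand (N : ℕ) [NeZero N] (h : CoeffIn A L) : CoeffIn A (qExpand ℂ N L) := fun n => by
  by_cases hn : (N : ℤ) ∣ n
  · obtain ⟨m, rfl⟩ := hn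
    rw [qExpand_coeff_mul]
    exact h m
  · rw [qExpand_coeff_of_not_dvd N L hn]
    exact A.zero_mem

theorem jqModC : CoeffIn A (jqModC ℂ) := fun n => by
  rw [coeff_jqModC_eq_intCast]
  exact intCast_mem A _

end CoeffIn

/-! ### Lemma L -/

theorem coeff_C_eq (c : ℂ) (k : ℤ) :
    (HahnSeries.C c : LaurentSeries ℂ).coeff k = if k = 0 then c else 0 := by
  rw [HahnSeries.C_apply, HahnSeries.coeff_single]
  split_ifs <;> rfl

/-- the base case: no pole at `i∞` implies constant -/
theorem const_of_coeff_neg_eq_zero (N : ℕ) [NeZero N] {h : ℍ → ℂ} (hh : MDiff h)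
    (hinv : ∀ (γ : SL(2, ℤ)) (z : ℍ), h (γ • z) = h z)
    {L : LaurentSeries ℂ} (hL : HasQL N h L) (hneg : ∀ n : ℤ, n < 0 → L.coeff n = 0) :
    (∀ z, h z = L.coeff 0) ∧ L = HahnSeries.C (L.coeff 0) := by
  have hN := natCast_pos_real' N
  set c := L.coeff 0 with hc
  have h1 : HasQL N (fun z => h z - c) (L - HahnSeries.C c) := hL.sub (hasQL_C c)
  have hord : L - HahnSeries.C c = 0 ∨
      (1 : LaurentSeries ℂ).order < (L - HahnSeries.C c).order := by
    by_cases h0 : L - HahnSeries.C c = 0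
    · exact Or.inl h0
    · right
      rw [HahnSeries.order_one]
      by_contra hcon
      rw [not_lt] at hcon
      have h2 : (L - HahnSeries.C c).coeff (L - HahnSeries.C c).order ≠ 0 := by
        rwa [ne_eq, HahnSeries.coeff_order_eq_zero]
      apply h2
      rw [HahnSeries.coeff_sub]
      rcases hcon.lt_or_eq with hlt | heq
      · rw [hneg _ hlt, coeff_C_eq, if_neg hlt.ne, sub_zero]
      · rw [heq, coeff_C_eq, if_pos rfl, hc, sub_self]
  have hz : UpperHalfPlane.IsZeroAtImInfty (fun z => h z - c) :=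
    Fermat.Agent.S20.isZeroAtImInfty_of_mul_eq (N := N) (G := fun z => h z - c) h1 hasQL_one
      one_ne_zero (fun z => mul_one _) hord
  have hmd : MDiff (fun z => h z - c) := hh.sub mdifferentiable_const
  have h0 := const_of_isZeroAtImInfty hmd (fun γ z => by
    show h (γ • z) - c = h z - c
    rw [hinv]) hz
  have hconst : ∀ z, h z = c := fun z => sub_eq_zero.mp (h0 z)
  refine ⟨hconst, ?_⟩
  exact HasQL.unique hN hL ((hasQL_C (h := N) c).congr (fun z => (hconst z).symm))

/-- invariance under `z ↦ z + 1` kills the coefficients at exponents prime to the level -/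
theorem coeff_eq_zero_of_not_dvd (N : ℕ) [NeZero N] {h : ℍ → ℂ}
    (hinv : ∀ (γ : SL(2, ℤ)) (z : ℍ), h (γ • z) = h z)
    {L : LaurentSeries ℂ} (hL : HasQL N h L) {n : ℤ} (hn : ¬ (N : ℤ) ∣ n) : L.coeff n = 0 := by
  have hN : 0 < N := Nat.pos_of_ne_zero (NeZero.ne N)
  by_contra hne
  have h1 := HasQL.shift hN hL 1
  have h2 : HasQL N h (rotL (zetaN N ^ (1 : ℤ)) (zpow_ne_zero 1 (zetaN_ne_zero N)) L) :=
    h1.congr (fun z => by
      rw [← T_zpow_smul_eq_shiftH 1 z, hinv])
  have h3 := HasQL.unique (natCast_pos_real' N) h2 hL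
  have h4 := dvd_of_rotL_eq hN 1 h3 hne
  rw [one_mul] at h4
  exact hn h4

theorem coeff_qExpand_jqModC_pow_self (N : ℕ) [NeZero N] (m : ℕ) :
    ((ModularCurve.qExpand ℂ N (ModularCurve.jqModC ℂ)) ^ m).coeff (-((N : ℤ) * m)) = 1 := by
  rw [← map_pow, show -((N : ℤ) * m) = (N : ℤ) * (-(m : ℤ)) by ring, qExpand_coeff_mul,
    coeff_jqModC_pow_self]

theorem coeff_qExpand_jqModC_pow_of_lt (N : ℕ) [NeZero N] (m : ℕ) {n : ℤ}
    (hn : n < -((N : ℤ) * m)) :
    ((ModularCurve.qExpand ℂ N (ModularCurve.jqModC ℂ)) ^ m).coeff n = 0 := by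
  rw [← map_pow]
  by_cases hd : (N : ℤ) ∣ n
  · obtain ⟨k, rfl⟩ := hd
    rw [qExpand_coeff_mul]
    apply coeff_jqModC_pow_of_lt
    have hN : (0 : ℤ) < N := by exact_mod_cast Nat.pos_of_ne_zero (NeZero.ne N)
    by_contra hcon
    rw [not_lt] at hcon
    nlinarith
  · exact qExpand_coeff_of_not_dvd N _ hd

/-- **Lemma L**, with a bound on the pole order. -/
theorem lemmaL_aux (N : ℕ) [NeZero N] (A : Subring ℂ) (m : ℕ) :
    ∀ {h : ℍ → ℂ}, MDiff h → (∀ (γ : SL(2, ℤ)) (z : ℍ), h (γ • z) = h z) →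
      ∀ {L : LaurentSeries ℂ}, HasQL N h L → CoeffIn A L →
        (∀ n : ℤ, n < -((N : ℤ) * m) → L.coeff n = 0) →
        ∃ P : Polynomial ℂ, (∀ n, P.coeff n ∈ A) ∧ (∀ z, h z = P.eval (jFun z)) ∧
          L = Polynomial.aeval (ModularCurve.qExpand ℂ N (ModularCurve.jqModC ℂ)) P := by
  induction m with
  | zero =>
    intro h hh hinv L hL hA hbd
    have hneg : ∀ n : ℤ, n < 0 → L.coeff n = 0 := fun n hn => hbd n (by simpa using hn)
    obtain ⟨h1, h2⟩ := const_of_coeff_neg_eq_zero N hh hinv hL hneg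
    refine ⟨Polynomial.C (L.coeff 0), fun n => ?_, fun z => ?_, ?_⟩
    · rw [Polynomial.coeff_C]
      split_ifs
      · exact hA 0
      · exact A.zero_mem
    · rw [Polynomial.eval_C]
      exact h1 z
    · rw [Polynomial.aeval_C, ModularCurve.algebraMap_laurentSeries_eq_single]
      exact h2
  | succ m ih =>
    intro h hh hinv L hL hA hbd
    have hN : (0 : ℤ) < N := by exact_mod_cast Nat.pos_of_ne_zero (NeZero.ne N)
    set J := ModularCurve.qExpand ℂ N (ModularCurve.jqModC ℂ) with hJ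
    set c := L.coeff (-((N : ℤ) * ((m + 1 : ℕ) : ℤ))) with hc
    have hcA : c ∈ A := hA _
    have hJm : HasQL N (fun z => jFun z ^ (m + 1)) (J ^ (m + 1)) := (hasQL_jFun_level N).pow _
    have hL' : HasQL N (fun z => h z - c * jFun z ^ (m + 1)) (L - HahnSeries.C c * J ^ (m + 1)) :=
      hL.sub ((hasQL_C c).mul hJm)
    have hmd : MDiff (fun z => h z - c * jFun z ^ (m + 1)) := by
      exact hh.sub (mdifferentiable_const.mul (jFun_mdiff.pow _))
    have hinv' : ∀ (γ : SL(2, ℤ)) (z : ℍ),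
        (fun z => h z - c * jFun z ^ (m + 1)) (γ • z) = (fun z => h z - c * jFun z ^ (m + 1)) z := by
      intro γ z
      show h (γ • z) - c * jFun (γ • z) ^ (m + 1) = h z - c * jFun z ^ (m + 1)
      rw [hinv, jFun_smul]
    have hA' : CoeffIn A (L - HahnSeries.C c * J ^ (m + 1)) :=
      hA.sub ((CoeffIn.C hcA).mul ((CoeffIn.jqModC.qExpand N).pow _))
    have hbd' : ∀ n : ℤ, n < -((N : ℤ) * (m : ℕ)) → (L - HahnSeries.C c * J ^ (m + 1)).coeff n = 0 := by
      intro n hn
      by_cases hd : (N : ℤ) ∣ n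
      · obtain ⟨k, rfl⟩ := hd
        have hk : k < -(m : ℤ) := by
          by_contra hcon
          rw [not_lt] at hcon
          nlinarith
        rw [HahnSeries.coeff_sub, HahnSeries.C_mul_eq_smul, HahnSeries.coeff_smul, smul_eq_mul]
        rcases (show k ≤ -((m : ℤ) + 1) by omega).lt_or_eq with hlt | heq
        · rw [hbd _ (by push_cast; nlinarith),
            coeff_qExpand_jqModC_pow_of_lt N (m + 1) (by push_cast; nlinarith), mul_zero, sub_zero]
        · have e1 : (N : ℤ) * k = -((N : ℤ) * ((m + 1 : ℕ) : ℤ)) := by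
            rw [heq]; push_cast; ring
          rw [e1, coeff_qExpand_jqModC_pow_self N (m + 1), mul_one, ← hc, sub_self]
      · exact coeff_eq_zero_of_not_dvd N hinv' hL' hd
    obtain ⟨P, hPA, hPh, hPL⟩ := ih hmd hinv' hL' hA' hbd'
    refine ⟨P + Polynomial.C c * Polynomial.X ^ (m + 1), fun n => ?_, fun z => ?_, ?_⟩
    · rw [Polynomial.coeff_add, Polynomial.coeff_C_mul, Polynomial.coeff_X_pow]
      refine A.add_mem (hPA n) (A.mul_mem hcA ?_)
      split_ifs
      · exact A.one_mem
      · exact A.zero_mem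
    · rw [Polynomial.eval_add, Polynomial.eval_mul, Polynomial.eval_C, Polynomial.eval_pow,
        Polynomial.eval_X, ← hPh z]
      ring
    · rw [map_add, map_mul, Polynomial.aeval_C, map_pow, Polynomial.aeval_X, ← hPL,
        ModularCurve.algebraMap_laurentSeries_eq_single, HahnSeries.C_apply]
      ring

/-- **Lemma L.** A holomorphic `SL₂(ℤ)`-invariant function which is the sum of a Laurent series
`L` in `q_N` is a polynomial `P` in `j`, the coefficients of `P` lie in every subring containing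
the coefficients of `L`, and `L = P(j(q^N))` as Laurent series. -/
theorem lemmaL (N : ℕ) [NeZero N] (A : Subring ℂ) {h : ℍ → ℂ} (hh : MDiff h)
    (hinv : ∀ (γ : SL(2, ℤ)) (z : ℍ), h (γ • z) = h z)
    {L : LaurentSeries ℂ} (hL : HasQL N h L) (hA : CoeffIn A L) :
    ∃ P : Polynomial ℂ, (∀ n, P.coeff n ∈ A) ∧ (∀ z, h z = P.eval (jFun z)) ∧
      L = Polynomial.aeval (ModularCurve.qExpand ℂ N (ModularCurve.jqModC ℂ)) P := by
  -- a bound on the pole order
  obtain ⟨m, hm⟩ : ∃ m : ℕ, ∀ n : ℤ, n < -((N : ℤ) * m) → L.coeff n = 0 := by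
    have hN : (1 : ℤ) ≤ N := by exact_mod_cast Nat.pos_of_ne_zero (NeZero.ne N)
    by_cases h0 : L = 0
    · exact ⟨0, fun n _ => by rw [h0]; rfl⟩
    · refine ⟨(-L.order).toNat, fun n hn => ?_⟩
      apply HahnSeries.coeff_eq_zero_of_lt_order
      have h1 : -L.order ≤ ((-L.order).toNat : ℤ) := Int.self_le_toNat _
      have h2 : (0 : ℤ) ≤ ((-L.order).toNat : ℤ) := Int.natCast_nonneg _
      nlinarith
  exact lemmaL_aux N A m hh hinv hL hA hm

end Fermat.Agent.S28.LemmaL
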