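import Mathlib
import Fermat.Prelude.Def_ModularCurve_X0ModL
import Fermat.Agent.Lib.ModJ.Distinct
import Fermat.Agent.Lib.ModJ.Rot
import Fermat.Agent.Lib.ModJ.Surj
import Fermat.Agent.S28.Basic
import Fermat.Agent.S28.LemmaL

/-!
# S28 (Igusa), piece P3, part 2: the modular equation of prime level (I.1)

For a prime `p` and a field `k` with a primitive `p`-th root of unity `ζ` there is a polynomial
`Φ ∈ k[X][T]`, monic of degree `p + 1` in `T`, with

  `Φ(T, J(t^p)) = (T − J(t^{p²})) · ∏_{b < p} (T − J(ζ^b t))`   in `k((t))[T]`.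

It is constructed over `ℂ` from the symmetric functions of the `p + 1` functions `j(p γ z)`
(Lemma L gives coefficients in `ℤ[ζ_p]`) and then transported to `k`.
-/

set_option autoImplicit false

noncomputable section

open UpperHalfPlane Function Complex Filter Topology CongruenceSubgroup Polynomial
open scoped MatrixGroups Manifold ModularForm

namespace Fermat.Agent.S28.ModEq

open Fermat.Agent.Lib.ModJ Fermat.Agent.S28 Fermat.Agent.S28.LemmaL

local notation "𝕢" => Periodic.qParam

/-! ### The roots, over an arbitrary ring -/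

section Roots

variable {R S : Type*} [CommRing R] [CommRing S]

/-- the `p + 1` roots: `J(t^{p²})` and `J(ζ^b t)`, `b < p` -/
def root (p : ℕ) [NeZero p] (ζ : Rˣ) : Option (Fin p) → LaurentSeries R
  | none => ModularCurve.qExpand R (p ^ 2) (ModularCurve.jqModC R)
  | some b => rot (ζ ^ (b : ℕ)) (ModularCurve.jqModC R)

/-- the polynomial with the `p + 1` roots -/
def Psi (p : ℕ) [NeZero p] (ζ : Rˣ) : Polynomial (LaurentSeries R) :=
  ∏ i : Option (Fin p), (X - C (root p ζ i))

theorem coeffMap_root (f : R →+* S) (p : ℕ) [NeZero p] (ζ : Rˣ) (i : Option (Fin p)) :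
    ModularCurve.coeffMap f (root p ζ i) = root p (Units.map (f : R →* S) ζ) i := by
  cases i with
  | none =>
    show ModularCurve.coeffMap f (ModularCurve.qExpand R (p ^ 2) (ModularCurve.jqModC R)) = _
    rw [ModularCurve.coeffMap_qExpand, ModularCurve.coeffMap_jqModC]
    rfl
  | some b =>
    show ModularCurve.coeffMap f (rot (ζ ^ (b : ℕ)) (ModularCurve.jqModC R)) = _
    rw [coeffMap_rot, ModularCurve.coeffMap_jqModC, map_pow]
    rfl

theorem map_Psi (f : R →+* S) (p : ℕ) [NeZero p] (ζ : Rˣ) :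
    (Psi p ζ).map (ModularCurve.coeffMap f) = Psi p (Units.map (f : R →* S) ζ) := by
  rw [Psi, Psi, Polynomial.map_prod]
  refine Finset.prod_congr rfl (fun i _ => ?_)
  rw [Polynomial.map_sub, Polynomial.map_X, Polynomial.map_C, coeffMap_root]

theorem Psi_monic (p : ℕ) [NeZero p] (ζ : Rˣ) : (Psi p ζ).Monic :=
  monic_prod_of_monic _ _ (fun _ _ => monic_X_sub_C _)

theorem Psi_natDegree [Nontrivial R] (p : ℕ) [NeZero p] (ζ : Rˣ) :
    (Psi p ζ).natDegree = p + 1 := by
  rw [Psi, natDegree_prod_of_monic _ _ (fun i _ => monic_X_sub_C _)]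
  simp

/-- the consumer form of the product -/
theorem Psi_eq (p : ℕ) [NeZero p] (ζ : Rˣ) :
    Psi p ζ = (X - C (ModularCurve.qExpand R (p ^ 2) (ModularCurve.jqModC R))) *
      ∏ b ∈ Finset.range p, (X - C (rot (ζ ^ b) (ModularCurve.jqModC R))) := by
  rw [Psi, Fintype.prod_option, Finset.prod_range]
  rfl

end Roots

/-! ### The analytic side -/

section Analytic

variable (p : ℕ) [hp : Fact p.Prime]

theorem neZero_p : NeZero p := ⟨hp.out.ne_zero⟩

attribute [local instance] neZero_p

/-- `p` as a positive natural number -/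
def pP : ℕ+ := ⟨p, hp.out.pos⟩

/-- the complex primitive root `exp(2πi/p)`, as a unit -/
def zetaU : ℂˣ := Units.mk0 (zetaN p) (zetaN_ne_zero p)

theorem zetaU_val : ((zetaU p : ℂˣ) : ℂ) = zetaN p := rfl

theorem isPrimitiveRoot_zetaN : IsPrimitiveRoot (zetaN p) p :=
  Complex.isPrimitiveRoot_exp p hp.out.ne_zero

theorem zetaPow_eq (b : ℕ) : zetaPow b p = zetaN p ^ b := by
  rw [zetaPow, zetaN, ← Complex.exp_nat_mul]
  congr 1
  ring

/-- comparison of the two rotations -/
theorem rot_eq_rotFun (c : ℂˣ) (L : LaurentSeries ℂ) :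
    rot c L = Fermat.Agent.Lib.ModJ.rotFun (c : ℂ) L := by
  ext n
  rw [coeff_rot]
  show _ = L.coeff n * (c : ℂ) ^ n
  rw [Units.val_zpow_eq_zpow_val]

/-- the matrices `γ_i`: the identity and `S T^b` -/
def gam : Option (Fin p) → SL(2, ℤ)
  | none => 1
  | some b => ⟨!![0, -1; 1, (b : ℕ)], by simp [Matrix.det_fin_two_of]⟩

/-- the functions `j(p γ_i z)`: `j(p z)` and `j((z + b)/p)` -/
def fn (i : Option (Fin p)) (z : ℍ) : ℂ := jFunD (pP p) (gam p i • z)

theorem hasQL_fn (i : Option (Fin p)) : HasQL p (fn p i) (root p (zetaU p) i) := by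
  have hp0 : 0 < p := hp.out.pos
  cases i with
  | none =>
    have h1 := hasQL_jFunD_smul_of_hermite hp0 (pP p) dvd_rfl 1 1 p 0 1
      (by simp [pP]) (by simp [pP]) (by simp [pP]) (by simp) (by simp)
    rw [zetaPow_zero, Nat.div_one] at h1
    have : NeZero (p * p) := ⟨Nat.mul_ne_zero hp0.ne' hp0.ne'⟩
    rw [twistExpand_one, jqC_eq_jqModC] at h1
    have h2 : root p (zetaU p) none = ModularCurve.qExpand ℂ (p * p) (ModularCurve.jqModC ℂ) := by
      show ModularCurve.qExpand ℂ (p ^ 2) (ModularCurve.jqModC ℂ) = _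
      exact ModularCurve.qExpand_congr (sq p) _
    rw [h2]
    exact h1
  | some b =>
    have h1 := hasQL_jFunD_smul_of_hermite hp0 (pP p) dvd_rfl (gam p (some b))
      ModularGroup.S 1 b p (by simp [pP])
      (by simp [pP, gam, ModularGroup.S]) (by simp [pP, gam, ModularGroup.S])
      (by simp [gam, ModularGroup.S]) (by simp [gam, ModularGroup.S])
    rw [mul_one, Nat.div_self hp0, ← rotFun_eq_twistExpand, zetaPow_eq, jqC_eq_jqModC] at h1
    have h2 : root p (zetaU p) (some b) =
        Fermat.Agent.Lib.ModJ.rotFun (zetaN p ^ (b : ℕ)) (ModularCurve.jqModC ℂ) := by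
      show rot ((zetaU p) ^ (b : ℕ)) (ModularCurve.jqModC ℂ) = _
      rw [rot_eq_rotFun]
      rfl
    rw [h2]
    exact h1


theorem natCast_pos_real (p : ℕ) [hp : Fact p.Prime] : (0 : ℝ) < (p : ℝ) := by
  exact_mod_cast hp.out.pos

/-- **Claim 1**: every `j(p γ z)` is one of the `p + 1` functions. -/
theorem exists_hasQL (γ : SL(2, ℤ)) :
    ∃ i : Option (Fin p), HasQL p (fun z => jFunD (pP p) (γ • z)) (root p (zetaU p) i) := by
  have hp0 : 0 < p := hp.out.pos
  obtain ⟨A, B, D, hAD, hBD, -, hQ⟩ := hasQL_jFunD_smul hp0 (pP p) dvd_rfl γ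
  have hAD' : A * D = p := hAD
  have hA : A ∣ p := ⟨D, hAD'.symm⟩
  rcases (Nat.dvd_prime hp.out).mp hA with hA1 | hAp
  · -- `A = 1`, `D = p`
    have hD : D = p := by rw [hA1, one_mul] at hAD'; exact hAD'
    subst hA1
    rw [hD] at hBD hQ
    refine ⟨some ⟨B, hBD⟩, ?_⟩
    rw [mul_one, Nat.div_self hp0, ← rotFun_eq_twistExpand, zetaPow_eq, jqC_eq_jqModC] at hQ
    have h2 : root p (zetaU p) (some ⟨B, hBD⟩) =
        Fermat.Agent.Lib.ModJ.rotFun (zetaN p ^ B) (ModularCurve.jqModC ℂ) := by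
      show rot ((zetaU p) ^ B) (ModularCurve.jqModC ℂ) = _
      rw [rot_eq_rotFun]
      rfl
    rw [h2]
    exact hQ
  · -- `A = p`, `D = 1`
    have hD : D = 1 := by
      rw [hAp] at hAD'
      exact Nat.eq_of_mul_eq_mul_left hp0 (by rw [hAD', mul_one])
    rw [hD] at hBD hQ
    have hB : B = 0 := by omega
    rw [hB, hAp, zetaPow_zero, Nat.div_one] at hQ
    have : NeZero (p * p) := ⟨Nat.mul_ne_zero hp0.ne' hp0.ne'⟩
    rw [twistExpand_one, jqC_eq_jqModC] at hQ
    refine ⟨none, ?_⟩
    have h2 : root p (zetaU p) none = ModularCurve.qExpand ℂ (p * p) (ModularCurve.jqModC ℂ) := by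
      show ModularCurve.qExpand ℂ (p ^ 2) (ModularCurve.jqModC ℂ) = _
      exact ModularCurve.qExpand_congr (sq p) _
    rw [h2]
    exact hQ

/-- the roots are pairwise distinct -/
theorem root_injective : Function.Injective (root p (zetaU p)) := by
  have hp0 : 0 < p := hp.out.pos
  have hp2 : 2 ≤ p := hp.out.two_le
  -- coefficient of `t^(-p²)`
  have hnone : (root p (zetaU p) none).coeff (-((p ^ 2 : ℕ) : ℤ)) = 1 := by
    show (ModularCurve.qExpand ℂ (p ^ 2) (ModularCurve.jqModC ℂ)).coeff _ = 1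
    rw [show (-((p ^ 2 : ℕ) : ℤ)) = ((p ^ 2 : ℕ) : ℤ) * (-1) by ring,
      ModularCurve.qExpand_coeff_mul, ModularCurve.coeff_jqModC_neg_one]
  have hsome : ∀ b : Fin p, (root p (zetaU p) (some b)).coeff (-((p ^ 2 : ℕ) : ℤ)) = 0 := by
    intro b
    show (rot ((zetaU p) ^ (b : ℕ)) (ModularCurve.jqModC ℂ)).coeff _ = 0
    rw [coeff_rot, ModularCurve.coeff_jqModC_of_lt, zero_mul]
    have : (2 : ℤ) ≤ p := by exact_mod_cast hp2
    push_cast
    nlinarith
  have hsome1 : ∀ b : Fin p, (root p (zetaU p) (some b)).coeff (-1) = (zetaN p ^ (b : ℕ))⁻¹ := by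
    intro b
    show (rot ((zetaU p) ^ (b : ℕ)) (ModularCurve.jqModC ℂ)).coeff _ = _
    rw [coeff_rot, ModularCurve.coeff_jqModC_neg_one, one_mul, zpow_neg_one]
    simp [zetaU_val]
  intro i i' h
  cases i with
  | none =>
    cases i' with
    | none => rfl
    | some b' =>
      have := congrArg (fun L : LaurentSeries ℂ => L.coeff (-((p ^ 2 : ℕ) : ℤ))) h
      simp only [hnone, hsome] at this
      exact absurd this one_ne_zero
  | some b =>
    cases i' with
    | none =>
      have := congrArg (fun L : LaurentSeries ℂ => L.coeff (-((p ^ 2 : ℕ) : ℤ))) h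
      simp only [hnone, hsome] at this
      exact absurd this.symm one_ne_zero
    | some b' =>
      have h1 := congrArg (fun L : LaurentSeries ℂ => L.coeff (-1)) h
      simp only [hsome1] at h1
      have h2 : zetaN p ^ (b : ℕ) = zetaN p ^ (b' : ℕ) := inv_injective h1
      have h3 := (isPrimitiveRoot_zetaN p).pow_inj b.2 b'.2 h2
      exact congrArg some (Fin.ext h3)

theorem fn_smul_exists (γ : SL(2, ℤ)) (i : Option (Fin p)) :
    ∃ i' : Option (Fin p), ∀ z, fn p i (γ • z) = fn p i' z := by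
  obtain ⟨i', hi'⟩ := exists_hasQL p (gam p i * γ)
  refine ⟨i', fun z => ?_⟩
  have h1 : HasQL p (fun z => fn p i (γ • z)) (root p (zetaU p) i') :=
    hi'.congr (fun z => by
      show jFunD (pP p) ((gam p i * γ) • z) = jFunD (pP p) (gam p i • γ • z)
      rw [mul_smul])
  exact HasQL.unique_fun (natCast_pos_real p) h1 (hasQL_fn p i') z

/-- the permutation of the indices induced by `γ` -/
def perm (γ : SL(2, ℤ)) (i : Option (Fin p)) : Option (Fin p) := (fn_smul_exists p γ i).choose

theorem fn_smul (γ : SL(2, ℤ)) (i : Option (Fin p)) (z : ℍ) :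
    fn p i (γ • z) = fn p (perm p γ i) z :=
  (fn_smul_exists p γ i).choose_spec z

theorem fn_injective {i i' : Option (Fin p)} (h : ∀ z, fn p i z = fn p i' z) : i = i' := by
  apply root_injective p
  exact HasQL.unique (natCast_pos_real p) (hasQL_fn p i) ((hasQL_fn p i').congr (fun z => (h z).symm))

theorem perm_bijective (γ : SL(2, ℤ)) : Function.Bijective (perm p γ) := by
  rw [← Finite.injective_iff_bijective]
  intro i i' h
  apply fn_injective p
  intro z
  have h1 := fn_smul p γ i (γ⁻¹ • z)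
  have h2 := fn_smul p γ i' (γ⁻¹ • z)
  rw [smul_inv_smul] at h1 h2
  rw [h1, h2, h]

/-- the polynomial `∏ (T − f_i(z))` -/
def polyAt (z : ℍ) : Polynomial ℂ := ∏ i : Option (Fin p), (X - C (fn p i z))

theorem polyAt_smul (γ : SL(2, ℤ)) (z : ℍ) : polyAt p (γ • z) = polyAt p z := by
  rw [polyAt, polyAt]
  rw [← (perm_bijective p γ).prod_comp (fun i => (X - C (fn p i z) : Polynomial ℂ))]
  refine Finset.prod_congr rfl (fun i _ => ?_)
  rw [fn_smul]

theorem jFunD_mdiff' (d : ℕ+) : MDiff (jFunD d) := by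
  rw [UpperHalfPlane.mdifferentiable_iff]
  have h1 : DifferentiableOn ℂ (fun w : ℂ => jC (((d : ℕ) : ℂ) * w)) {z : ℂ | 0 < z.im} := by
    refine jC_differentiableOn.comp (f := fun w : ℂ => ((d : ℕ) : ℂ) * w)
      ((differentiable_id.const_mul _).differentiableOn) ?_
    intro w hw
    have h1 : (0 : ℝ) < ((d : ℕ) : ℝ) := by exact_mod_cast d.pos
    show 0 < (((d : ℕ) : ℂ) * w).im
    have : (((d : ℕ) : ℂ) * w).im = ((d : ℕ) : ℝ) * w.im := by simp [Complex.mul_im]
    rw [this]
    exact mul_pos h1 hw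
  refine h1.congr ?_
  intro w hw
  show jFunD d (ofComplex w) = jC (((d : ℕ) : ℂ) * w)
  rw [jFunD, ← jC_coe, coe_pnatSMul, ofComplex_apply_of_im_pos hw]

theorem fn_mdiff (i : Option (Fin p)) : MDiff (fn p i) := by
  have h : 0 < (Matrix.SpecialLinearGroup.mapGL ℝ (gam p i)).det.val := by simp
  exact (jFunD_mdiff' (pP p)).comp (mdifferentiable_smul h)

end Analytic

/-! ### Coefficients of a product of linear factors -/

section Coeff

variable {ι : Type*}

theorem hasQL_coeff_prod {N : ℝ} (s : Finset ι) (f : ι → ℍ → ℂ) (F : ι → LaurentSeries ℂ)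
    (hf : ∀ i ∈ s, HasQL N (f i) (F i)) (k : ℕ) :
    HasQL N (fun z => (∏ i ∈ s, (X - C (f i z) : Polynomial ℂ)).coeff k)
      ((∏ i ∈ s, (X - C (F i) : Polynomial (LaurentSeries ℂ))).coeff k) := by
  classical
  induction s using Finset.induction_on generalizing k with
  | empty =>
    simp only [Finset.prod_empty, Polynomial.coeff_one]
    split_ifs
    · exact hasQL_one
    · exact hasQL_zero
  | insert a s ha ih =>
    have ih' := ih (fun i hi => hf i (Finset.mem_insert_of_mem hi))
    have ha' := hf a (Finset.mem_insert_self a s)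
    simp only [Finset.prod_insert ha]
    cases k with
    | zero =>
      simp only [Polynomial.mul_coeff_zero, Polynomial.coeff_sub, Polynomial.coeff_X_zero,
        Polynomial.coeff_C_zero, zero_sub]
      exact (ha'.neg).mul (ih' 0)
    | succ k =>
      have e1 : ∀ (r : ℂ) (P : Polynomial ℂ),
          ((X - C r) * P).coeff (k + 1) = P.coeff k - P.coeff (k + 1) * r := by
        intro r P
        rw [mul_comm (X - C r) P, Polynomial.coeff_mul_X_sub_C]
      have e2 : ∀ (r : LaurentSeries ℂ) (P : Polynomial (LaurentSeries ℂ)),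
          ((X - C r) * P).coeff (k + 1) = P.coeff k - P.coeff (k + 1) * r := by
        intro r P
        rw [mul_comm (X - C r) P, Polynomial.coeff_mul_X_sub_C]
      simp only [e1, e2]
      exact (ih' k).sub ((ih' (k + 1)).mul ha')

theorem mdiff_coeff_prod (s : Finset ι) (f : ι → ℍ → ℂ)
    (hf : ∀ i ∈ s, MDiff (f i)) (k : ℕ) :
    MDiff (fun z => (∏ i ∈ s, (X - C (f i z) : Polynomial ℂ)).coeff k) := by
  classical
  induction s using Finset.induction_on generalizing k with
  | empty =>
    simp only [Finset.prod_empty, Polynomial.coeff_one]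
    exact mdifferentiable_const
  | insert a s ha ih =>
    have ih' := ih (fun i hi => hf i (Finset.mem_insert_of_mem hi))
    have ha' := hf a (Finset.mem_insert_self a s)
    simp only [Finset.prod_insert ha]
    cases k with
    | zero =>
      simp only [Polynomial.mul_coeff_zero, Polynomial.coeff_sub, Polynomial.coeff_X_zero,
        Polynomial.coeff_C_zero, zero_sub]
      exact (ha'.neg).mul (ih' 0)
    | succ k =>
      have e1 : ∀ (r : ℂ) (P : Polynomial ℂ),
          ((X - C r) * P).coeff (k + 1) = P.coeff k - P.coeff (k + 1) * r := by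
        intro r P
        rw [mul_comm (X - C r) P, Polynomial.coeff_mul_X_sub_C]
      simp only [e1]
      exact (ih' k).sub ((ih' (k + 1)).mul ha')

end Coeff

/-! ### Change of coefficients -/

section Naturality

variable {R S : Type*} [CommRing R] [CommRing S]

theorem algebraMap_eq_single (c : R) :
    algebraMap R (LaurentSeries R) c = HahnSeries.single 0 c := by
  have h1 : algebraMap R (PowerSeries R) c = PowerSeries.C c := by
    simp
  rw [HahnSeries.algebraMap_apply', h1, HahnSeries.ofPowerSeries_C]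
  rfl

theorem coeffMap_aeval (f : R →+* S) (x : LaurentSeries R) (Q : Polynomial R) :
    ModularCurve.coeffMap f (Polynomial.aeval x Q) =
      Polynomial.aeval (ModularCurve.coeffMap f x) (Q.map f) := by
  induction Q using Polynomial.induction_on' with
  | add P Q hP hQ => rw [map_add, map_add, Polynomial.map_add, map_add, hP, hQ]
  | monomial n a =>
    rw [Polynomial.map_monomial, Polynomial.aeval_monomial, Polynomial.aeval_monomial, map_mul,
      map_pow, algebraMap_eq_single, algebraMap_eq_single, ModularCurve.coeffMap_single]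

theorem coeffMap_injective {f : R →+* S} (hf : Function.Injective f) :
    Function.Injective (ModularCurve.coeffMap f) := by
  intro x y h
  ext n
  apply hf
  rw [← ModularCurve.coeffMap_coeff, ← ModularCurve.coeffMap_coeff, h]

/-- the property (★): every coefficient of `Ψ` is a polynomial in `J(t^p)` -/
def Star (p : ℕ) [NeZero p] (ζ : Rˣ) : Prop :=
  ∀ n : ℕ, ∃ Q : Polynomial R,
    Polynomial.aeval (ModularCurve.qExpand R p (ModularCurve.jqModC R)) Q = (Psi p ζ).coeff n

theorem Star.map {p : ℕ} [NeZero p] {ζ : Rˣ} (h : Star p ζ) (f : R →+* S) :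
    Star p (Units.map (f : R →* S) ζ) := by
  intro n
  obtain ⟨Q, hQ⟩ := h n
  refine ⟨Q.map f, ?_⟩
  have h1 := congrArg (ModularCurve.coeffMap f) hQ
  rw [coeffMap_aeval, ModularCurve.coeffMap_qExpand, ModularCurve.coeffMap_jqModC] at h1
  rw [h1, ← map_Psi, Polynomial.coeff_map]

/-- from (★) to the modular polynomial -/
theorem Star.exists_Phi [Nontrivial R] {p : ℕ} [NeZero p] {ζ : Rˣ} (h : Star p ζ) :
    ∃ Φ : Polynomial (Polynomial R), Φ.Monic ∧ Φ.natDegree = p + 1 ∧
      Φ.map (Polynomial.aeval (ModularCurve.qExpand R p (ModularCurve.jqModC R))).toRingHom =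
        Psi p ζ := by
  choose Q hQ using h
  set r : Polynomial (Polynomial R) := ∑ i : Fin (p + 1), C (Q i) * X ^ (i : ℕ) with hr
  have hdeg : r.degree < ((p + 1 : ℕ) : WithBot ℕ) := Polynomial.degree_sum_fin_lt _
  refine ⟨X ^ (p + 1) + r, Polynomial.monic_X_pow_add hdeg, ?_, ?_⟩
  · have h1 : (X ^ (p + 1) + r).degree = ((p + 1 : ℕ) : WithBot ℕ) := by
      rw [Polynomial.degree_add_eq_left_of_degree_lt (by rwa [Polynomial.degree_X_pow]),
        Polynomial.degree_X_pow]
    exact Polynomial.natDegree_eq_of_degree_eq_some h1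
  · have hPsi := (Psi_monic (R := R) p ζ).as_sum
    rw [Psi_natDegree] at hPsi
    rw [hPsi, Polynomial.map_add, Polynomial.map_pow, Polynomial.map_X, hr, Polynomial.map_sum,
      Finset.sum_range fun i => C ((Psi p ζ).coeff i) * X ^ i]
    congr 1
    refine Finset.sum_congr rfl (fun i _ => ?_)
    rw [Polynomial.map_mul, Polynomial.map_C, Polynomial.map_pow, Polynomial.map_X]
    congr 2
    exact hQ i

end Naturality

/-! ### Descent to `ℤ[ζ_p]` -/

section Descent

variable (p : ℕ) [hp : Fact p.Prime]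

attribute [local instance] neZero_p

/-- the ring `ℤ[ζ_p] ⊆ ℂ` -/
abbrev Zz : Subalgebra ℤ ℂ := Algebra.adjoin ℤ {zetaN p}

/-- the inclusion `ℤ[ζ_p] → ℂ` -/
def incl : Zz p →+* ℂ := (Zz p).val.toRingHom

theorem incl_apply (x : Zz p) : incl p x = (x : ℂ) := rfl

theorem incl_injective : Function.Injective (incl p) := Subtype.val_injective

/-- `ζ_p` as an element of `ℤ[ζ_p]` -/
def zetaE : Zz p := ⟨zetaN p, Algebra.subset_adjoin (Set.mem_singleton _)⟩

theorem zetaE_pow : zetaE p ^ p = 1 := by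
  apply Subtype.ext
  show zetaN p ^ p = 1
  exact zetaN_pow p hp.out.pos

/-- `ζ_p` as a unit of `ℤ[ζ_p]` -/
def zetaR : (Zz p)ˣ := (IsUnit.of_pow_eq_one (zetaE_pow p) hp.out.ne_zero).unit

theorem zetaR_val : ((zetaR p : (Zz p)ˣ) : Zz p) = zetaE p := rfl

theorem map_zetaR : Units.map (incl p : Zz p →* ℂ) (zetaR p) = zetaU p := by
  ext
  rfl

/-- the subring of `ℂ` underlying `ℤ[ζ_p]` -/
def ZzS : Subring ℂ := (Zz p).toSubring

theorem coeffIn_coeffMap (L : LaurentSeries (Zz p)) :
    CoeffIn (ZzS p) (ModularCurve.coeffMap (incl p) L) := by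
  intro n
  rw [ModularCurve.coeffMap_coeff]
  exact (L.coeff n).2

/-- **(★) over `ℤ[ζ_p]`.** -/
theorem star_Zz : Star p (zetaR p) := by
  intro n
  -- the analytic coefficient function
  have hQL : HasQL p (fun z => (polyAt p z).coeff n) ((Psi p (zetaU p)).coeff n) :=
    hasQL_coeff_prod Finset.univ (fn p) (root p (zetaU p)) (fun i _ => hasQL_fn p i) n
  have hmd : MDiff (fun z => (polyAt p z).coeff n) :=
    mdiff_coeff_prod Finset.univ (fn p) (fun i _ => fn_mdiff p i) n
  have hinv : ∀ (γ : SL(2, ℤ)) (z : ℍ),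
      (fun z => (polyAt p z).coeff n) (γ • z) = (fun z => (polyAt p z).coeff n) z := by
    intro γ z
    show (polyAt p (γ • z)).coeff n = (polyAt p z).coeff n
    rw [polyAt_smul]
  have hPsi : Psi p (zetaU p) = (Psi p (zetaR p)).map (ModularCurve.coeffMap (incl p)) := by
    rw [map_Psi, map_zetaR]
  have hA : CoeffIn (ZzS p) ((Psi p (zetaU p)).coeff n) := by
    rw [hPsi, Polynomial.coeff_map]
    exact coeffIn_coeffMap p _
  obtain ⟨P, hPA, -, hPL⟩ := lemmaL p (ZzS p) hmd hinv hQL hA
  -- lift `P` to `ℤ[ζ_p]`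
  have hlift : P ∈ Polynomial.lifts (incl p) := by
    rw [Polynomial.lifts_iff_coeff_lifts]
    intro m
    exact ⟨⟨P.coeff m, hPA m⟩, rfl⟩
  obtain ⟨Q, hQ⟩ := (Polynomial.mem_lifts P).mp hlift
  refine ⟨Q, ?_⟩
  apply coeffMap_injective (incl_injective p)
  rw [coeffMap_aeval, ModularCurve.coeffMap_qExpand, ModularCurve.coeffMap_jqModC, hQ, ← hPL,
    hPsi, Polynomial.coeff_map]

/-- a ring homomorphism `ℤ[ζ_p] → k` sending `ζ_p` to a given root of the cyclotomic
polynomial -/
theorem exists_hom {k : Type*} [CommRing k] (ζ : k)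
    (hζ : Polynomial.eval₂ (Int.castRingHom k) ζ (Polynomial.cyclotomic p ℤ) = 0) :
    ∃ φ : Zz p →+* k, φ (zetaE p) = ζ := by
  have hprim := isPrimitiveRoot_zetaN p
  have hint : IsIntegral ℤ (zetaN p) := hprim.isIntegral hp.out.pos
  have hmin : Polynomial.cyclotomic p ℤ = minpoly ℤ (zetaN p) :=
    Polynomial.cyclotomic_eq_minpoly hprim hp.out.pos
  rw [hmin] at hζ
  let e := minpoly.equivAdjoin hint
  refine ⟨(AdjoinRoot.lift (Int.castRingHom k) ζ hζ).comp e.symm.toAlgHom.toRingHom, ?_⟩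
  have h1 : e (AdjoinRoot.root (minpoly ℤ (zetaN p))) = zetaE p := by
    apply Subtype.ext
    show ((minpoly.equivAdjoin hint) (AdjoinRoot.root (minpoly ℤ (zetaN p))) : ℂ) = zetaN p
    rw [minpoly.coe_equivAdjoin]
    exact AdjoinRoot.Minpoly.coe_toAdjoin_mk_X
  have h2 : e.symm (zetaE p) = AdjoinRoot.root (minpoly ℤ (zetaN p)) := by
    rw [← h1, AlgEquiv.symm_apply_apply]
  show (AdjoinRoot.lift (Int.castRingHom k) ζ hζ) (e.symm (zetaE p)) = ζ
  rw [h2, AdjoinRoot.lift_root]

end Descent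

/-! ### The modular equation -/

section Final

variable (p : ℕ) [hp : Fact p.Prime]

attribute [local instance] neZero_p

/-- **(★)** over any commutative ring with a unit root of the `p`-th cyclotomic polynomial. -/
theorem star_of_isRoot {k : Type*} [CommRing k] (ζ : kˣ)
    (hζ : Polynomial.eval₂ (Int.castRingHom k) (ζ : k) (Polynomial.cyclotomic p ℤ) = 0) :
    Star p ζ := by
  obtain ⟨φ, hφ⟩ := exists_hom p (ζ : k) hζ
  have h1 := (star_Zz p).map φ
  have h2 : Units.map (φ : Zz p →* k) (zetaR p) = ζ := by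
    ext
    exact hφ
  rwa [h2] at h1

/-- **I.1, the modular equation of prime level `p`.** For a field `k` and a primitive `p`-th
root of unity `ζ ∈ k` there is `Φ ∈ k[X][T]`, monic of degree `p + 1` in `T`, with
`Φ(T, J(t^p)) = (T − J(t^{p²})) ∏_{b<p} (T − J(ζ^b t))`. -/
theorem modularEquation (k : Type*) [Field k] (ζ : kˣ) (hζ : IsPrimitiveRoot (ζ : k) p) :
    ∃ Φ : Polynomial (Polynomial k), Φ.Monic ∧ Φ.natDegree = p + 1 ∧
      Φ.map (Polynomial.aeval (ModularCurve.qExpand k p (ModularCurve.jqModC k))).toRingHom =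
        (X - C (ModularCurve.qExpand k (p ^ 2) (ModularCurve.jqModC k))) *
          ∏ b ∈ Finset.range p, (X - C (rot (ζ ^ b) (ModularCurve.jqModC k))) := by
  have h0 : Polynomial.eval₂ (Int.castRingHom k) (ζ : k) (Polynomial.cyclotomic p ℤ) = 0 := by
    rw [Polynomial.eval₂_eq_eval_map, Polynomial.map_cyclotomic_int]
    exact hζ.isRoot_cyclotomic hp.out.pos
  obtain ⟨Φ, h1, h2, h3⟩ := (star_of_isRoot p ζ h0).exists_Phi
  exact ⟨Φ, h1, h2, by rw [h3, Psi_eq]⟩

end Final

end Fermat.Agent.S28.ModEq
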