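import Mathlib
import Fermat.Prelude.Def_ModularCurve_X0
import Fermat.Prelude.Def_ModularCurve_JqCoeff
import Fermat.Agent.Lib.ModJ.QExpJ
import Fermat.Agent.Lib.ModJ.Order
import Fermat.Agent.S28.Basic

/-!
# S28 (Igusa), piece I.3: formal identities over `ℤ`

`E6f`, `Deltaf` : the formal `q`-expansions of `E₆` and `Δ` with integer coefficients, and

* (ii)  `eisenstein4 ^ 3 - E6f ^ 2 = 1728 * Deltaf`
* (iii) `(X * d⁄dX jNum - jNum) * dedekindEtaUnit = -(eisenstein4 ^ 2 * E6f)`
        (i.e. `θ j · Δ = - E₄² E₆`).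
-/

set_option autoImplicit false

noncomputable section

open UpperHalfPlane hiding I
open Function Complex ModularForm EisensteinSeries Filter Topology
open Fermat.Agent.Lib.ModJ

namespace Fermat.Agent.S28

local notation "𝕢" => Periodic.qParam

/-- the formal `q`-expansion of `E₆` -/
def E6f : PowerSeries ℤ :=
  PowerSeries.mk fun n => if n = 0 then 1 else -504 * ∑ d ∈ n.divisors, (d : ℤ) ^ 5

@[simp]
theorem constantCoeff_E6f : PowerSeries.constantCoeff E6f = 1 := by
  rw [← PowerSeries.coeff_zero_eq_constantCoeff]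
  simp [E6f]

/-- the formal `q`-expansion of `Δ` -/
def Deltaf : PowerSeries ℤ := PowerSeries.X * ModularCurve.dedekindEtaUnit

theorem hasQ_E6f : HasQ 1 (fun τ => E₆ τ) (toC E6f) := by
  have h1 : ∀ τ : ℍ, HasSum (fun m ↦ (qExpansion 1 E₆).coeff m * 𝕢 1 τ ^ m) (E₆ τ) :=
    fun τ => ModularForm.hasSum_qExpansion (f := E₆) one_pos one_mem_strictPeriods_SL τ
  intro τ
  refine (h1 τ).congr_fun ?_
  intro m
  congr 1
  rw [E_qExpansion_coeff _ ⟨3, rfl⟩ m, PowerSeries.coeff_map, E6f,
    PowerSeries.coeff_mk]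
  by_cases hm : m = 0
  · simp [hm]
  · simp only [hm, if_false]
    rw [show bernoulli 6 = 1 / 42 by decide +kernel]
    simp [ArithmeticFunction.sigma_apply]
    norm_num

theorem hasQ_Deltaf : HasQ 1 (fun τ => ModularForm.discriminant τ) (toC Deltaf) := by
  have h1 := (hasQ_X (h := 1)).mul hasQ_eta24
  have e : toC Deltaf = PowerSeries.X * toC ModularCurve.dedekindEtaUnit := by
    simp [toC, Deltaf]
  rw [e]
  exact h1.congr (fun τ => (discriminant_eq τ).symm)

theorem toC_injective : Function.Injective toC := by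
  intro S T h
  ext n
  have := congrArg (PowerSeries.coeff (R := ℂ) n) h
  simpa [toC] using this

/-- (ii) `E₄³ - E₆² = 1728 Δ`, formally over `ℤ`. -/
theorem E4_cube_sub_E6_sq :
    ModularCurve.eisenstein4 ^ 3 - E6f ^ 2 = 1728 * Deltaf := by
  apply toC_injective
  have h1 : HasQ 1 (fun τ => E₄ τ ^ 3 - E₆ τ ^ 2)
      (toC (ModularCurve.eisenstein4 ^ 3 - E6f ^ 2)) := by
    have := (hasQ_E4.pow 3).sub (hasQ_E6f.pow 2)
    simpa [toC] using this
  have h2 : HasQ 1 (fun τ => E₄ τ ^ 3 - E₆ τ ^ 2) (toC (1728 * Deltaf)) := by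
    have := hasQ_Deltaf.const_mul 1728
    have e : toC (1728 * Deltaf) = PowerSeries.C (1728 : ℂ) * toC Deltaf := by
      rw [toC, map_mul]
      congr 1
      ext n
      rw [PowerSeries.coeff_map, PowerSeries.coeff_C]
      rcases eq_or_ne n 0 with rfl | hn
      · simp
        have : (1728 : PowerSeries ℤ) = PowerSeries.C (1728 : ℤ) := by simp
        rw [this, PowerSeries.constantCoeff_C]; simp
      · have : (1728 : PowerSeries ℤ) = PowerSeries.C (1728 : ℤ) := by simp
        rw [this, PowerSeries.coeff_C, if_neg hn, if_neg hn]; simp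
    rw [e]
    refine this.congr (fun τ => ?_)
    rw [ModularForm.discriminant_eq_E₄_cube_sub_E₆_sq]
    ring
  exact h1.unique one_pos h2

/-! ### Differentiating a convergent `q`-series -/

/-- the Taylor coefficients of the sum function of a convergent `q`-series -/
theorem hasQ_coeff_eq_iteratedDeriv {f : ℍ → ℂ} {S : PowerSeries ℂ} (hf : HasQ 1 f S) (n : ℕ) :
    S.coeff n = ((n.factorial : ℂ))⁻¹ *
      iteratedDeriv n (fun q => ∑' m : ℕ, S.coeff m * q ^ m) 0 := by
  have hd := hf.differentiableOn one_pos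
  have h1 := hasQ_of_differentiableOn (h := 1) one_pos hd
  have h2 : HasQ 1 f _ := h1.congr (fun τ => hf.tsum_qParam τ)
  have := hf.unique one_pos h2
  have h3 := congrArg (PowerSeries.coeff (R := ℂ) n) this
  rw [PowerSeries.coeff_mk] at h3
  exact h3

/-- the derivative of the sum function has the formal derivative as its series -/
theorem hasQ_deriv_sum {f : ℍ → ℂ} {S : PowerSeries ℂ} (hf : HasQ 1 f S) :
    HasQ 1 (fun τ => deriv (fun q => ∑' m : ℕ, S.coeff m * q ^ m) (𝕢 1 τ))
      (PowerSeries.derivative ℂ S) := by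
  have hd := hf.differentiableOn one_pos
  have hd' : DifferentiableOn ℂ (deriv (fun q => ∑' m : ℕ, S.coeff m * q ^ m))
      (Metric.ball 0 1) := hd.deriv Metric.isOpen_ball
  have h1 := hasQ_of_differentiableOn (h := 1) one_pos hd'
  convert h1 using 1
  ext n
  rw [PowerSeries.coeff_derivative, PowerSeries.coeff_mk, hasQ_coeff_eq_iteratedDeriv hf (n + 1),
    ← iteratedDeriv_succ', Nat.factorial_succ]
  have h0 : (n.factorial : ℂ) ≠ 0 := by exact_mod_cast Nat.factorial_ne_zero n
  have h1 : ((n : ℂ) + 1) ≠ 0 := by exact_mod_cast Nat.succ_ne_zero n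
  push_cast
  field_simp

/-- **`q d/dq`**: if `f = ∑ aₘ qᵐ` then `(2πi)⁻¹ f' = ∑ m aₘ qᵐ`. -/
theorem hasQ_qderiv {f : ℍ → ℂ} {S : PowerSeries ℂ} (hf : HasQ 1 f S) :
    HasQ 1 (fun τ => (2 * Real.pi * I)⁻¹ * deriv (f ∘ ofComplex) τ)
      (PowerSeries.X * PowerSeries.derivative ℂ S) := by
  refine ((hasQ_X (h := 1)).mul (hasQ_deriv_sum hf)).congr (fun z => ?_)
  have hq : ‖𝕢 1 (z : ℂ)‖ < 1 := Function.Periodic.norm_qParam_lt_one one_pos z.im_pos
  have hF := ((hf.differentiableOn one_pos).differentiableAt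
    (Metric.isOpen_ball.mem_nhds (by simpa using hq))).hasDerivAt
  have hcomp := hF.comp (z : ℂ) (hasDerivAt_qParam_one z)
  have heq : (f ∘ ofComplex) =ᶠ[𝓝 (z : ℂ)]
      ((fun q => ∑' m : ℕ, S.coeff m * q ^ m) ∘ 𝕢 1) := by
    filter_upwards [(isOpen_lt continuous_const Complex.continuous_im).mem_nhds z.im_pos] with w hw
    simp only [Function.comp_apply, ofComplex_apply_of_im_pos hw]
    exact (hf.tsum_qParam ⟨w, hw⟩).symm
  have hd : deriv (f ∘ ofComplex) z = _ := (hcomp.congr_of_eventuallyEq heq).deriv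
  rw [hd]
  have hpi : (2 * Real.pi * I : ℂ) ≠ 0 := by
    simp [Real.pi_ne_zero]
  field_simp

theorem toC_X_mul_derivative (S : PowerSeries ℤ) :
    toC (PowerSeries.X * PowerSeries.derivative ℤ S)
      = PowerSeries.X * PowerSeries.derivative ℂ (toC S) := by
  ext n
  rcases n with _ | n
  · simp [toC]
  · rw [toC, PowerSeries.coeff_map, PowerSeries.coeff_succ_X_mul, PowerSeries.coeff_succ_X_mul,
      PowerSeries.coeff_derivative, PowerSeries.coeff_derivative, PowerSeries.coeff_map]
    simp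

/-- the analytic form of (iii) -/
theorem hasQ_theta_jNum :
    HasQ 1 (fun τ => 𝕢 1 τ * jFun τ
        - E₄ τ ^ 2 * E₆ τ * ((∏' n : ℕ, (1 - 𝕢 1 τ ^ (n + 1))) ^ 24)⁻¹)
      (PowerSeries.X * PowerSeries.derivative ℂ (toC ModularCurve.jNum)) := by
  refine (hasQ_qderiv hasQ_jNum).congr (fun z => ?_)
  have h1 := (hasDerivAt_qParam_one (z : ℂ)).mul (jC_analyticAt z).differentiableAt.hasDerivAt
  have heq : ((fun τ : ℍ => 𝕢 1 τ * jFun τ) ∘ ofComplex) =ᶠ[𝓝 (z : ℂ)]
      (fun w => 𝕢 1 w * jC w) := by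
    filter_upwards [(isOpen_lt continuous_const Complex.continuous_im).mem_nhds z.im_pos] with w hw
    simp only [Function.comp_apply, ofComplex_apply_of_im_pos hw, jC]
  have hd : deriv ((fun τ : ℍ => 𝕢 1 τ * jFun τ) ∘ ofComplex) z = _ :=
    (h1.congr_of_eventuallyEq heq).deriv
  rw [hd, deriv_jC, discriminant_eq]
  have hpi : (2 * Real.pi * I : ℂ) ≠ 0 := by
    simp [Real.pi_ne_zero]
  have hq : 𝕢 1 (z : ℂ) ≠ 0 := Periodic.qParam_ne_zero _
  have hp := pow_ne_zero 24 (tprod_ne_zero z)
  have hj : jC (z : ℂ) = jFun z := by simp [jC]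
  rw [hj]
  field_simp
  ring

/-- (iii), first form: `θ(q j) = q j - E₄² E₆ (Δ/q)⁻¹` over `ℤ` -/
theorem X_mul_derivative_jNum :
    PowerSeries.X * PowerSeries.derivative ℤ ModularCurve.jNum
      = ModularCurve.jNum
        - ModularCurve.eisenstein4 ^ 2 * E6f * ModularCurve.dedekindEtaUnitInv := by
  apply toC_injective
  rw [toC_X_mul_derivative]
  have h2 : HasQ 1 (fun τ => 𝕢 1 τ * jFun τ
        - E₄ τ ^ 2 * E₆ τ * ((∏' n : ℕ, (1 - 𝕢 1 τ ^ (n + 1))) ^ 24)⁻¹)
      (toC (ModularCurve.jNum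
        - ModularCurve.eisenstein4 ^ 2 * E6f * ModularCurve.dedekindEtaUnitInv)) := by
    have := hasQ_jNum.sub (((hasQ_E4.pow 2).mul hasQ_E6f).mul hasQ_eta24_inv)
    simpa [toC] using this
  exact hasQ_theta_jNum.unique one_pos h2

/-- (iii) `(θ(q j) - q j) · (Δ/q) = - E₄² E₆` over `ℤ` -/
theorem theta_jNum_mul_eta :
    (PowerSeries.X * PowerSeries.derivative ℤ ModularCurve.jNum - ModularCurve.jNum)
        * ModularCurve.dedekindEtaUnit
      = -(ModularCurve.eisenstein4 ^ 2 * E6f) := by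
  rw [X_mul_derivative_jNum]
  have h := ModularCurve.dedekindEtaUnit_mul_inv
  linear_combination (-(ModularCurve.eisenstein4 ^ 2 * E6f)) * h

/-! ### Base change to Laurent series over an arbitrary commutative ring -/

section BaseChange

variable (A : Type*) [CommRing A]

/-- integral power series as Laurent series over `A` -/
def toL : PowerSeries ℤ →+* LaurentSeries A :=
  (HahnSeries.ofPowerSeries ℤ A).comp (PowerSeries.map (Int.castRingHom A))

theorem toL_apply (S : PowerSeries ℤ) :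
    toL A S = HahnSeries.ofPowerSeries ℤ A (S.map (Int.castRingHom A)) := rfl

theorem coeff_toL (S : PowerSeries ℤ) (n : ℕ) :
    (toL A S).coeff (n : ℤ) = ((S.coeff n : ℤ) : A) := by
  rw [toL_apply, HahnSeries.ofPowerSeries_apply_coeff, PowerSeries.coeff_map]
  simp

theorem coeff_toL_of_neg (S : PowerSeries ℤ) {n : ℤ} (hn : n < 0) :
    (toL A S).coeff n = 0 := by
  rw [toL_apply, ModularCurve.ofPowerSeries_coeff_of_neg _ hn]

theorem toL_X : toL A PowerSeries.X = HahnSeries.single (1 : ℤ) (1 : A) := by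
  rw [toL_apply, PowerSeries.map_X, HahnSeries.ofPowerSeries_X]

theorem coeffMap_toL {B : Type*} [CommRing B] (f : A →+* B) (S : PowerSeries ℤ) :
    ModularCurve.coeffMap f (toL A S) = toL B S := by
  ext n
  rw [ModularCurve.coeffMap_coeff]
  rcases lt_or_ge n 0 with hn | hn
  · rw [coeff_toL_of_neg _ _ hn, coeff_toL_of_neg _ _ hn, map_zero]
  · lift n to ℕ using hn
    rw [coeff_toL, coeff_toL, map_intCast]

theorem theta_toL (S : PowerSeries ℤ) :
    theta (toL A S) = toL A (PowerSeries.X * PowerSeries.derivative ℤ S) := by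
  rw [toL_apply, theta_ofPowerSeries, toL_apply]
  congr 1
  ext n
  rcases n with _ | n
  · simp
  · rw [PowerSeries.coeff_map, PowerSeries.coeff_succ_X_mul, PowerSeries.coeff_succ_X_mul,
      PowerSeries.coeff_derivative, PowerSeries.coeff_derivative, PowerSeries.coeff_map]
    simp

/-- `E₄` as a Laurent series over `A` -/
def E4L : LaurentSeries A := toL A ModularCurve.eisenstein4

/-- `E₆` as a Laurent series over `A` -/
def E6L : LaurentSeries A := toL A E6f

/-- `Δ` as a Laurent series over `A` -/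
def DeltaL : LaurentSeries A := toL A Deltaf

theorem DeltaL_def :
    DeltaL A = HahnSeries.ofPowerSeries ℤ A
      ((PowerSeries.X * ModularCurve.dedekindEtaUnit).map (Int.castRingHom A)) := rfl

theorem DeltaL_eq :
    DeltaL A = HahnSeries.single (1 : ℤ) (1 : A) * toL A ModularCurve.dedekindEtaUnit := by
  rw [DeltaL, Deltaf, map_mul, toL_X]

theorem jqModC_eq_toL :
    ModularCurve.jqModC A = HahnSeries.single (-1 : ℤ) (1 : A) * toL A ModularCurve.jNum := rfl

theorem single_neg_one_mul_single_one :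
    HahnSeries.single (-1 : ℤ) (1 : A) * HahnSeries.single (1 : ℤ) (1 : A) = 1 := by
  rw [HahnSeries.single_mul_single]
  simp

/-- (i) `j Δ = E₄³` -/
theorem jqModC_mul_DeltaL : ModularCurve.jqModC A * DeltaL A = E4L A ^ 3 := by
  rw [jqModC_eq_toL, DeltaL_eq, E4L, ← map_pow]
  have h : toL A ModularCurve.jNum * toL A ModularCurve.dedekindEtaUnit
      = toL A (ModularCurve.eisenstein4 ^ 3) := by
    rw [← map_mul]
    congr 1
    rw [ModularCurve.jNum, mul_assoc, mul_comm ModularCurve.dedekindEtaUnitInv,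
      ModularCurve.dedekindEtaUnit_mul_inv, mul_one]
  have h' := single_neg_one_mul_single_one A
  linear_combination (toL A ModularCurve.jNum * toL A ModularCurve.dedekindEtaUnit) * h' + h

/-- (ii) `E₄³ - E₆² = 1728 Δ` -/
theorem E4L_cube_sub_E6L_sq : E4L A ^ 3 - E6L A ^ 2 = 1728 * DeltaL A := by
  have := congrArg (toL A) E4_cube_sub_E6_sq
  rw [map_sub, map_pow, map_pow, map_mul, map_ofNat] at this
  exact this

/-- (iii) `θ j · Δ = - E₄² E₆` -/
theorem theta_jqModC_mul_DeltaL :
    theta (ModularCurve.jqModC A) * DeltaL A = -(E4L A ^ 2 * E6L A) := by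
  have h0 := congrArg (toL A) theta_jNum_mul_eta
  rw [map_mul, map_sub, map_neg, ← theta_toL, map_mul, map_pow] at h0
  rw [jqModC_eq_toL, theta_mul, theta_single, DeltaL_eq, E4L, E6L]
  have h' := single_neg_one_mul_single_one A
  have e : HahnSeries.single (-1 : ℤ) (((-1 : ℤ) : A) * 1)
      = - HahnSeries.single (-1 : ℤ) (1 : A) := by
    rw [← HahnSeries.single_neg]
    simp
  rw [e]
  linear_combination h0 + ((theta (toL A ModularCurve.jNum) - toL A ModularCurve.jNum)
    * toL A ModularCurve.dedekindEtaUnit) * h'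

theorem coeffMap_E4L {B : Type*} [CommRing B] (f : A →+* B) :
    ModularCurve.coeffMap f (E4L A) = E4L B := coeffMap_toL A f _

theorem coeffMap_E6L {B : Type*} [CommRing B] (f : A →+* B) :
    ModularCurve.coeffMap f (E6L A) = E6L B := coeffMap_toL A f _

theorem coeffMap_DeltaL {B : Type*} [CommRing B] (f : A →+* B) :
    ModularCurve.coeffMap f (DeltaL A) = DeltaL B := coeffMap_toL A f _

end BaseChange

end Fermat.Agent.S28
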