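import Mathlib
import Fermat.Prelude.Def_ModularCurve_X0ModL
import Fermat.Agent.S28.Formal

/-!
# S28 (Igusa), piece I.4: the prime case

For a field `k` and a prime `p` with `p ≠ 0` in `k`: if the modular unit `Δ(q^p)/Δ(q)` is integral
over `k[J]`, then `J(q^p) ∉ k(J)`.
-/

set_option autoImplicit false

noncomputable section

namespace Fermat.Agent.S28

open ModularCurve

section General

variable {A : Type*} [CommRing A]

/-- the order of `qExpand m L` is `m` times the order of `L` -/
theorem order_qExpand (m : ℕ) [NeZero m] {L : LaurentSeries A} (hL : L ≠ 0) :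
    (qExpand A m L).order = (m : ℤ) * L.order := by
  have hN : (0 : ℤ) < m := by exact_mod_cast Nat.pos_of_ne_zero (NeZero.ne m)
  have hcoeff : (qExpand A m L).coeff ((m : ℤ) * L.order) ≠ 0 := by
    rw [qExpand_coeff_mul]
    exact fun h => hL (HahnSeries.coeff_order_eq_zero.mp h)
  have hne : qExpand A m L ≠ 0 := by
    intro h
    rw [h] at hcoeff
    simp at hcoeff
  apply le_antisymm
  · exact HahnSeries.order_le_of_coeff_ne_zero hcoeff
  · by_contra hlt
    rw [not_le] at hlt
    have h1 : (qExpand A m L).coeff (qExpand A m L).order ≠ 0 :=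
      fun h => hne (HahnSeries.coeff_order_eq_zero.mp h)
    apply h1
    by_cases hdvd : (m : ℤ) ∣ (qExpand A m L).order
    · obtain ⟨k, hk⟩ := hdvd
      rw [hk, qExpand_coeff_mul]
      have hk1 : k < L.order := by
        rw [hk] at hlt
        exact lt_of_mul_lt_mul_left hlt hN.le
      exact HahnSeries.coeff_eq_zero_of_lt_order hk1
    · exact qExpand_coeff_of_not_dvd m L hdvd

theorem coeff_one_DeltaL : (DeltaL A).coeff 1 = 1 := by
  have h := coeff_toL A Deltaf 1
  rw [DeltaL]
  simp only [Nat.cast_one] at h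
  rw [h, Deltaf]
  have : (PowerSeries.coeff 1) (PowerSeries.X * dedekindEtaUnit) = 1 := by
    rw [show (1 : ℕ) = 0 + 1 from rfl, PowerSeries.coeff_succ_X_mul,
      PowerSeries.coeff_zero_eq_constantCoeff, constantCoeff_dedekindEtaUnit]
  rw [this]
  simp

theorem coeff_DeltaL_of_lt {n : ℤ} (hn : n < 1) : (DeltaL A).coeff n = 0 := by
  rcases lt_or_ge n 0 with h0 | h0
  · exact coeff_toL_of_neg A _ h0
  · have : n = ((0 : ℕ) : ℤ) := by omega
    rw [this, DeltaL, coeff_toL, Deltaf, PowerSeries.coeff_zero_X_mul]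
    simp

theorem DeltaL_ne_zero [Nontrivial A] : DeltaL A ≠ 0 := by
  intro h
  have := coeff_one_DeltaL (A := A)
  rw [h] at this
  simp at this

theorem order_DeltaL [Nontrivial A] : (DeltaL A).order = 1 := by
  apply le_antisymm
  · apply HahnSeries.order_le_of_coeff_ne_zero
    rw [coeff_one_DeltaL]
    exact one_ne_zero
  · by_contra hlt
    rw [not_le] at hlt
    exact (fun h => DeltaL_ne_zero (A := A) (HahnSeries.coeff_order_eq_zero.mp h))
      (coeff_DeltaL_of_lt hlt)

end General

section Field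

variable {k : Type*} [Field k]

theorem algebraMap_eq_C (c : k) : algebraMap k (LaurentSeries k) c = HahnSeries.C c := by
  have h1 : algebraMap k (PowerSeries k) c = PowerSeries.C c := by simp
  rw [HahnSeries.algebraMap_apply', h1, HahnSeries.ofPowerSeries_C]

/-- the leading coefficient of `P(J)` -/
theorem coeff_aeval_jqModC (P : Polynomial k) :
    (Polynomial.aeval (jqModC k) P).coeff (-(P.natDegree : ℤ)) = P.leadingCoeff := by
  rw [Polynomial.aeval_def, Polynomial.eval₂_eq_sum_range, HahnSeries.coeff_sum,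
    Finset.sum_eq_single P.natDegree]
  · rw [algebraMap_eq_C, HahnSeries.C_apply, HahnSeries.coeff_single_zero_mul,
      coeff_jqModC_pow_self, mul_one, Polynomial.leadingCoeff]
  · intro i hi hin
    have hilt : i < P.natDegree :=
      lt_of_le_of_ne (Nat.lt_succ_iff.mp (Finset.mem_range.mp hi)) hin
    rw [algebraMap_eq_C, HahnSeries.C_apply, HahnSeries.coeff_single_zero_mul,
      coeff_jqModC_pow_of_lt, mul_zero]
    omega
  · intro hn'
    exact absurd (Finset.self_mem_range_succ _) hn'

theorem aeval_jqModC_ne_zero {P : Polynomial k} (hP : P ≠ 0) :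
    Polynomial.aeval (jqModC k) P ≠ 0 := by
  intro h
  have := coeff_aeval_jqModC P
  rw [h, HahnSeries.coeff_zero] at this
  exact hP (Polynomial.leadingCoeff_eq_zero.mp this.symm)

theorem transcendental_jqModC' : Transcendental k (jqModC k) :=
  transcendental_iff.mpr fun P hP => by
    by_contra h
    exact aeval_jqModC_ne_zero h hP

theorem order_aeval_jqModC_le {P : Polynomial k} (hP : P ≠ 0) :
    (Polynomial.aeval (jqModC k) P).order ≤ 0 := by
  have h1 : (Polynomial.aeval (jqModC k) P).coeff (-(P.natDegree : ℤ)) ≠ 0 := by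
    rw [coeff_aeval_jqModC]
    exact Polynomial.leadingCoeff_ne_zero.mpr hP
  have := HahnSeries.order_le_of_coeff_ne_zero h1
  omega

/-- **chain rule**: `θ` maps `k(J)` into `k(J) · θJ` -/
theorem exists_theta_eq_mul {J x : LaurentSeries k} (hx : x ∈ IntermediateField.adjoin k {J}) :
    ∃ y ∈ IntermediateField.adjoin k {J}, theta x = y * theta J := by
  induction hx using IntermediateField.adjoin_induction with
  | mem x hx =>
    rw [Set.mem_singleton_iff] at hx
    subst hx
    exact ⟨1, one_mem _, (one_mul _).symm⟩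
  | algebraMap c =>
    refine ⟨0, zero_mem _, ?_⟩
    rw [algebraMap_eq_C, theta_C, zero_mul]
  | add x y hx hy ihx ihy =>
    obtain ⟨a, ha, ea⟩ := ihx
    obtain ⟨b, hb, eb⟩ := ihy
    exact ⟨a + b, add_mem ha hb, by rw [map_add, ea, eb, add_mul]⟩
  | inv x hx ih =>
    obtain ⟨a, ha, ea⟩ := ih
    rcases eq_or_ne x 0 with rfl | hx0
    · refine ⟨0, zero_mem _, ?_⟩
      rw [inv_zero, map_zero, zero_mul]
    · refine ⟨-a / x ^ 2, div_mem (neg_mem ha) (pow_mem hx 2), ?_⟩
      rw [theta_inv hx0, ea]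
      ring
  | mul x y hx hy ihx ihy =>
    obtain ⟨a, ha, ea⟩ := ihx
    obtain ⟨b, hb, eb⟩ := ihy
    refine ⟨a * y + x * b, add_mem (mul_mem ha hy) (mul_mem hx hb), ?_⟩
    rw [theta_mul, ea, eb]
    ring

theorem jqModC_sub_ne_zero (c : k) : jqModC k - HahnSeries.C c ≠ 0 := by
  intro h
  have h1 := congrArg (fun L : LaurentSeries k => L.coeff (-1)) h
  simp only [HahnSeries.coeff_sub, coeff_jqModC_neg_one, HahnSeries.C_apply,
    HahnSeries.coeff_zero] at h1
  rw [HahnSeries.coeff_single_of_ne (by norm_num)] at h1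
  simp at h1

theorem jqModC_ne_zero' : jqModC k ≠ 0 := by
  have := jqModC_sub_ne_zero (k := k) 0
  simpa using this

theorem natCast_eq_C (n : ℕ) : (n : LaurentSeries k) = HahnSeries.C (n : k) := by
  rw [map_natCast]

/-- `Δ = (θJ)⁶ / (J⁴ (J - 1728)³)`, without denominators -/
theorem theta_jqModC_pow_six :
    theta (jqModC k) ^ 6 = jqModC k ^ 4 * (jqModC k - 1728) ^ 3 * DeltaL k := by
  have h1 := jqModC_mul_DeltaL k
  have h2 := E4L_cube_sub_E6L_sq k
  have h3 := theta_jqModC_mul_DeltaL k
  have hE6 : E6L k ^ 2 = (jqModC k - 1728) * DeltaL k := by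
    linear_combination -h1 - h2
  have key : theta (jqModC k) ^ 6 * DeltaL k ^ 6
      = jqModC k ^ 4 * (jqModC k - 1728) ^ 3 * DeltaL k * DeltaL k ^ 6 := by
    calc theta (jqModC k) ^ 6 * DeltaL k ^ 6 = (theta (jqModC k) * DeltaL k) ^ 6 := by ring
      _ = (E4L k ^ 3) ^ 4 * (E6L k ^ 2) ^ 3 := by rw [h3]; ring
      _ = (jqModC k * DeltaL k) ^ 4 * ((jqModC k - 1728) * DeltaL k) ^ 3 := by rw [← h1, hE6]
      _ = _ := by ring
  exact mul_right_cancel₀ (pow_ne_zero 6 DeltaL_ne_zero) key

/-- if `J(q^p) ∈ k(J)` then the modular unit `Δ(q^p)/Δ(q)` lies in `k(J)` -/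
theorem modularUnit_mem (p : ℕ) [NeZero p] (hp : (p : k) ≠ 0)
    (hmem : qExpand k p (jqModC k) ∈ IntermediateField.adjoin k {jqModC k}) :
    qExpand k p (DeltaL k) / DeltaL k ∈ IntermediateField.adjoin k {jqModC k} := by
  set J := jqModC k with hJ
  set K := IntermediateField.adjoin k {J} with hK
  have hJK : J ∈ K := IntermediateField.subset_adjoin _ _ (Set.mem_singleton _)
  obtain ⟨y, hy, ey⟩ := exists_theta_eq_mul hmem
  rw [theta_qExpand] at ey
  have hCp : (HahnSeries.C (p : k) : LaurentSeries k) ≠ 0 := by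
    intro h
    exact hp (HahnSeries.C_injective (h.trans (map_zero _).symm))
  have hCpK : (HahnSeries.C (p : k) : LaurentSeries k) ∈ K := by
    rw [← algebraMap_eq_C]
    exact K.algebraMap_mem _
  -- `E(θJ) = y' θJ`
  have ew : qExpand k p (theta J) = (HahnSeries.C (p : k))⁻¹ * y * theta J := by
    rw [mul_assoc, ← ey, ← mul_assoc, inv_mul_cancel₀ hCp, one_mul]
  have h1728 : (1728 : LaurentSeries k) ∈ K := by
    have : (1728 : LaurentSeries k) = ((1728 : ℕ) : LaurentSeries k) := by norm_cast
    rw [this]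
    exact natCast_mem K 1728
  have h6 := theta_jqModC_pow_six (k := k)
  have h6' := congrArg (qExpand k p) h6
  rw [map_pow, map_mul, map_mul, map_pow, map_pow, map_sub, map_ofNat, ← hJ, ew] at h6'
  rw [← hJ] at h6
  have hEJ : qExpand k p J ≠ 0 := by
    intro h
    exact jqModC_ne_zero' (k := k) (qExpand_injective p (by rw [← hJ, h, map_zero]))
  have hEJ' : qExpand k p J - 1728 ≠ 0 := by
    intro h
    have h' : qExpand k p (J - 1728) = 0 := by rw [map_sub, map_ofNat, h]
    have h'' := qExpand_injective p (h'.trans (map_zero _).symm)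
    have := jqModC_sub_ne_zero (k := k) ((1728 : ℕ) : k)
    apply this
    rw [← natCast_eq_C, ← hJ]
    rw [← h'']
    norm_cast
  have hD : (DeltaL k) ≠ 0 := DeltaL_ne_zero
  have hden : qExpand k p J ^ 4 * (qExpand k p J - 1728) ^ 3 ≠ 0 :=
    mul_ne_zero (pow_ne_zero _ hEJ) (pow_ne_zero _ hEJ')
  have e : qExpand k p (DeltaL k) / DeltaL k
      = ((HahnSeries.C (p : k))⁻¹ * y) ^ 6 * (J ^ 4 * (J - 1728) ^ 3)
        / (qExpand k p J ^ 4 * (qExpand k p J - 1728) ^ 3) := by
    rw [div_eq_div_iff hD hden]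
    have : ((HahnSeries.C (p : k))⁻¹ * y * theta J) ^ 6
        = ((HahnSeries.C (p : k))⁻¹ * y) ^ 6 * (J ^ 4 * (J - 1728) ^ 3 * DeltaL k) := by
      rw [mul_pow, h6]
    rw [this] at h6'
    linear_combination -h6'
  rw [e]
  exact div_mem (mul_mem (pow_mem (mul_mem (inv_mem hCpK) hy) 6)
    (mul_mem (pow_mem hJK 4) (pow_mem (sub_mem hJK h1728) 3)))
    (mul_mem (pow_mem hmem 4) (pow_mem (sub_mem hmem h1728) 3))

open scoped IntermediateField.algebraAdjoinAdjoin in
/-- an element of `k(J)` that is integral over `k[J]` is a polynomial in `J` -/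
theorem exists_aeval_eq_of_isIntegral {u : LaurentSeries k}
    (hu : u ∈ IntermediateField.adjoin k {jqModC k})
    (hU : ∃ U : Polynomial (Polynomial k), U.Monic ∧
      Polynomial.eval₂ (Polynomial.aeval (jqModC k)).toRingHom u U = 0) :
    ∃ P : Polynomial k, Polynomial.aeval (jqModC k) P = u := by
  obtain ⟨U, hUm, hU0⟩ := hU
  set J := jqModC k with hJ
  have htr : Transcendental k J := transcendental_jqModC'
  let e := Polynomial.algEquivOfTranscendental k J htr
  have hic : IsIntegrallyClosed (Algebra.adjoin k {J}) :=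
    IsIntegrallyClosed.of_equiv e.toRingEquiv
  -- `u` is integral over `k[J]`
  have hcomp : (algebraMap (Algebra.adjoin k {J}) (LaurentSeries k)).comp
      (e : Polynomial k →+* Algebra.adjoin k {J}) = (Polynomial.aeval J).toRingHom := by
    apply Polynomial.ringHom_ext
    · intro a
      simp [e, Polynomial.algEquivOfTranscendental]
    · simp [e, Polynomial.algEquivOfTranscendental]
  have hint : IsIntegral (Algebra.adjoin k {J}) u := by
    refine ⟨U.map (e : Polynomial k →+* Algebra.adjoin k {J}), hUm.map _, ?_⟩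
    rw [Polynomial.eval₂_map, hcomp]
    exact hU0
  have hint' : IsIntegral (Algebra.adjoin k {J})
      (⟨u, hu⟩ : IntermediateField.adjoin k {J}) := by
    rw [← isIntegral_algebraMap_iff (B := LaurentSeries k)
      (algebraMap (IntermediateField.adjoin k {J}) (LaurentSeries k)).injective]
    exact hint
  obtain ⟨y, hy⟩ := IsIntegrallyClosed.isIntegral_iff.mp hint'
  have hy' : (y : LaurentSeries k) = u := congrArg Subtype.val hy
  have hmem : u ∈ Algebra.adjoin k {J} := hy' ▸ y.2
  rw [Algebra.adjoin_singleton_eq_range_aeval] at hmem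
  obtain ⟨P, hP⟩ := hmem
  exact ⟨P, hP⟩

/-- **I.4, the prime case**: if the modular unit `Δ(q^p)/Δ(q)` is integral over `k[J]` and
`p ≠ 0` in `k`, then `J(q^p) ∉ k(J)`. -/
theorem jp_not_mem (p : ℕ) [Fact p.Prime] (k : Type*) [Field k] (hp : (p : k) ≠ 0)
    (hU : ∃ U : Polynomial (Polynomial k), U.Monic ∧
      Polynomial.eval₂ (Polynomial.aeval (jqModC k)).toRingHom
        (qExpand k p (DeltaL k) / DeltaL k) U = 0) :
    qExpand k p (jqModC k) ∉ IntermediateField.adjoin k {jqModC k} := by
  intro hmem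
  obtain ⟨P, hP⟩ := exists_aeval_eq_of_isIntegral (modularUnit_mem p hp hmem) hU
  have hD : (DeltaL k) ≠ 0 := DeltaL_ne_zero
  have hED : qExpand k p (DeltaL k) ≠ 0 := by
    intro h
    exact hD (qExpand_injective p (h.trans (map_zero _).symm))
  have hP0 : P ≠ 0 := by
    rintro rfl
    rw [map_zero] at hP
    exact div_ne_zero hED hD hP.symm
  have hmul : Polynomial.aeval (jqModC k) P * DeltaL k = qExpand k p (DeltaL k) := by
    rw [hP, div_mul_cancel₀ _ hD]
  have hord := congrArg HahnSeries.order hmul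
  rw [HahnSeries.order_mul (aeval_jqModC_ne_zero hP0) hD, order_qExpand p hD, order_DeltaL] at hord
  have h1 := order_aeval_jqModC_le hP0
  have h2 : (2 : ℤ) ≤ p := by exact_mod_cast (Fact.out : p.Prime).two_le
  omega

end Field

end Fermat.Agent.S28
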