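import Mathlib
import Fermat.Prelude.Def_ModularCurve_X0ModL
import Fermat.Agent.S28.Basic
import Fermat.Agent.S28.ModEq
import Fermat.Agent.S28.Prime

/-!
# S28 (Igusa), piece P6 (M) + (B): substituted modular equation and the chain lemma

`JJ c m = J(c t^m)`; the modular equation of prime level after the substitution `t ↦ c t^m`;
every conjugate of `J(q^d)` over `k(J)` is of the form `J(c t^m)`.
-/

set_option autoImplicit false
set_option linter.style.haveILetI false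

noncomputable section

namespace Fermat.Agent.S28.Chain

open ModularCurve Polynomial Fermat.Agent.S28

variable {k : Type*} [Field k]

/-- `t ↦ t^m`, total in `m` (identity for `m = 0`) -/
def qE (m : ℕ) : LaurentSeries k →+* LaurentSeries k :=
  if h : m = 0 then RingHom.id _ else @qExpand k _ m ⟨h⟩

theorem qE_eq (m : ℕ) [NeZero m] : (qE m : LaurentSeries k →+* LaurentSeries k) = qExpand k m := by
  unfold qE
  rw [dif_neg (NeZero.ne m)]

theorem qE_apply (m : ℕ) [NeZero m] (L : LaurentSeries k) : qE m L = qExpand k m L := by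
  rw [qE_eq]

theorem qE_one (L : LaurentSeries k) : qE 1 L = L := by
  rw [qE_apply, qExpand_one_apply]

theorem qE_injective (m : ℕ) : Function.Injective (qE m : LaurentSeries k → LaurentSeries k) := by
  rcases eq_or_ne m 0 with rfl | hm
  · intro x y h
    simpa [qE] using h
  · haveI : NeZero m := ⟨hm⟩
    rw [qE_eq]
    exact qExpand_injective m

theorem qE_qE {m n : ℕ} (hm : m ≠ 0) (hn : n ≠ 0) (L : LaurentSeries k) :
    qE m (qE n L) = qE (m * n) L := by
  haveI : NeZero m := ⟨hm⟩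
  haveI : NeZero n := ⟨hn⟩
  haveI : NeZero (m * n) := ⟨Nat.mul_ne_zero hm hn⟩
  rw [qE_apply, qE_apply, qE_apply, qExpand_qExpand]

theorem qE_C (m : ℕ) (a : k) : qE m (HahnSeries.C a) = HahnSeries.C a := by
  rcases eq_or_ne m 0 with rfl | hm
  · simp [qE]
  · haveI : NeZero m := ⟨hm⟩
    rw [qE_apply, qExpand_C]

theorem rot_qE (m : ℕ) (hm : m ≠ 0) (c : kˣ) (L : LaurentSeries k) :
    rot c (qE m L) = qE m (rot (c ^ m) L) := by
  haveI : NeZero m := ⟨hm⟩
  rw [qE_apply, qE_apply, rot_qExpand]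

/-- `J(c t^m)` -/
def JJ (c : kˣ) (m : ℕ) : LaurentSeries k := qE m (rot c (jqModC k))

theorem JJ_one (m : ℕ) : JJ (1 : kˣ) m = qE m (jqModC k) := by
  rw [JJ, rot_one]

theorem JJ_one_eq (m : ℕ) [NeZero m] : JJ (1 : kˣ) m = qExpand k m (jqModC k) := by
  rw [JJ_one, qE_apply]

theorem JJ_one_right (c : kˣ) : JJ c 1 = rot c (jqModC k) := by
  rw [JJ, qE_one]

/-- the substitution `t ↦ c t^m` -/
def subs (c : kˣ) (m : ℕ) : LaurentSeries k →+* LaurentSeries k :=
  (qE m).comp (rot c).toRingHom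

theorem subs_apply (c : kˣ) (m : ℕ) (L : LaurentSeries k) : subs c m L = qE m (rot c L) := rfl

theorem subs_C (c : kˣ) (m : ℕ) (a : k) : subs c m (HahnSeries.C a) = HahnSeries.C a := by
  rw [subs_apply, rot_C, qE_C]

theorem subs_injective (c : kˣ) (m : ℕ) : Function.Injective (subs (k := k) c m) :=
  (qE_injective m).comp (rot c).injective

theorem subs_JJ (c c' : kˣ) {m m' : ℕ} (hm : m ≠ 0) (hm' : m' ≠ 0) :
    subs c m (JJ c' m') = JJ (c' * c ^ m') (m * m') := by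
  rw [subs_apply, JJ, JJ, rot_qE m' hm', rot_rot, qE_qE hm hm']

/-- the coefficient of `t^{-m}` in `J(c t^m)` is `c⁻¹` -/
theorem coeff_JJ (c : kˣ) {m : ℕ} (hm : m ≠ 0) :
    (JJ c m).coeff (-(m : ℤ)) = ((c⁻¹ : kˣ) : k) := by
  haveI : NeZero m := ⟨hm⟩
  rw [JJ, qE_apply, show (-(m : ℤ)) = (m : ℤ) * (-1) by ring, qExpand_coeff_mul, coeff_rot,
    coeff_jqModC_neg_one, one_mul, zpow_neg_one]

/-- `J(c t^m)` is a series in `t^m` -/
theorem coeff_JJ_of_not_dvd (c : kˣ) {m : ℕ} (hm : m ≠ 0) {n : ℤ} (hn : ¬ (m : ℤ) ∣ n) :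
    (JJ c m).coeff n = 0 := by
  haveI : NeZero m := ⟨hm⟩
  rw [JJ, qE_apply, qExpand_coeff_of_not_dvd m _ hn]

/-- rotation of `J(c t^m)` -/
theorem rot_JJ (ω c : kˣ) {m : ℕ} (hm : m ≠ 0) : rot ω (JJ c m) = JJ (c * ω ^ m) m := by
  rw [JJ, JJ, rot_qE m hm, rot_rot]

theorem rot_JJ_of_pow_eq_one (ω c : kˣ) {m : ℕ} (hm : m ≠ 0) (hω : ω ^ m = 1) :
    rot ω (JJ c m) = JJ c m := by
  rw [rot_JJ ω c hm, hω, mul_one]

theorem JJ_injective_left {m : ℕ} (hm : m ≠ 0) {c c' : kˣ} (h : JJ c m = JJ c' m) : c = c' := by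
  have h1 := congrArg (fun L : LaurentSeries k => L.coeff (-(m : ℤ))) h
  simp only [coeff_JJ _ hm] at h1
  exact inv_injective (Units.ext h1)

/-! ### (M) the substituted modular equation -/

/-- a polynomial `Φ ∈ k[X][T]` satisfies the modular equation of level `p` (for the root of
unity `ζ`) -/
def IsModEq (p : ℕ) (ζ : kˣ) (Φ : Polynomial (Polynomial k)) : Prop :=
  Φ.map (Polynomial.aeval (JJ (1 : kˣ) p)).toRingHom =
    (X - C (JJ (1 : kˣ) (p ^ 2))) * ∏ b ∈ Finset.range p, (X - C (JJ (ζ ^ b) 1))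

theorem exists_isModEq (p : ℕ) [hp : Fact p.Prime] (ζ : kˣ) (hζ : IsPrimitiveRoot (ζ : k) p) :
    ∃ Φ : Polynomial (Polynomial k), Φ.Monic ∧ Φ.natDegree = p + 1 ∧ IsModEq p ζ Φ := by
  obtain ⟨Φ, h1, h2, h3⟩ := ModEq.modularEquation p k ζ hζ
  refine ⟨Φ, h1, h2, ?_⟩
  haveI : NeZero p := ⟨hp.out.ne_zero⟩
  rw [IsModEq, JJ_one_eq, JJ_one_eq, h3]
  congr 1
  refine Finset.prod_congr rfl (fun b _ => ?_)
  rw [JJ_one_right]

theorem subs_comp_aeval (c : kˣ) (m : ℕ) (x : LaurentSeries k) :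
    (subs c m).comp (Polynomial.aeval x).toRingHom
      = (Polynomial.aeval (R := k) (subs c m x)).toRingHom := by
  apply Polynomial.ringHom_ext
  · intro a
    simp only [RingHom.coe_comp, AlgHom.toRingHom_eq_coe, RingHom.coe_coe, Function.comp_apply,
      Polynomial.aeval_C]
    rw [algebraMap_eq_C, subs_C]
  · simp

/-- **(M)** the modular equation after `t ↦ c t^m` -/
theorem IsModEq.subst_eq {p : ℕ} (hp : p ≠ 0) {ζ : kˣ} {Φ : Polynomial (Polynomial k)}
    (h : IsModEq p ζ Φ) (c : kˣ) {m : ℕ} (hm : m ≠ 0) :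
    Φ.map (Polynomial.aeval (JJ (c ^ p) (m * p))).toRingHom =
      (X - C (JJ (c ^ (p ^ 2)) (m * p ^ 2))) *
        ∏ b ∈ Finset.range p, (X - C (JJ (ζ ^ b * c) m)) := by
  have h1 := congrArg (Polynomial.map (subs c m)) h
  rw [Polynomial.map_map, subs_comp_aeval, subs_JJ c 1 hm hp, one_mul, Polynomial.map_mul,
    Polynomial.map_sub, Polynomial.map_X, Polynomial.map_C, subs_JJ c 1 hm (pow_ne_zero 2 hp),
    one_mul, Polynomial.map_prod] at h1
  rw [h1]
  congr 1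
  refine Finset.prod_congr rfl (fun b _ => ?_)
  rw [Polynomial.map_sub, Polynomial.map_X, Polynomial.map_C, subs_JJ c _ hm one_ne_zero,
    pow_one, mul_one]

/-- the relation `Φ(J(c^p t^{mp}), J(c^{p²} t^{mp²})) = 0` -/
theorem IsModEq.eval₂_eq_zero' {p : ℕ} (hp : p ≠ 0) {ζ : kˣ} {Φ : Polynomial (Polynomial k)}
    (h : IsModEq p ζ Φ) (c : kˣ) {m : ℕ} (hm : m ≠ 0) :
    Φ.eval₂ (Polynomial.aeval (JJ (c ^ p) (m * p))).toRingHom (JJ (c ^ (p ^ 2)) (m * p ^ 2))
      = 0 := by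
  rw [Polynomial.eval₂_eq_eval_map, h.subst_eq hp c hm]
  simp

/-- the relation `Φ(J(t^d), J(t^{dp})) = 0` -/
theorem IsModEq.relation {p : ℕ} (hp : p ≠ 0) {ζ : kˣ} {Φ : Polynomial (Polynomial k)}
    (h : IsModEq p ζ Φ) {d : ℕ} (hd : d ≠ 0) :
    Φ.eval₂ (Polynomial.aeval (JJ (1 : kˣ) d)).toRingHom (JJ (1 : kˣ) (d * p)) = 0 := by
  apply subs_injective (1 : kˣ) p
  rw [map_zero, Polynomial.hom_eval₂, subs_comp_aeval, subs_JJ 1 1 hp hd,
    subs_JJ 1 1 hp (Nat.mul_ne_zero hd hp), one_pow, one_pow, one_mul]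
  have := h.eval₂_eq_zero' hp (1 : kˣ) hd
  rw [one_pow, one_pow] at this
  rw [show p * d = d * p by ring, show p * (d * p) = d * p ^ 2 by ring]
  exact this

theorem exists_primitiveRoot_unit [IsAlgClosed k] (p : ℕ) (hp : (p : k) ≠ 0) :
    ∃ ζ : kˣ, IsPrimitiveRoot (ζ : k) p := by
  haveI : NeZero (p : k) := ⟨hp⟩
  obtain ⟨ζ, hζ⟩ := HasEnoughRootsOfUnity.exists_primitiveRoot k p
  have hp0 : p ≠ 0 := by
    rintro rfl
    simp at hp
  exact ⟨Units.mk0 ζ (hζ.ne_zero hp0), hζ⟩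

theorem exists_unit_pow_eq [IsAlgClosed k] (c₀ : kˣ) {p : ℕ} (hp : p ≠ 0) :
    ∃ c : kˣ, c ^ p = c₀ := by
  obtain ⟨z, hz⟩ := IsAlgClosed.exists_pow_nat_eq (c₀ : k) (Nat.pos_of_ne_zero hp)
  have hz0 : z ≠ 0 := by
    rintro rfl
    rw [zero_pow hp] at hz
    exact c₀.ne_zero hz.symm
  exact ⟨Units.mk0 z hz0, Units.ext (by simpa using hz)⟩

/-- **roots**: every root of `Φ(T, J(c₀ t^{m₀}))`, `p ∣ m₀`, is of the form `J(c t^m)` with
`m₀/p ∣ m`. -/
theorem IsModEq.root_mem [IsAlgClosed k] {p : ℕ} (hp : p ≠ 0) {ζ : kˣ}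
    {Φ : Polynomial (Polynomial k)} (h : IsModEq p ζ Φ)
    {Ω' : Type*} [CommRing Ω'] [IsDomain Ω'] (ι : LaurentSeries k →+* Ω') (c₀ : kˣ) {m₀ : ℕ}
    (hm₀ : m₀ ≠ 0) (hpm : p ∣ m₀) {y : Ω'}
    (hy : Φ.eval₂ (ι.comp (Polynomial.aeval (JJ c₀ m₀)).toRingHom) y = 0) :
    ∃ (c : kˣ) (m : ℕ), m ≠ 0 ∧ (m₀ / p) ∣ m ∧ y = ι (JJ c m) := by
  obtain ⟨m, rfl⟩ := hpm
  have hm : m ≠ 0 := fun h0 => hm₀ (by rw [h0, mul_zero])
  obtain ⟨c, rfl⟩ := exists_unit_pow_eq c₀ hp
  have hdiv : p * m / p = m := Nat.mul_div_cancel_left m (Nat.pos_of_ne_zero hp)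
  rw [hdiv]
  have h1 := h.subst_eq hp c hm
  rw [mul_comm m p] at h1
  rw [← Polynomial.eval₂_map, Polynomial.eval₂_eq_eval_map, h1, Polynomial.map_mul,
    Polynomial.eval_mul, Polynomial.map_prod, Polynomial.eval_prod] at hy
  rcases mul_eq_zero.mp hy with h2 | h2
  · refine ⟨c ^ (p ^ 2), m * p ^ 2, Nat.mul_ne_zero hm (pow_ne_zero 2 hp), dvd_mul_right _ _, ?_⟩
    simpa [sub_eq_zero] using h2
  · obtain ⟨b, -, hb⟩ := Finset.prod_eq_zero_iff.mp h2
    refine ⟨ζ ^ b * c, m, hm, dvd_rfl, ?_⟩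
    simpa [sub_eq_zero] using hb

/-! ### (B) the chain lemma -/

theorem JJ_one_mem_full {N d : ℕ} (hd : d ∣ N) (hd0 : d ≠ 0) :
    JJ (1 : kˣ) d ∈ modularFunctionFieldFullC k N := by
  haveI : NeZero d := ⟨hd0⟩
  rw [JJ_one_eq]
  exact jqModCd_mem_full k N hd

theorem val_comp_aeval (N : ℕ) (x : ↥(modularFunctionFieldFullC k N)) :
    (algebraMap ↥(modularFunctionFieldFullC k N) (LaurentSeries k)).comp
        (Polynomial.aeval x).toRingHom
      = (Polynomial.aeval (R := k) (x : LaurentSeries k)).toRingHom := by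
  apply Polynomial.ringHom_ext
  · intro a
    simp only [RingHom.coe_comp, AlgHom.toRingHom_eq_coe, RingHom.coe_coe, Function.comp_apply,
      Polynomial.aeval_C]
    rfl
  · simp

/-- the relation inside the field `L_N` -/
theorem IsModEq.relation_full {p : ℕ} (hp : p ≠ 0) {ζ : kˣ} {Φ : Polynomial (Polynomial k)}
    (h : IsModEq p ζ Φ) {d : ℕ} (hd : d ≠ 0) (N : ℕ)
    (x' x : ↥(modularFunctionFieldFullC k N)) (hx' : (x' : LaurentSeries k) = JJ 1 d)
    (hx : (x : LaurentSeries k) = JJ 1 (d * p)) :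
    Φ.eval₂ (Polynomial.aeval x').toRingHom x = 0 := by
  apply (algebraMap ↥(modularFunctionFieldFullC k N) (LaurentSeries k)).injective
  rw [map_zero, Polynomial.hom_eval₂, val_comp_aeval]
  show Φ.eval₂ (Polynomial.aeval (x' : LaurentSeries k)).toRingHom (x : LaurentSeries k) = 0
  rw [hx', hx]
  exact h.relation hp hd

/-- **(B) chain lemma**: under any embedding `φ` of `L_N` with `φ(J) = J(t^D)`, every `J(q^d)`,
`d ∣ N`, goes to some `J(c t^m)` with `D/d ∣ m`. -/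
theorem chain [IsAlgClosed k] (N D : ℕ) (hN : (N : k) ≠ 0) (hND : N ∣ D) (hD : D ≠ 0)
    {Ω' : Type*} [Field Ω'] (ι : LaurentSeries k →+* Ω')
    (φ : ↥(modularFunctionFieldFullC k N) →+* Ω')
    (hφk : ∀ a : k, φ (algebraMap k _ a) = ι (HahnSeries.C a))
    (hφJ : ∀ x : ↥(modularFunctionFieldFullC k N),
      (x : LaurentSeries k) = jqModC k → φ x = ι (JJ 1 D)) :
    ∀ d, d ∣ N → ∀ x : ↥(modularFunctionFieldFullC k N), (x : LaurentSeries k) = JJ 1 d →
      ∃ (c : kˣ) (m : ℕ), m ≠ 0 ∧ (D / d) ∣ m ∧ φ x = ι (JJ c m) := by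
  have hN0 : N ≠ 0 := by
    rintro rfl
    simp at hN
  intro d
  induction d using Nat.strong_induction_on with
  | _ d ih =>
    intro hd x hx
    have hd0 : d ≠ 0 := fun h => hN0 (by rw [h] at hd; exact Nat.eq_zero_of_zero_dvd hd)
    rcases eq_or_ne d 1 with rfl | hd1
    · refine ⟨1, D, hD, by simp, hφJ x ?_⟩
      rw [hx, JJ_one, qE_one]
    · -- a prime factor of `d`
      set p := d.minFac with hpdef
      have hpp : p.Prime := Nat.minFac_prime hd1
      have hpd : p ∣ d := Nat.minFac_dvd d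
      obtain ⟨d', hd'⟩ := hpd
      have hd'0 : d' ≠ 0 := fun h => hd0 (by rw [hd', h, mul_zero])
      have hd'lt : d' < d := by
        rw [hd']
        exact lt_mul_of_one_lt_left (Nat.pos_of_ne_zero hd'0) hpp.one_lt
      have hd'N : d' ∣ N := (Dvd.intro_left p hd'.symm).trans hd
      have hpk : (p : k) ≠ 0 := by
        intro h0
        apply hN
        obtain ⟨e, he⟩ := (Dvd.intro d' hd'.symm : p ∣ d).trans hd
        rw [he, Nat.cast_mul, h0, zero_mul]
      obtain ⟨ζ, hζ⟩ := exists_primitiveRoot_unit (k := k) p hpk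
      haveI : Fact p.Prime := ⟨hpp⟩
      obtain ⟨Φ, -, -, hΦ⟩ := exists_isModEq p ζ hζ
      -- the element `J(q^{d'})` of `L_N`
      let x' : ↥(modularFunctionFieldFullC k N) := ⟨JJ 1 d', JJ_one_mem_full hd'N hd'0⟩
      obtain ⟨c₀, m₀, hm₀, hdiv₀, hx'⟩ := ih d' hd'lt hd'N x' rfl
      have hrel := hΦ.relation_full hpp.ne_zero hd'0 N x' x rfl (by rw [hx, hd', mul_comm])
      have hrel' := congrArg φ hrel
      rw [map_zero, Polynomial.hom_eval₂] at hrel'
      have hcomp : φ.comp (Polynomial.aeval (R := k) x').toRingHom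
          = ι.comp (Polynomial.aeval (R := k) (JJ c₀ m₀)).toRingHom := by
        apply Polynomial.ringHom_ext
        · intro a
          simp only [RingHom.coe_comp, AlgHom.toRingHom_eq_coe, RingHom.coe_coe,
            Function.comp_apply, Polynomial.aeval_C]
          rw [hφk, algebraMap_eq_C]
        · simp only [RingHom.coe_comp, AlgHom.toRingHom_eq_coe, RingHom.coe_coe,
            Function.comp_apply, Polynomial.aeval_X]
          exact hx'
      rw [hcomp] at hrel'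
      -- divisibility bookkeeping
      obtain ⟨e, he⟩ := hd.trans hND
      have hDd : D / d = e := by
        rw [he]
        exact Nat.mul_div_cancel_left e (Nat.pos_of_ne_zero hd0)
      have hDd' : D / d' = p * e := by
        rw [he, hd', show p * d' * e = d' * (p * e) by ring]
        exact Nat.mul_div_cancel_left _ (Nat.pos_of_ne_zero hd'0)
      rw [hDd'] at hdiv₀
      obtain ⟨f, hf⟩ := hdiv₀
      have hpm₀ : p ∣ m₀ := ⟨e * f, by rw [hf]; ring⟩
      obtain ⟨c, m, hm, hdvd, hy⟩ := hΦ.root_mem hpp.ne_zero ι c₀ hm₀ hpm₀ hrel'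
      refine ⟨c, m, hm, ?_, hy⟩
      rw [hDd]
      have : m₀ / p = e * f := by
        rw [hf, show p * e * f = p * (e * f) by ring]
        exact Nat.mul_div_cancel_left _ hpp.pos
      rw [this] at hdvd
      exact (dvd_mul_right e f).trans hdvd

end Fermat.Agent.S28.Chain
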