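import Mathlib
import Fermat.Prelude.Def_ModularCurve_X0ModL

/-!
# S28 (Igusa), piece P6: the `ζ`-free modular equation package

`ModPoly k p` says: there is a monic `Φ ∈ k[Y][X]` of degree `p + 1` such that `Φ(X, J(q^p))` has
the roots `J(q)` and `J(q^{p²})`, and every root of `Φ(X, J(q^p))` in `k((q))` other than
`J(q^{p²})` has order prime to `p`.

`GN k N` is the subfield of `k((q))` generated over `k` by the `J(q^d)`, `d ∣ N` a prime power
(or `1`).
-/

set_option autoImplicit false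

noncomputable section

namespace Fermat.Agent.S28.P6

open ModularCurve

/-- the `ζ`-free modular equation package over the field `k` for the prime `p` -/
def ModPoly (k : Type*) [Field k] (p : ℕ) [Fact p.Prime] : Prop :=
  ∃ Φ : Polynomial (Polynomial k), Φ.Monic ∧ Φ.natDegree = p + 1 ∧
    (Φ.map (Polynomial.aeval (qExpand k p (jqModC k))).toRingHom).IsRoot (jqModC k) ∧
    (Φ.map (Polynomial.aeval (qExpand k p (jqModC k))).toRingHom).IsRoot
      (qExpand k (p ^ 2) (jqModC k)) ∧
    ∀ r : LaurentSeries k,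
      (Φ.map (Polynomial.aeval (qExpand k p (jqModC k))).toRingHom).IsRoot r →
        r = qExpand k (p ^ 2) (jqModC k) ∨ ¬ ((p : ℤ) ∣ r.order)

/-- the generators `J(q^d)`, `d ∣ N`, `d = 1` or a prime power -/
def ppGens (k : Type*) [Field k] (N : ℕ) : Set (LaurentSeries k) :=
  {x | ∃ (d : ℕ) (_ : NeZero d), d ∣ N ∧ (d = 1 ∨ IsPrimePow d) ∧ x = qExpand k d (jqModC k)}

/-- the field generated by the `J(q^d)`, `d ∣ N` a prime power -/
def GN (k : Type*) [Field k] (N : ℕ) : IntermediateField k (LaurentSeries k) :=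
  IntermediateField.adjoin k (ppGens k N)

variable (k : Type*) [Field k]

theorem ppGens_subset_divisorExpansionsC (N : ℕ) : ppGens k N ⊆ divisorExpansionsC k N := by
  rintro x ⟨d, hd, hdN, -, rfl⟩
  exact ⟨d, hd, hdN, rfl⟩

theorem GN_le_full (N : ℕ) : GN k N ≤ modularFunctionFieldFullC k N :=
  IntermediateField.adjoin.mono k _ _ (ppGens_subset_divisorExpansionsC k N)

theorem mem_ppGens {N d : ℕ} [NeZero d] (hd : d ∣ N) (hpp : d = 1 ∨ IsPrimePow d) :
    qExpand k d (jqModC k) ∈ ppGens k N :=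
  ⟨d, ‹_›, hd, hpp, rfl⟩

theorem qExpand_mem_GN {N d : ℕ} [NeZero d] (hd : d ∣ N) (hpp : d = 1 ∨ IsPrimePow d) :
    qExpand k d (jqModC k) ∈ GN k N :=
  IntermediateField.subset_adjoin k _ (mem_ppGens k hd hpp)

theorem jqModC_mem_GN (N : ℕ) : jqModC k ∈ GN k N := by
  simpa [qExpand_one_apply] using qExpand_mem_GN k (one_dvd N) (Or.inl rfl)

theorem adjoin_jqModC_le_GN (N : ℕ) : IntermediateField.adjoin k {jqModC k} ≤ GN k N := by
  rw [IntermediateField.adjoin_le_iff]
  rintro x rfl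
  exact jqModC_mem_GN k N

theorem GN_mono {M N : ℕ} (h : M ∣ N) : GN k M ≤ GN k N := by
  apply IntermediateField.adjoin.mono
  rintro x ⟨d, hd, hdM, hpp, rfl⟩
  exact ⟨d, hd, hdM.trans h, hpp, rfl⟩

end Fermat.Agent.S28.P6
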