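import Mathlib
import Fermat.Prelude.Def_ModularCurve_X0ModL
import Fermat.Agent.S28.Chain
import Fermat.Agent.S28.ModPoly

/-!
# S28 (Igusa), piece P6, bookkeeping: `L_N` is finite over `k(J)`

* `relation_of_modPoly` : `Φ_p(J(q^{dp}), J(q^d)) = 0` from `ModPoly k p`;
* `isIntegral_gen` : every `J(q^d)`, `d ∣ N`, is integral over `k(J)`;
* `finiteDimensional_full` : `FiniteDimensional k⟮J⟯ L_N` (in the shape of (IG));
* `finrank_eq_relfinrank`, `le_finrank_of_le_relfinrank` : passage between the (IG) shape
  `finrank k⟮x⟯ L_N` and `IntermediateField.relfinrank` inside `k((q))`.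
-/

set_option autoImplicit false
set_option linter.style.haveILetI false

noncomputable section

namespace Fermat.Agent.S28.FinDimL

open ModularCurve Polynomial IntermediateField Fermat.Agent.S28 Fermat.Agent.S28.Chain

variable {k : Type*} [Field k]

/-- `t ↦ t^m` commutes with `aeval` -/
theorem qE_comp_aeval (m : ℕ) (x : LaurentSeries k) :
    (qE m).comp (Polynomial.aeval x).toRingHom
      = (Polynomial.aeval (R := k) (qE m x)).toRingHom := by
  apply Polynomial.ringHom_ext
  · intro a
    simp only [RingHom.coe_comp, AlgHom.toRingHom_eq_coe, RingHom.coe_coe, Function.comp_apply,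
      Polynomial.aeval_C]
    rw [algebraMap_eq_C, qE_C]
  · simp

/-- a polynomial relation between `J(q^p)` and `J`, transported to `J(q^{dp})` and `J(q^d)` -/
theorem relation_of_isRoot {p : ℕ} (hp : p ≠ 0) {Φ : Polynomial (Polynomial k)}
    (h : (Φ.map (Polynomial.aeval (qE p (jqModC k))).toRingHom).IsRoot (qE (p ^ 2) (jqModC k)))
    {d : ℕ} (hd : d ≠ 0) :
    Φ.eval₂ (Polynomial.aeval (qE d (jqModC k))).toRingHom (qE (d * p) (jqModC k)) = 0 := by
  -- first `Φ(J_p, J) = 0`
  have h1 : Φ.eval₂ (Polynomial.aeval (jqModC k)).toRingHom (qE p (jqModC k)) = 0 := by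
    apply qE_injective p
    rw [map_zero, Polynomial.hom_eval₂, qE_comp_aeval, qE_qE hp hp, ← sq]
    rw [Polynomial.IsRoot, Polynomial.eval_map] at h
    exact h
  have h2 := congrArg (qE d) h1
  rw [map_zero, Polynomial.hom_eval₂, qE_comp_aeval, qE_qE hd hp] at h2
  exact h2

/-- the relation `Φ_p(J(q^{dp}), J(q^d)) = 0` from `ModPoly` -/
theorem relation_of_modPoly (p : ℕ) [hp : Fact p.Prime] (h : P6.ModPoly k p) :
    ∃ Φ : Polynomial (Polynomial k), Φ.Monic ∧ ∀ d : ℕ, d ≠ 0 →
      Φ.eval₂ (Polynomial.aeval (qE d (jqModC k))).toRingHom (qE (d * p) (jqModC k)) = 0 := by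
  obtain ⟨Φ, hm, -, -, hroot, -⟩ := h
  refine ⟨Φ, hm, fun d hd => relation_of_isRoot hp.out.ne_zero ?_ hd⟩
  haveI : NeZero p := ⟨hp.out.ne_zero⟩
  rw [qE_apply, qE_apply]
  exact hroot

/-! ### Integrality of the generators -/

section Integral

variable (N : ℕ)

theorem qE_mem_full {d : ℕ} (hd : d ∣ N) (hd0 : d ≠ 0) :
    qE d (jqModC k) ∈ modularFunctionFieldFullC k N := by
  haveI : NeZero d := ⟨hd0⟩
  rw [qE_apply]
  exact jqModCd_mem_full k N hd

/-- pull a relation back into the field `L_N` -/
theorem eval₂_full_eq_zero {Φ : Polynomial (Polynomial k)}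
    (y' y : ↥(modularFunctionFieldFullC k N))
    (h : Φ.eval₂ (Polynomial.aeval (y' : LaurentSeries k)).toRingHom (y : LaurentSeries k) = 0) :
    Φ.eval₂ (Polynomial.aeval y').toRingHom y = 0 := by
  apply (algebraMap ↥(modularFunctionFieldFullC k N) (LaurentSeries k)).injective
  rw [map_zero, Polynomial.hom_eval₂, val_comp_aeval]
  exact h

/-- a root of a monic polynomial with coefficients in `k[y']`, `y'` integral over `F`, is
integral over `F` -/
theorem isIntegral_of_eval₂ {L : Type*} [Field L] [Algebra k L] (F : IntermediateField k L)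
    {Φ : Polynomial (Polynomial k)} (hΦ : Φ.Monic) {y' y : L} (hy' : IsIntegral F y')
    (h : Φ.eval₂ (Polynomial.aeval y').toRingHom y = 0) : IsIntegral F y := by
  let A' : Subalgebra F L := integralClosure F L
  have hy'A : y' ∈ A' := hy'
  let g : Polynomial k →+* ↥A' := (Polynomial.aeval (R := k) (⟨y', hy'A⟩ : ↥A')).toRingHom
  have hcomp : (algebraMap ↥A' L).comp g = (Polynomial.aeval (R := k) y').toRingHom := by
    apply Polynomial.ringHom_ext
    · intro a
      simp only [g, RingHom.coe_comp, AlgHom.toRingHom_eq_coe, RingHom.coe_coe,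
        Function.comp_apply, Polynomial.aeval_C]
      rfl
    · simp [g]
  have hint : IsIntegral ↥A' y := by
    refine ⟨Φ.map g, hΦ.map _, ?_⟩
    rw [Polynomial.eval₂_map, hcomp]
    exact h
  exact isIntegral_trans (A := ↥A') y hint

/-- every generator `J(q^d)`, `d ∣ N`, of `L_N` is integral over `k(J)` -/
theorem isIntegral_gen (hN : N ≠ 0) (h : ∀ p [Fact p.Prime], p ∣ N → P6.ModPoly k p)
    (x : ↥(modularFunctionFieldFullC k N)) (hx : (x : LaurentSeries k) = jqModC k) :
    ∀ d, d ∣ N → ∀ y : ↥(modularFunctionFieldFullC k N),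
      (y : LaurentSeries k) = qE d (jqModC k) → IsIntegral k⟮x⟯ y := by
  intro d
  induction d using Nat.strong_induction_on with
  | _ d ih =>
    intro hd y hy
    have hd0 : d ≠ 0 := fun h0 => hN (by rw [h0] at hd; exact Nat.eq_zero_of_zero_dvd hd)
    rcases eq_or_ne d 1 with rfl | hd1
    · have : y = x := Subtype.ext (by rw [hy, hx, qE_one])
      rw [this]
      exact isIntegral_algebraMap (x := (⟨x, mem_adjoin_simple_self k x⟩ : k⟮x⟯))
    · set p := d.minFac with hpdef
      have hpp : p.Prime := Nat.minFac_prime hd1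
      obtain ⟨d', hd'⟩ := Nat.minFac_dvd d
      have hd'0 : d' ≠ 0 := fun h0 => hd0 (by rw [hd', h0, mul_zero])
      have hd'lt : d' < d := by
        rw [hd']
        exact lt_mul_of_one_lt_left (Nat.pos_of_ne_zero hd'0) hpp.one_lt
      have hd'N : d' ∣ N := (Dvd.intro_left _ hd'.symm).trans hd
      have hpN : p ∣ N := (Dvd.intro _ hd'.symm).trans hd
      haveI : Fact p.Prime := ⟨hpp⟩
      obtain ⟨Φ, hm, hrel⟩ := relation_of_modPoly p (h p hpN)
      let y' : ↥(modularFunctionFieldFullC k N) := ⟨qE d' (jqModC k), qE_mem_full N hd'N hd'0⟩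
      have hy' := ih d' hd'lt hd'N y' rfl
      have h1 := hrel d' hd'0
      have h2 : Φ.eval₂ (Polynomial.aeval y').toRingHom y = 0 := by
        apply eval₂_full_eq_zero
        rw [hy, hd', mul_comm]
        exact h1
      exact isIntegral_of_eval₂ k⟮x⟯ hm hy' h2

/-- the generators of `L_N`, as elements of `L_N` -/
def genL (i : {d : ℕ // d ∈ N.divisors}) : ↥(modularFunctionFieldFullC k N) :=
  ⟨qE i.1 (jqModC k),
    qE_mem_full N (Nat.dvd_of_mem_divisors i.2) (Nat.pos_of_mem_divisors i.2).ne'⟩

theorem image_genL (hN : N ≠ 0) :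
    (modularFunctionFieldFullC k N).val '' Set.range (genL (k := k) N)
      = divisorExpansionsC k N := by
  ext w
  constructor
  · rintro ⟨_, ⟨i, rfl⟩, rfl⟩
    have hi0 : i.1 ≠ 0 := (Nat.pos_of_mem_divisors i.2).ne'
    refine ⟨i.1, ⟨hi0⟩, Nat.dvd_of_mem_divisors i.2, ?_⟩
    haveI : NeZero i.1 := ⟨hi0⟩
    show qE i.1 (jqModC k) = _
    rw [qE_apply]
  · rintro ⟨d, hd0, hd, rfl⟩
    refine ⟨genL N ⟨d, Nat.mem_divisors.mpr ⟨hd, hN⟩⟩, ⟨_, rfl⟩, ?_⟩
    show qE d (jqModC k) = _
    rw [qE_apply]

theorem adjoin_genL_eq_top (hN : N ≠ 0) :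
    IntermediateField.adjoin k (Set.range (genL (k := k) N)) = ⊤ := by
  rw [eq_top_iff]
  intro z _
  have h1 : ((IntermediateField.adjoin k (Set.range (genL (k := k) N))).map
      (modularFunctionFieldFullC k N).val) = modularFunctionFieldFullC k N := by
    rw [IntermediateField.adjoin_map, image_genL N hN]
    rfl
  have h2 : (z : LaurentSeries k) ∈
      (IntermediateField.adjoin k (Set.range (genL (k := k) N))).map
        (modularFunctionFieldFullC k N).val := by
    rw [h1]
    exact z.2
  obtain ⟨w, hw, hwz⟩ := h2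
  have : w = z := Subtype.ext hwz
  rwa [← this]

/-- abstract form: a field generated over `k` by finitely many elements integral over `k(x)`
is finite over `k(x)` -/
theorem finiteDimensional_of_gens {L : Type*} [Field L] [Algebra k L] (x : L) {ι : Type*}
    [Finite ι] (g : ι → L) (hgen : IntermediateField.adjoin k (Set.range g) = ⊤)
    (hint : ∀ i, IsIntegral k⟮x⟯ (g i)) : FiniteDimensional k⟮x⟯ L := by
  have hint' : ∀ y ∈ Set.range g, IsIntegral k⟮x⟯ y := by
    rintro _ ⟨i, rfl⟩
    exact hint i
  have hfd := IntermediateField.finiteDimensional_adjoin (K := k⟮x⟯) hint'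
  have htop : IntermediateField.adjoin k⟮x⟯ (Set.range g) = ⊤ := by
    rw [eq_top_iff]
    intro z _
    have h1 : z ∈ (IntermediateField.adjoin k⟮x⟯ (Set.range g)).restrictScalars k := by
      rw [IntermediateField.restrictScalars_adjoin]
      have h2 : IntermediateField.adjoin k (Set.range g)
          ≤ IntermediateField.adjoin k (↑k⟮x⟯ ∪ Set.range g) :=
        IntermediateField.adjoin.mono k _ _ Set.subset_union_right
      apply h2
      rw [hgen]
      trivial
    exact h1
  rw [htop] at hfd
  exact Module.Finite.equiv (IntermediateField.topEquiv (F := k⟮x⟯) (E := L)).toLinearEquiv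

/-- **`L_N` is finite over `k(J)`** (in the shape of (IG)) -/
theorem finiteDimensional_full (hN : N ≠ 0) (h : ∀ p [Fact p.Prime], p ∣ N → P6.ModPoly k p)
    (x : ↥(modularFunctionFieldFullC k N)) (hx : (x : LaurentSeries k) = jqModC k) :
    FiniteDimensional k⟮x⟯ ↥(modularFunctionFieldFullC k N) :=
  finiteDimensional_of_gens x (genL (k := k) N) (adjoin_genL_eq_top N hN)
    (fun i => isIntegral_gen N hN h x hx i.1 (Nat.dvd_of_mem_divisors i.2) _ rfl)

end Integral

/-! ### Degrees: the (IG) shape versus `relfinrank` inside `k((q))` -/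

section Degree

variable {Ω : Type*} [Field Ω] [Algebra k Ω]

theorem finrank_congr_left {L : Type*} [Field L] [Algebra k L] {X Y : IntermediateField k L}
    (h : X = Y) : Module.finrank X L = Module.finrank Y L := by
  subst h
  rfl

/-- the (IG) shape of a degree is a `relfinrank` -/
theorem finrank_eq_relfinrank (L : IntermediateField k Ω) (x : L) :
    Module.finrank k⟮x⟯ L = (IntermediateField.adjoin k {(x : Ω)}).relfinrank L := by
  have h1 := IntermediateField.finrank_comap (IntermediateField.adjoin k {(x : Ω)}) L.val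
  rw [IntermediateField.fieldRange_val] at h1
  rw [← h1]
  apply finrank_congr_left
  have h2 : (IntermediateField.adjoin k {x}).map L.val = IntermediateField.adjoin k {(x : Ω)} := by
    rw [IntermediateField.adjoin_map]
    simp
  rw [← h2]
  apply le_antisymm
  · rw [← IntermediateField.map_le_iff_le_comap]
  · intro y hy
    obtain ⟨w, hw, hwy⟩ := hy
    have : w = y := L.val.injective hwy
    rwa [← this]

/-- monotonicity of the degree over `k(J)`, in the shape needed for (IG) -/
theorem le_finrank_of_le_relfinrank (G L : IntermediateField k Ω) (hGL : G ≤ L) (x : L)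
    (hxG : (x : Ω) ∈ G) [FiniteDimensional k⟮x⟯ L] {n : ℕ}
    (hn : n ≤ (IntermediateField.adjoin k {(x : Ω)}).relfinrank G) :
    n ≤ Module.finrank k⟮x⟯ L := by
  rw [finrank_eq_relfinrank]
  have hAG : IntermediateField.adjoin k {(x : Ω)} ≤ G := by
    rw [IntermediateField.adjoin_le_iff]
    rintro _ rfl
    exact hxG
  have hmul := IntermediateField.relfinrank_mul_relfinrank hAG hGL
  have hpos : 0 < (IntermediateField.adjoin k {(x : Ω)}).relfinrank L := by
    rw [← finrank_eq_relfinrank]
    exact Module.finrank_pos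
  have hGLpos : 0 < G.relfinrank L := by
    rcases Nat.eq_zero_or_pos (G.relfinrank L) with h0 | h0
    · rw [h0, mul_zero] at hmul
      omega
    · exact h0
  calc n ≤ (IntermediateField.adjoin k {(x : Ω)}).relfinrank G := hn
    _ ≤ (IntermediateField.adjoin k {(x : Ω)}).relfinrank G * G.relfinrank L :=
        Nat.le_mul_of_pos_right _ hGLpos
    _ = _ := hmul

end Degree

/-- **piece (5)**: (IG) from the degree of `G_N` -/
theorem ig_of_relfinrank (k : Type*) [Field k] (N : ℕ) [NeZero N]
    (hmod : ∀ p, ∀ hp : p.Prime, p ∣ N → (haveI := Fact.mk hp; P6.ModPoly k p))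
    (hG : IntermediateField.relfinrank (IntermediateField.adjoin k {jqModC k}) (P6.GN k N)
      = dedekindPsi N) :
    dedekindPsi N ≤ Module.finrank
      (k⟮(⟨jqModC k, jqModC_mem_full k N⟩ : modularFunctionFieldFullC k N)⟯)
      (modularFunctionFieldFullC k N) := by
  haveI : FiniteDimensional
      (k⟮(⟨jqModC k, jqModC_mem_full k N⟩ : modularFunctionFieldFullC k N)⟯)
      (modularFunctionFieldFullC k N) :=
    finiteDimensional_full N (NeZero.ne N) (fun p hp hpN => hmod p hp.out hpN) _ rfl
  exact le_finrank_of_le_relfinrank (P6.GN k N) (modularFunctionFieldFullC k N)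
    (P6.GN_le_full k N) ⟨jqModC k, jqModC_mem_full k N⟩ (P6.jqModC_mem_GN k N) hG.ge

end Fermat.Agent.S28.FinDimL
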