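import Mathlib
import Fermat.Prelude.Def_ModularCurve_X0ModL
import Fermat.Agent.Lib.ModJ.Distinct
import Fermat.Agent.Lib.ModJ.Hermite
import Fermat.Agent.S28.Basic
import Fermat.Agent.S28.Formal
import Fermat.Agent.S28.LemmaL
import Fermat.Agent.S28.ModEq

/-!
# S28 (Igusa), piece P4: the modular unit `Δ(q^p)/Δ(q)` is integral over `k[J]` (I.2)

For a prime `p` and a field `k` with a primitive `p`-th root of unity there is a monic polynomial
`U ∈ k[X][Y]` with `U(J(q), Δ(q^p)/Δ(q)) = 0` in `k((q))`.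

The polynomial is `∏ (Y − u(γ_i z))`, `u(z) = Δ(pz)/Δ(z)`, over the `p + 1` cosets of `Γ₀(p)`;
after multiplication by `p¹²` the conjugates have expansions with coefficients in `ℤ[ζ_p]`.
-/

set_option autoImplicit false

noncomputable section

open UpperHalfPlane Function Complex Filter Topology CongruenceSubgroup Polynomial
open scoped MatrixGroups Manifold ModularForm

namespace Fermat.Agent.S28.ModUnit

open Fermat.Agent.Lib.ModJ Fermat.Agent.S28 Fermat.Agent.S28.LemmaL Fermat.Agent.S28.ModEq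

local notation "𝕢" => Periodic.qParam

/-! ### The inverse of `Δ` as a Laurent series -/

section Formal

variable (A : Type*) [CommRing A]

/-- `Δ⁻¹` as a Laurent series over `A` -/
def invDeltaL : LaurentSeries A :=
  HahnSeries.single (-1 : ℤ) (1 : A) * toL A ModularCurve.dedekindEtaUnitInv

theorem DeltaL_mul_invDeltaL : DeltaL A * invDeltaL A = 1 := by
  rw [DeltaL_eq, invDeltaL]
  have h1 : toL A ModularCurve.dedekindEtaUnit * toL A ModularCurve.dedekindEtaUnitInv = 1 := by
    rw [← map_mul, ModularCurve.dedekindEtaUnit_mul_inv, map_one]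
  have h2 : HahnSeries.single (1 : ℤ) (1 : A) * HahnSeries.single (-1 : ℤ) (1 : A) = 1 := by
    rw [HahnSeries.single_mul_single]
    simp
  calc HahnSeries.single (1 : ℤ) (1 : A) * toL A ModularCurve.dedekindEtaUnit *
        (HahnSeries.single (-1 : ℤ) (1 : A) * toL A ModularCurve.dedekindEtaUnitInv)
      = (HahnSeries.single (1 : ℤ) (1 : A) * HahnSeries.single (-1 : ℤ) (1 : A)) *
        (toL A ModularCurve.dedekindEtaUnit * toL A ModularCurve.dedekindEtaUnitInv) := by ring
    _ = 1 := by rw [h1, h2, mul_one]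

variable {A} in
theorem coeffMap_invDeltaL {B : Type*} [CommRing B] (f : A →+* B) :
    ModularCurve.coeffMap f (invDeltaL A) = invDeltaL B := by
  rw [invDeltaL, map_mul, ModularCurve.coeffMap_single, map_one, coeffMap_toL, invDeltaL]

theorem invDeltaL_eq_inv (k : Type*) [Field k] : invDeltaL k = (DeltaL k)⁻¹ :=
  eq_inv_of_mul_eq_one_right (DeltaL_mul_invDeltaL k)

end Formal

/-! ### The analytic side -/

section Analytic

/-- the expansion of `Δ` -/
theorem hasQL_Delta : HasQL 1 (fun τ => ModularForm.discriminant τ) (DeltaL ℂ) :=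
  hasQ_Deltaf.hasQL

/-- the expansion of `Δ⁻¹` -/
theorem hasQL_invDelta : HasQL 1 (fun τ => (ModularForm.discriminant τ)⁻¹) (invDeltaL ℂ) := by
  refine (hasQL_inv_q.mul hasQ_eta24_inv.hasQL).congr (fun τ => ?_)
  rw [discriminant_eq, mul_inv]

theorem discriminant_mdiff : MDiff (fun τ => ModularForm.discriminant τ) :=
  UpperHalfPlane.mdifferentiable_iff.mpr discriminant_differentiableOn

theorem invDiscriminant_mdiff : MDiff (fun τ => (ModularForm.discriminant τ)⁻¹) := by
  have h := discriminant_mdiff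
  rw [UpperHalfPlane.mdifferentiable_iff] at h ⊢
  have h2 : DifferentiableOn ℂ (fun w => ((fun τ => ModularForm.discriminant τ) ∘ ofComplex) w)⁻¹
      {z : ℂ | 0 < z.im} := h.inv (fun w _ => ModularForm.discriminant_ne_zero _)
  exact h2

variable (p : ℕ) [hp : Fact p.Prime]

attribute [local instance] neZero_p

/-- `u(z) = Δ(pz)/Δ(z)` -/
def uFn (z : ℍ) : ℂ :=
  ModularForm.discriminant (pnatSMul (pP p) z) * (ModularForm.discriminant z)⁻¹

/-- transformation of `u` under `SL₂(ℤ)`, in terms of a Hermite decomposition -/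
theorem uFn_smul_of_hermite (γ δ : SL(2, ℤ)) (A B D : ℕ) (hA : 0 < A) (hD : 0 < D)
    (h00 : ((pP p : ℕ) : ℤ) * γ 0 0 = δ 0 0 * A)
    (h01 : ((pP p : ℕ) : ℤ) * γ 0 1 = δ 0 0 * B + δ 0 1 * D)
    (h10 : γ 1 0 = δ 1 0 * A)
    (h11 : γ 1 1 = δ 1 0 * B + δ 1 1 * D) (z : ℍ) :
    uFn p (γ • z) = ((D : ℂ) ^ 12)⁻¹ *
      (ModularForm.discriminant (affH A B D hA hD z) * (ModularForm.discriminant z)⁻¹) := by
  rw [uFn, pnatSMul_smul_eq (pP p) γ δ A B D hA hD h00 h01 h10 h11 z, discriminant_smul,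
    discriminant_smul, coe_affH]
  have hDC : (D : ℂ) ≠ 0 := by exact_mod_cast hD.ne'
  have hden1 := denom_ne_zero' γ z
  have hden2 := denom_ne_zero' δ (affH A B D hA hD z)
  rw [coe_affH] at hden2
  have c10 := congrArg (Int.cast (R := ℂ)) h10
  have c11 := congrArg (Int.cast (R := ℂ)) h11
  push_cast at c10 c11
  have e1 : ((γ 1 0 : ℤ) : ℂ) * z + ((γ 1 1 : ℤ) : ℂ) =
      (D : ℂ) * (((δ 1 0 : ℤ) : ℂ) * (((A : ℂ) * z + B) / D) + ((δ 1 1 : ℤ) : ℂ)) := by
    rw [c10, c11]
    field_simp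
    ring
  have hΔ := ModularForm.discriminant_ne_zero z
  rw [e1, mul_zpow, mul_inv, mul_inv]
  have h12 : ((D : ℂ) ^ (12 : ℤ)) = (D : ℂ) ^ 12 := by norm_cast
  rw [h12]
  set X : ℂ := (((δ 1 0 : ℤ) : ℂ) * (((A : ℂ) * z + B) / D) + ((δ 1 1 : ℤ) : ℂ)) ^ (12 : ℤ) with hX
  have hne : X ≠ 0 := zpow_ne_zero _ hden2
  have hD12 : (D : ℂ) ^ 12 ≠ 0 := pow_ne_zero _ hDC
  field_simp


theorem affH_eq_pnatSMul (hA : 0 < p) (hD : 0 < 1) (z : ℍ) :
    affH p 0 1 hA hD z = pnatSMul (pP p) z := by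
  apply UpperHalfPlane.ext
  rw [coe_affH, coe_pnatSMul]
  simp [pP]

/-- `u` is invariant under `Γ₀(p)` -/
theorem uFn_smul_of_mem {g : SL(2, ℤ)} (hg : g ∈ Gamma0 p) (z : ℍ) : uFn p (g • z) = uFn p z := by
  have hp0 : 0 < p := hp.out.pos
  obtain ⟨δ, A, B, D, hAD, hBD, h00, h01, h10, h11⟩ := hermite_entries g p hp0
  have hA : p = A := ((hermite_A_eq_iff g δ A D hAD h00 h10).mpr hg).symm
  have hD : D = 1 := (hermite_D_eq_one_iff hp0 A D hAD).mpr hA.symm
  subst hA
  subst hD
  have hB : B = 0 := by omega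
  subst hB
  rw [uFn_smul_of_hermite p g δ p 0 1 hp0 one_pos h00 h01 h10 h11 z, affH_eq_pnatSMul, uFn]
  simp

/-- the conjugates of `u` -/
def wFn (i : Option (Fin p)) (z : ℍ) : ℂ := uFn p (gam p i • z)

theorem fn_gam_inv (i : Option (Fin p)) (z : ℍ) : fn p i ((gam p i)⁻¹ • z) = jFunD (pP p) z := by
  rw [fn, smul_inv_smul]

/-- the conjugates of `u` are permuted in the same way as the conjugates of `j(pz)` -/
theorem wFn_smul (γ : SL(2, ℤ)) (i : Option (Fin p)) (z : ℍ) :
    wFn p i (γ • z) = wFn p (perm p γ i) z := by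
  set i' := perm p γ i with hi'
  set g : SL(2, ℤ) := gam p i * γ * (gam p i')⁻¹ with hg
  have hmem : g ∈ Gamma0 p := by
    have h := mem_Gamma0_of_jFunD_smul_eq (pP p) g (fun w => by
      have e1 : g • w = gam p i • γ • ((gam p i')⁻¹ • w) := by
        rw [hg, mul_smul, mul_smul]
      rw [e1]
      have e2 := fn_smul p γ i ((gam p i')⁻¹ • w)
      rw [fn] at e2
      rw [e2, ← hi', fn_gam_inv])
    exact h
  have e3 : gam p i • γ • z = g • (gam p i' • z) := by
    rw [hg, mul_smul, mul_smul, inv_smul_smul]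
  rw [wFn, wFn, e3, uFn_smul_of_mem p hmem]

theorem uFn_mdiff : MDiff (uFn p) := by
  have h1 : MDiff (fun z => ModularForm.discriminant (pnatSMul (pP p) z)) := by
    rw [UpperHalfPlane.mdifferentiable_iff]
    have h1 : DifferentiableOn ℂ
        (fun w : ℂ => (ModularForm.discriminant ∘ ofComplex) (((pP p : ℕ) : ℂ) * w))
        {z : ℂ | 0 < z.im} := by
      refine discriminant_differentiableOn.comp (f := fun w : ℂ => ((pP p : ℕ) : ℂ) * w)
        ((differentiable_id.const_mul _).differentiableOn) ?_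
      intro w hw
      have h1 : (0 : ℝ) < ((pP p : ℕ) : ℝ) := by exact_mod_cast (pP p).pos
      show 0 < (((pP p : ℕ) : ℂ) * w).im
      have : (((pP p : ℕ) : ℂ) * w).im = ((pP p : ℕ) : ℝ) * w.im := by simp [Complex.mul_im]
      rw [this]
      exact mul_pos h1 hw
    refine h1.congr ?_
    intro w hw
    show ModularForm.discriminant (pnatSMul (pP p) (ofComplex w)) =
      (ModularForm.discriminant ∘ ofComplex) (((pP p : ℕ) : ℂ) * w)
    have hw' : 0 < (((pP p : ℕ) : ℂ) * w).im := by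
      have h1 : (0 : ℝ) < ((pP p : ℕ) : ℝ) := by exact_mod_cast (pP p).pos
      have : (((pP p : ℕ) : ℂ) * w).im = ((pP p : ℕ) : ℝ) * w.im := by simp [Complex.mul_im]
      rw [this]
      exact mul_pos h1 hw
    show _ = ModularForm.discriminant (ofComplex (((pP p : ℕ) : ℂ) * w))
    congr 1
    apply UpperHalfPlane.ext
    rw [coe_pnatSMul, ofComplex_apply_of_im_pos hw, ofComplex_apply_of_im_pos hw']
  exact h1.mul invDiscriminant_mdiff

theorem wFn_mdiff (i : Option (Fin p)) : MDiff (wFn p i) := by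
  have h : 0 < (Matrix.SpecialLinearGroup.mapGL ℝ (gam p i)).det.val := by simp
  exact (uFn_mdiff p).comp (mdifferentiable_smul h)

end Analytic

/-! ### The conjugates of `p¹² u`, over an arbitrary ring -/

section Roots

variable {R S : Type*} [CommRing R] [CommRing S]

/-- the `p + 1` conjugates of `p¹² Δ(t^{p²})/Δ(t^p)` -/
def rootU (p : ℕ) [NeZero p] (ζ : Rˣ) : Option (Fin p) → LaurentSeries R
  | none => HahnSeries.C ((p : R) ^ 12) * ModularCurve.qExpand R (p ^ 2) (DeltaL R) *
      ModularCurve.qExpand R p (invDeltaL R)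
  | some b => rot (ζ ^ (b : ℕ)) (DeltaL R) * ModularCurve.qExpand R p (invDeltaL R)

/-- the polynomial with these roots -/
def PsiU (p : ℕ) [NeZero p] (ζ : Rˣ) : Polynomial (LaurentSeries R) :=
  ∏ i : Option (Fin p), (X - C (rootU p ζ i))

theorem coeffMap_C (f : R →+* S) (c : R) :
    ModularCurve.coeffMap f (HahnSeries.C c) = HahnSeries.C (f c) := by
  rw [HahnSeries.C_apply, ModularCurve.coeffMap_single, HahnSeries.C_apply]

theorem coeffMap_rootU (f : R →+* S) (p : ℕ) [NeZero p] (ζ : Rˣ) (i : Option (Fin p)) :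
    ModularCurve.coeffMap f (rootU p ζ i) = rootU p (Units.map (f : R →* S) ζ) i := by
  cases i with
  | none =>
    show ModularCurve.coeffMap f (HahnSeries.C ((p : R) ^ 12) *
      ModularCurve.qExpand R (p ^ 2) (DeltaL R) * ModularCurve.qExpand R p (invDeltaL R)) = _
    rw [map_mul, map_mul, coeffMap_C, ModularCurve.coeffMap_qExpand,
      ModularCurve.coeffMap_qExpand, coeffMap_DeltaL, coeffMap_invDeltaL, map_pow, map_natCast]
    rfl
  | some b =>
    show ModularCurve.coeffMap f (rot (ζ ^ (b : ℕ)) (DeltaL R) *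
      ModularCurve.qExpand R p (invDeltaL R)) = _
    rw [map_mul, coeffMap_rot, ModularCurve.coeffMap_qExpand, coeffMap_DeltaL,
      coeffMap_invDeltaL, map_pow]
    rfl

theorem map_PsiU (f : R →+* S) (p : ℕ) [NeZero p] (ζ : Rˣ) :
    (PsiU p ζ).map (ModularCurve.coeffMap f) = PsiU p (Units.map (f : R →* S) ζ) := by
  rw [PsiU, PsiU, Polynomial.map_prod]
  refine Finset.prod_congr rfl (fun i _ => ?_)
  rw [Polynomial.map_sub, Polynomial.map_X, Polynomial.map_C, coeffMap_rootU]

theorem PsiU_monic (p : ℕ) [NeZero p] (ζ : Rˣ) : (PsiU p ζ).Monic :=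
  monic_prod_of_monic _ _ (fun _ _ => monic_X_sub_C _)

theorem PsiU_natDegree [Nontrivial R] (p : ℕ) [NeZero p] (ζ : Rˣ) :
    (PsiU p ζ).natDegree = p + 1 := by
  rw [PsiU, natDegree_prod_of_monic _ _ (fun i _ => monic_X_sub_C _)]
  simp

theorem eval_rootU_none (p : ℕ) [NeZero p] (ζ : Rˣ) :
    (PsiU p ζ).eval (rootU p ζ none) = 0 := by
  rw [PsiU, Polynomial.eval_prod]
  exact Finset.prod_eq_zero (Finset.mem_univ none) (by simp)

/-- the property (★) for the unit -/
def StarU (p : ℕ) [NeZero p] (ζ : Rˣ) : Prop :=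
  ∀ n : ℕ, ∃ Q : Polynomial R,
    Polynomial.aeval (ModularCurve.qExpand R p (ModularCurve.jqModC R)) Q = (PsiU p ζ).coeff n

theorem StarU.map {p : ℕ} [NeZero p] {ζ : Rˣ} (h : StarU p ζ) (f : R →+* S) :
    StarU p (Units.map (f : R →* S) ζ) := by
  intro n
  obtain ⟨Q, hQ⟩ := h n
  refine ⟨Q.map f, ?_⟩
  have h1 := congrArg (ModularCurve.coeffMap f) hQ
  rw [coeffMap_aeval, ModularCurve.coeffMap_qExpand, ModularCurve.coeffMap_jqModC] at h1
  rw [h1, ← map_PsiU, Polynomial.coeff_map]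

theorem StarU.exists_poly [Nontrivial R] {p : ℕ} [NeZero p] {ζ : Rˣ} (h : StarU p ζ) :
    ∃ V : Polynomial (Polynomial R), V.Monic ∧ V.natDegree = p + 1 ∧
      V.map (Polynomial.aeval (ModularCurve.qExpand R p (ModularCurve.jqModC R))).toRingHom =
        PsiU p ζ := by
  choose Q hQ using h
  set r : Polynomial (Polynomial R) := ∑ i : Fin (p + 1), C (Q i) * X ^ (i : ℕ) with hr
  have hdeg : r.degree < ((p + 1 : ℕ) : WithBot ℕ) := Polynomial.degree_sum_fin_lt _
  refine ⟨X ^ (p + 1) + r, Polynomial.monic_X_pow_add hdeg, ?_, ?_⟩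
  · have h1 : (X ^ (p + 1) + r).degree = ((p + 1 : ℕ) : WithBot ℕ) := by
      rw [Polynomial.degree_add_eq_left_of_degree_lt (by rwa [Polynomial.degree_X_pow]),
        Polynomial.degree_X_pow]
    exact Polynomial.natDegree_eq_of_degree_eq_some h1
  · have hPsi := (PsiU_monic (R := R) p ζ).as_sum
    rw [PsiU_natDegree] at hPsi
    rw [hPsi, Polynomial.map_add, Polynomial.map_pow, Polynomial.map_X, hr, Polynomial.map_sum,
      Finset.sum_range fun i => C ((PsiU p ζ).coeff i) * X ^ i]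
    congr 1
    refine Finset.sum_congr rfl (fun i _ => ?_)
    rw [Polynomial.map_mul, Polynomial.map_C, Polynomial.map_pow, Polynomial.map_X]
    congr 2
    exact hQ i

end Roots

/-! ### Expansions of the conjugates -/

section Expansions

variable (p : ℕ) [hp : Fact p.Prime]

attribute [local instance] neZero_p

theorem hasQL_invDelta_level : HasQL p (fun τ => (ModularForm.discriminant τ)⁻¹)
    (ModularCurve.qExpand ℂ p (invDeltaL ℂ)) :=
  hasQL_invDelta.comp p id (fun z => qParam_one_eq_pow' p z)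

theorem hasQL_Delta_affH (A B D : ℕ) (hA : 0 < A) (hD : 0 < D) (hdvd : D ∣ p * A) :
    HasQL p (fun z => ModularForm.discriminant (affH A B D hA hD z))
      (twistExpand (zetaPow B D) (p * A / D) (DeltaL ℂ)) := by
  have hk : 0 < p * A / D :=
    Nat.div_pos (Nat.le_of_dvd (Nat.mul_pos hp.out.pos hA) hdvd) hD
  exact HasQL.comp_twist (h' := p) (zetaPow_ne_zero B D) hk hasQL_Delta
    (affH A B D hA hD) (fun τ => qParam_affH p hp.out.pos A B D hA hD hdvd τ)

theorem hasQL_wFn (i : Option (Fin p)) :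
    HasQL p (fun z => (p : ℂ) ^ 12 * wFn p i z) (rootU p (zetaU p) i) := by
  have hp0 : 0 < p := hp.out.pos
  have hpC : (p : ℂ) ≠ 0 := by exact_mod_cast hp0.ne'
  cases i with
  | none =>
    have h1 := hasQL_Delta_affH p p 0 1 hp0 one_pos (one_dvd _)
    rw [zetaPow_zero, Nat.div_one] at h1
    have : NeZero (p * p) := ⟨Nat.mul_ne_zero hp0.ne' hp0.ne'⟩
    rw [twistExpand_one] at h1
    have h2 : rootU p (zetaU p) none = HahnSeries.C ((p : ℂ) ^ 12) *
        ModularCurve.qExpand ℂ (p * p) (DeltaL ℂ) * ModularCurve.qExpand ℂ p (invDeltaL ℂ) := by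
      show HahnSeries.C ((p : ℂ) ^ 12) * ModularCurve.qExpand ℂ (p ^ 2) (DeltaL ℂ) *
        ModularCurve.qExpand ℂ p (invDeltaL ℂ) = _
      rw [ModularCurve.qExpand_congr (sq p) (DeltaL ℂ)]
    rw [h2]
    refine (((hasQL_C ((p : ℂ) ^ 12)).mul h1).mul (hasQL_invDelta_level p)).congr (fun z => ?_)
    rw [wFn, uFn_smul_of_hermite p (gam p none) 1 p 0 1 hp0 one_pos
      (by simp [pP, gam]) (by simp [pP, gam]) (by simp [gam]) (by simp [gam]) z]
    simp
    ring
  | some b =>
    have hdvd : p ∣ p * 1 := ⟨1, rfl⟩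
    have h1 := hasQL_Delta_affH p 1 b p one_pos hp0 hdvd
    rw [mul_one, Nat.div_self hp0, ← rotFun_eq_twistExpand, zetaPow_eq] at h1
    have h2 : rootU p (zetaU p) (some b) =
        Fermat.Agent.Lib.ModJ.rotFun (zetaN p ^ (b : ℕ)) (DeltaL ℂ) *
          ModularCurve.qExpand ℂ p (invDeltaL ℂ) := by
      show rot ((zetaU p) ^ (b : ℕ)) (DeltaL ℂ) * ModularCurve.qExpand ℂ p (invDeltaL ℂ) = _
      rw [rot_eq_rotFun]
      rfl
    rw [h2]
    refine (h1.mul (hasQL_invDelta_level p)).congr (fun z => ?_)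
    rw [wFn, uFn_smul_of_hermite p (gam p (some b)) ModularGroup.S 1 b p one_pos hp0
      (by simp [pP, gam, ModularGroup.S]) (by simp [pP, gam, ModularGroup.S])
      (by simp [gam, ModularGroup.S]) (by simp [gam, ModularGroup.S]) z]
    have h12 : ((p : ℂ) ^ 12) ≠ 0 := pow_ne_zero _ hpC
    field_simp

end Expansions

/-! ### Descent to `ℤ[ζ_p]` and the final statement -/

section Descent

variable (p : ℕ) [hp : Fact p.Prime]

attribute [local instance] neZero_p

/-- the polynomial `∏ (Y − p¹² u(γ_i z))` -/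
def polyU (z : ℍ) : Polynomial ℂ := ∏ i : Option (Fin p), (X - C ((p : ℂ) ^ 12 * wFn p i z))

theorem polyU_smul (γ : SL(2, ℤ)) (z : ℍ) : polyU p (γ • z) = polyU p z := by
  rw [polyU, polyU]
  rw [← (perm_bijective p γ).prod_comp
    (fun i => (X - C ((p : ℂ) ^ 12 * wFn p i z) : Polynomial ℂ))]
  refine Finset.prod_congr rfl (fun i _ => ?_)
  rw [wFn_smul]

/-- **(★) for the unit, over `ℤ[ζ_p]`.** -/
theorem starU_Zz : StarU p (zetaR p) := by
  intro n
  have hQL : HasQL p (fun z => (polyU p z).coeff n) ((PsiU p (zetaU p)).coeff n) :=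
    hasQL_coeff_prod Finset.univ (fun i z => (p : ℂ) ^ 12 * wFn p i z) (rootU p (zetaU p))
      (fun i _ => hasQL_wFn p i) n
  have hmd : MDiff (fun z => (polyU p z).coeff n) :=
    mdiff_coeff_prod Finset.univ (fun i z => (p : ℂ) ^ 12 * wFn p i z)
      (fun i _ => mdifferentiable_const.mul (wFn_mdiff p i)) n
  have hinv : ∀ (γ : SL(2, ℤ)) (z : ℍ),
      (fun z => (polyU p z).coeff n) (γ • z) = (fun z => (polyU p z).coeff n) z := by
    intro γ z
    show (polyU p (γ • z)).coeff n = (polyU p z).coeff n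
    rw [polyU_smul]
  have hPsi : PsiU p (zetaU p) = (PsiU p (zetaR p)).map (ModularCurve.coeffMap (incl p)) := by
    rw [map_PsiU, map_zetaR]
  have hA : CoeffIn (ZzS p) ((PsiU p (zetaU p)).coeff n) := by
    rw [hPsi, Polynomial.coeff_map]
    exact coeffIn_coeffMap p _
  obtain ⟨P, hPA, -, hPL⟩ := lemmaL p (ZzS p) hmd hinv hQL hA
  have hlift : P ∈ Polynomial.lifts (incl p) := by
    rw [Polynomial.lifts_iff_coeff_lifts]
    intro m
    exact ⟨⟨P.coeff m, hPA m⟩, rfl⟩
  obtain ⟨Q, hQ⟩ := (Polynomial.mem_lifts P).mp hlift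
  refine ⟨Q, ?_⟩
  apply coeffMap_injective (incl_injective p)
  rw [coeffMap_aeval, ModularCurve.coeffMap_qExpand, ModularCurve.coeffMap_jqModC, hQ, ← hPL,
    hPsi, Polynomial.coeff_map]

/-- (★) for the unit over any commutative ring with a unit root of the cyclotomic polynomial -/
theorem starU_of_isRoot {k : Type*} [CommRing k] (ζ : kˣ)
    (hζ : Polynomial.eval₂ (Int.castRingHom k) (ζ : k) (Polynomial.cyclotomic p ℤ) = 0) :
    StarU p ζ := by
  obtain ⟨φ, hφ⟩ := exists_hom p (ζ : k) hζ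
  have h1 := (starU_Zz p).map φ
  have h2 : Units.map (φ : Zz p →* k) (zetaR p) = ζ := by
    ext
    exact hφ
  rwa [h2] at h1

theorem qExpand_comp_aeval (k : Type*) [Field k] (x : LaurentSeries k) :
    (ModularCurve.qExpand k p).comp (Polynomial.aeval (R := k) x).toRingHom =
      (Polynomial.aeval (R := k) (ModularCurve.qExpand k p x)).toRingHom := by
  apply Polynomial.ringHom_ext
  · intro c
    show ModularCurve.qExpand k p (Polynomial.aeval (R := k) x (Polynomial.C c)) =
      Polynomial.aeval (R := k) (ModularCurve.qExpand k p x) (Polynomial.C c)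
    rw [Polynomial.aeval_C, Polynomial.aeval_C, algebraMap_eq_single, ← HahnSeries.C_apply,
      ModularCurve.qExpand_C]
  · show ModularCurve.qExpand k p (Polynomial.aeval (R := k) x Polynomial.X) =
      Polynomial.aeval (R := k) (ModularCurve.qExpand k p x) Polynomial.X
    rw [Polynomial.aeval_X, Polynomial.aeval_X]

/-- **I.2, the modular unit.** For a field `k` with a primitive `p`-th root of unity the series
`Δ(q^p)/Δ(q)` is integral over `k[J]`. -/
theorem modularUnit_isIntegral (k : Type*) [Field k] (ζ : kˣ) (hζ : IsPrimitiveRoot (ζ : k) p) :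
    ∃ U : Polynomial (Polynomial k), U.Monic ∧
      Polynomial.eval₂ (Polynomial.aeval (ModularCurve.jqModC k)).toRingHom
        (ModularCurve.qExpand k p (DeltaL k) / DeltaL k) U = 0 := by
  have hp0 : 0 < p := hp.out.pos
  have hpk : (p : k) ≠ 0 := by
    have := hζ.neZero' (R := k) (n := p)
    exact this.out
  have h0 : Polynomial.eval₂ (Int.castRingHom k) (ζ : k) (Polynomial.cyclotomic p ℤ) = 0 := by
    rw [Polynomial.eval₂_eq_eval_map, Polynomial.map_cyclotomic_int]
    exact hζ.isRoot_cyclotomic hp0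
  obtain ⟨V, hV, -, hVmap⟩ := (starU_of_isRoot p ζ h0).exists_poly
  set J := ModularCurve.jqModC k with hJ
  set ev := (Polynomial.aeval (R := k) (ModularCurve.qExpand k p J)).toRingHom with hev
  set u : LaurentSeries k := ModularCurve.qExpand k p (DeltaL k) / DeltaL k with hu
  -- the root
  have hroot : Polynomial.eval₂ ev (rootU p ζ none) V = 0 := by
    rw [Polynomial.eval₂_eq_eval_map, hVmap]
    exact eval_rootU_none p ζ
  -- scaling by `p⁻¹²`
  set s : Polynomial k := Polynomial.C (((p : k) ^ 12)⁻¹) with hs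
  have h12 : ((p : k) ^ 12) ≠ 0 := pow_ne_zero _ hpk
  have hscale := Polynomial.scaleRoots_eval₂_eq_zero ev (s := s) hroot
  have hevs : ev s = HahnSeries.C (((p : k) ^ 12)⁻¹) := by
    show Polynomial.aeval (ModularCurve.qExpand k p J) (Polynomial.C (((p : k) ^ 12)⁻¹)) = _
    rw [Polynomial.aeval_C, algebraMap_eq_single, HahnSeries.C_apply]
  have hu' : u = ModularCurve.qExpand k p (DeltaL k) * invDeltaL k := by
    rw [hu, div_eq_mul_inv, invDeltaL_eq_inv]
  have hEu : ev s * rootU p ζ none = ModularCurve.qExpand k p u := by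
    rw [hevs, hu', map_mul, ModularCurve.qExpand_qExpand]
    show HahnSeries.C (((p : k) ^ 12)⁻¹) * (HahnSeries.C ((p : k) ^ 12) *
      ModularCurve.qExpand k (p ^ 2) (DeltaL k) * ModularCurve.qExpand k p (invDeltaL k)) = _
    rw [ModularCurve.qExpand_congr (sq p) (DeltaL k), ← mul_assoc, ← mul_assoc, ← map_mul,
      inv_mul_cancel₀ h12, map_one, one_mul]
  rw [hEu] at hscale
  refine ⟨V.scaleRoots s, (Polynomial.monic_scaleRoots_iff s).mpr hV, ?_⟩
  apply ModularCurve.qExpand_injective (R := k) p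
  rw [map_zero, Polynomial.hom_eval₂, qExpand_comp_aeval]
  exact hscale

end Descent

end Fermat.Agent.S28.ModUnit
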