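import Mathlib
import Fermat.Prelude.Def_ModularCurve_X0ModL
import Fermat.Agent.S28.Basic
import Fermat.Agent.S28.Formal
import Fermat.Agent.S28.Prime
import Fermat.Agent.S28.ModEq
import Fermat.Agent.S28.ModUnit
import Fermat.Agent.S28.ModPoly

/-!
# S28 (Igusa), piece P6: Frobenius descent of the modular equation to `𝔽_ℓ`

* `modPoly_of_primitiveRoot` : `P6.ModPoly K p` for a field `K` with a primitive `p`-th root of
  unity;
* `modPoly_zmod` : `P6.ModPoly (ZMod ℓ) p` for primes `p ≠ ℓ`;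
* `jp_not_mem_zmod` : `J(q^p) ∉ 𝔽_ℓ(J)` for primes `p ≠ ℓ`.
-/

set_option autoImplicit false

noncomputable section

open Polynomial

namespace Fermat.Agent.S28.FrobDescent

open Fermat.Agent.S28 Fermat.Agent.S28.ModEq Fermat.Agent.S28.ModUnit ModularCurve

/-! ### Generalities -/

section General

variable {R S : Type*} [CommRing R] [CommRing S]

theorem order_jqModC_eq (K : Type*) [Field K] : (jqModC K).order = -1 := by
  have hne : jqModC K ≠ 0 := jqModC_ne_zero_of_nontrivial K
  apply le_antisymm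
  · exact HahnSeries.order_le_of_coeff_ne_zero (by rw [coeff_jqModC_neg_one]; exact one_ne_zero)
  · by_contra hlt
    rw [not_le] at hlt
    have h1 : (jqModC K).coeff (jqModC K).order ≠ 0 := by
      rwa [ne_eq, HahnSeries.coeff_order_eq_zero]
    exact h1 (coeff_jqModC_of_lt K hlt)

/-- evaluation at `J(q^p)` commutes with change of coefficients -/
theorem coeffMap_comp_aeval (f : R →+* S) (x : LaurentSeries R) :
    (coeffMap f).comp (Polynomial.aeval (R := R) x).toRingHom =
      ((Polynomial.aeval (R := S) (coeffMap f x)).toRingHom).comp (Polynomial.mapRingHom f) := by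
  apply RingHom.ext
  intro Q
  show coeffMap f (Polynomial.aeval x Q) = Polynomial.aeval (coeffMap f x) (Q.map f)
  exact coeffMap_aeval f x Q

theorem aeval_qExpand_injective (K : Type*) [Field K] (p : ℕ) [Fact p.Prime] :
    Function.Injective (Polynomial.aeval (R := K) (qExpand K p (jqModC K))).toRingHom := by
  rw [injective_iff_map_eq_zero]
  intro Q hQ
  by_contra hne
  have h1 : qExpand K p (Polynomial.aeval (R := K) (jqModC K) Q) = 0 := by
    have := congrArg (fun g : Polynomial K →+* LaurentSeries K => g Q)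
      (qExpand_comp_aeval p K (jqModC K))
    simp only [RingHom.comp_apply] at this
    rw [show qExpand K p ((Polynomial.aeval (R := K) (jqModC K)) Q) =
      (qExpand K p) ((Polynomial.aeval (R := K) (jqModC K)).toRingHom Q) from rfl, this]
    exact hQ
  have h2 : Polynomial.aeval (R := K) (jqModC K) Q = 0 :=
    qExpand_injective (R := K) p (h1.trans (map_zero _).symm)
  exact aeval_jqModC_ne_zero hne h2

end General

/-! ### The package over a field with a primitive root of unity -/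

section Primitive

variable (p : ℕ) [hp : Fact p.Prime]

theorem modPoly_of_primitiveRoot (K : Type*) [Field K] (ζ : Kˣ)
    (hζ : IsPrimitiveRoot (ζ : K) p) : P6.ModPoly K p := by
  obtain ⟨Φ, hmon, hdeg, hmap⟩ := modularEquation p K ζ hζ
  have hp2 : 2 ≤ p := hp.out.two_le
  refine ⟨Φ, hmon, hdeg, ?_, ?_, ?_⟩
  · rw [hmap, Polynomial.IsRoot, Polynomial.eval_mul, Polynomial.eval_prod]
    refine mul_eq_zero_of_right _ ?_
    refine Finset.prod_eq_zero (Finset.mem_range.mpr hp.out.pos) ?_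
    rw [pow_zero, rot_one]
    simp
  · rw [hmap, Polynomial.IsRoot, Polynomial.eval_mul]
    refine mul_eq_zero_of_left ?_ _
    simp
  · intro r hr
    rw [hmap, Polynomial.IsRoot, Polynomial.eval_mul, Polynomial.eval_prod] at hr
    rcases mul_eq_zero.mp hr with h | h
    · left
      simpa [sub_eq_zero] using h
    · right
      obtain ⟨b, -, hb⟩ := Finset.prod_eq_zero_iff.mp h
      have hrb : r = rot (ζ ^ b) (jqModC K) := by
        simpa [sub_eq_zero] using hb
      rw [hrb, order_rot, order_jqModC_eq]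
      intro hdvd
      have h1 : (p : ℤ) ∣ 1 := (Int.dvd_neg).mp hdvd
      have h2 : (p : ℤ) ≤ 1 := Int.le_of_dvd one_pos h1
      have h3 : (2 : ℤ) ≤ p := by exact_mod_cast hp2
      omega

end Primitive

/-! ### Reindexing the roots -/

section Reindex

variable (p : ℕ) [hp : Fact p.Prime]

theorem order_coeffMap {R S : Type*} [CommRing R] [CommRing S] {f : R →+* S}
    (hf : Function.Injective f) (r : LaurentSeries R) : (coeffMap f r).order = r.order := by
  by_cases hr : r = 0
  · subst hr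
    simp
  · have hcr : coeffMap f r ≠ 0 :=
      fun h => hr (coeffMap_injective hf (h.trans (map_zero _).symm))
    apply le_antisymm
    · apply HahnSeries.order_le_of_coeff_ne_zero
      rw [coeffMap_coeff]
      intro h
      have h1 : r.coeff r.order = 0 := hf (h.trans (map_zero f).symm)
      exact hr (HahnSeries.coeff_order_eq_zero.mp h1)
    · apply HahnSeries.order_le_of_coeff_ne_zero
      intro h
      have h1 : (coeffMap f r).coeff (coeffMap f r).order = 0 := by
        rw [coeffMap_coeff, h, map_zero]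
      exact hcr (HahnSeries.coeff_order_eq_zero.mp h1)

theorem prod_pow_eq_of_primitive {K : Type*} [Field K] {M : Type*} [CommMonoid M]
    (g : Kˣ → M) (ζ ξ : Kˣ) (hζ : IsPrimitiveRoot (ζ : K) p) (hξ : IsPrimitiveRoot (ξ : K) p) :
    ∏ b ∈ Finset.range p, g (ξ ^ b) = ∏ b ∈ Finset.range p, g (ζ ^ b) := by
  classical
  have hζ' : IsPrimitiveRoot ζ p := IsPrimitiveRoot.coe_units_iff.mp hζ
  have hξ' : IsPrimitiveRoot ξ p := IsPrimitiveRoot.coe_units_iff.mp hξ
  have inj : ∀ {η : Kˣ}, IsPrimitiveRoot η p →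
      Set.InjOn (fun b : ℕ => η ^ b) (Finset.range p : Set ℕ) := by
    intro η hη a ha b hb hab
    exact hη.pow_inj (Finset.mem_range.mp ha) (Finset.mem_range.mp hb) hab
  have e1 : ∏ b ∈ Finset.range p, g (ξ ^ b) =
      ∏ u ∈ (Finset.range p).image (fun b : ℕ => ξ ^ b), g u :=
    (Finset.prod_image (inj hξ')).symm
  have e2 : ∏ b ∈ Finset.range p, g (ζ ^ b) =
      ∏ u ∈ (Finset.range p).image (fun b : ℕ => ζ ^ b), g u :=
    (Finset.prod_image (inj hζ')).symm
  rw [e1, e2]
  congr 1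
  apply Finset.eq_of_subset_of_card_le
  · intro u hu
    obtain ⟨b, -, rfl⟩ := Finset.mem_image.mp hu
    obtain ⟨a, -, hax⟩ := hζ.eq_pow_of_pow_eq_one hξ.pow_eq_one
    have hax' : ζ ^ a = ξ := Units.ext (by rw [Units.val_pow_eq_pow_val]; exact hax)
    refine Finset.mem_image.mpr ⟨(a * b) % p, Finset.mem_range.mpr (Nat.mod_lt _ hp.out.pos), ?_⟩
    show ζ ^ ((a * b) % p) = ξ ^ b
    rw [← hax', ← pow_mul]
    exact (pow_eq_pow_mod (a * b) hζ'.pow_eq_one).symm
  · rw [Finset.card_image_of_injOn (inj hζ'), Finset.card_image_of_injOn (inj hξ')]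

theorem Psi_eq_of_primitive {K : Type*} [Field K] (ζ ξ : Kˣ)
    (hζ : IsPrimitiveRoot (ζ : K) p) (hξ : IsPrimitiveRoot (ξ : K) p) :
    Psi p ξ = Psi p ζ := by
  rw [Psi_eq, Psi_eq,
    prod_pow_eq_of_primitive p (fun u : Kˣ => (X - C (rot u (jqModC K)) : Polynomial _)) ζ ξ hζ hξ]

end Reindex

/-! ### Descent of the package along an injective map of fields -/

section Transfer

variable (p : ℕ) [hp : Fact p.Prime]

theorem map_ev_map_coeffMap {k K : Type*} [Field k] [Field K] (f : k →+* K)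
    (Φ₀ : Polynomial (Polynomial k)) :
    (Φ₀.map (Polynomial.aeval (R := k) (qExpand k p (jqModC k))).toRingHom).map (coeffMap f) =
      (Φ₀.map (Polynomial.mapRingHom f)).map
        (Polynomial.aeval (R := K) (qExpand K p (jqModC K))).toRingHom := by
  rw [Polynomial.map_map, Polynomial.map_map, coeffMap_comp_aeval,
    ModularCurve.coeffMap_qExpand, coeffMap_jqModC]

/-- if `Φ₀` over `k` becomes the product `Ψ` over an extension `K`, then `Φ₀` is a modular
equation package over `k` -/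
theorem modPoly_of_map_eq_Psi {k K : Type*} [Field k] [Field K] (f : k →+* K) (ζ : Kˣ)
    (Φ₀ : Polynomial (Polynomial k)) (hmon : Φ₀.Monic)
    (hdeg : Φ₀.natDegree = p + 1)
    (hmap : (Φ₀.map (Polynomial.mapRingHom f)).map
        (Polynomial.aeval (R := K) (qExpand K p (jqModC K))).toRingHom = Psi p ζ) :
    P6.ModPoly k p := by
  have hf : Function.Injective f := f.injective
  have hc : Function.Injective (coeffMap f) := coeffMap_injective hf
  have hp2 : 2 ≤ p := hp.out.two_le
  have key : (Φ₀.map (Polynomial.aeval (R := k) (qExpand k p (jqModC k))).toRingHom).map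
      (coeffMap f) = (X - C (qExpand K (p ^ 2) (jqModC K))) *
          ∏ b ∈ Finset.range p, (X - C (rot (ζ ^ b) (jqModC K))) := by
    rw [map_ev_map_coeffMap, hmap, Psi_eq]
  have hroot : ∀ r : LaurentSeries k,
      (Φ₀.map (Polynomial.aeval (R := k) (qExpand k p (jqModC k))).toRingHom).IsRoot r ↔
        Polynomial.eval (coeffMap f r) ((X - C (qExpand K (p ^ 2) (jqModC K))) *
          ∏ b ∈ Finset.range p, (X - C (rot (ζ ^ b) (jqModC K)))) = 0 := by
    intro r
    rw [← key]
    constructor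
    · intro h
      exact h.map
    · intro h
      exact Polynomial.IsRoot.of_map (f := coeffMap f) h hc
  refine ⟨Φ₀, hmon, hdeg, ?_, ?_, ?_⟩
  · rw [hroot, coeffMap_jqModC, Polynomial.eval_mul, Polynomial.eval_prod]
    refine mul_eq_zero_of_right _ ?_
    refine Finset.prod_eq_zero (Finset.mem_range.mpr hp.out.pos) ?_
    rw [pow_zero, rot_one]
    simp
  · rw [hroot, ModularCurve.coeffMap_qExpand, coeffMap_jqModC, Polynomial.eval_mul]
    refine mul_eq_zero_of_left ?_ _
    simp
  · intro r hr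
    rw [hroot, Polynomial.eval_mul, Polynomial.eval_prod] at hr
    rcases mul_eq_zero.mp hr with h | h
    · left
      have h1 : coeffMap f r = qExpand K (p ^ 2) (jqModC K) := by
        simpa [sub_eq_zero] using h
      apply hc
      rw [h1, ModularCurve.coeffMap_qExpand, coeffMap_jqModC]
    · right
      obtain ⟨b, -, hb⟩ := Finset.prod_eq_zero_iff.mp h
      have hrb : coeffMap f r = rot (ζ ^ b) (jqModC K) := by
        simpa [sub_eq_zero] using hb
      have hord : r.order = -1 := by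
        rw [← order_coeffMap hf r, hrb, order_rot, order_jqModC_eq]
      rw [hord]
      intro hdvd
      have h1 : (p : ℤ) ∣ 1 := (Int.dvd_neg).mp hdvd
      have h2 : (p : ℤ) ≤ 1 := Int.le_of_dvd one_pos h1
      have h3 : (2 : ℤ) ≤ p := by exact_mod_cast hp2
      omega

/-- transfer of `J(q^p) ∉ K(J)` down along an injective map of fields -/
theorem jp_not_mem_of_injective {k K : Type*} [Field k] [Field K] (f : k →+* K)
    (h : qExpand K p (jqModC K) ∉ IntermediateField.adjoin K {jqModC K}) :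
    qExpand k p (jqModC k) ∉ IntermediateField.adjoin k {jqModC k} := by
  intro hmem
  apply h
  obtain ⟨P, Q, hPQ⟩ := (IntermediateField.mem_adjoin_simple_iff k _).mp hmem
  refine (IntermediateField.mem_adjoin_simple_iff K _).mpr ⟨P.map f, Q.map f, ?_⟩
  have h1 := congrArg (coeffMap f) hPQ
  rw [ModularCurve.coeffMap_qExpand, coeffMap_jqModC, map_div₀, coeffMap_aeval, coeffMap_aeval,
    coeffMap_jqModC] at h1
  exact h1

end Transfer

/-! ### The Frobenius step -/

section Frobenius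

variable (ℓ p : ℕ) [hℓ : Fact ℓ.Prime] [hp : Fact p.Prime]

theorem natCast_zmod_ne_zero (hne : p ≠ ℓ) : (p : ZMod ℓ) ≠ 0 := by
  intro h
  rw [ZMod.natCast_eq_zero_iff] at h
  rcases (Nat.dvd_prime hp.out).mp h with h1 | h1
  · exact hℓ.out.one_lt.ne' h1
  · exact hne h1.symm

/-- an element of a field of characteristic `ℓ` fixed by Frobenius comes from `𝔽_ℓ` -/
theorem mem_range_of_pow_eq {K : Type*} [Field K] [CharP K ℓ] (f : ZMod ℓ →+* K) {a : K}
    (ha : a ^ ℓ = a) : a ∈ Set.range f := by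
  have h1 : a ∈ (⊥ : Subfield K) := (Subfield.mem_bot_iff_pow_eq_self K ℓ).mpr ha
  obtain ⟨n, hn⟩ := (mem_bot_iff_intCast ℓ K).mp h1
  exact ⟨(n : ZMod ℓ), by rw [map_intCast, hn]⟩

/-- a two-variable polynomial over a field of characteristic `ℓ` fixed by Frobenius comes from
`𝔽_ℓ` -/
theorem exists_map_eq_of_frobenius_fixed {K : Type*} [Field K] [CharP K ℓ] (f : ZMod ℓ →+* K)
    (Φ : Polynomial (Polynomial K))
    (hΦ : Φ.map (Polynomial.mapRingHom (frobenius K ℓ)) = Φ) :
    ∃ Φ₀ : Polynomial (Polynomial (ZMod ℓ)), Φ₀.map (Polynomial.mapRingHom f) = Φ := by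
  rw [← Polynomial.mem_lifts, Polynomial.lifts_iff_coeff_lifts]
  intro n
  show Φ.coeff n ∈ Set.range (Polynomial.map f)
  have h1 : Φ.coeff n ∈ Polynomial.lifts f := by
    rw [Polynomial.lifts_iff_coeff_lifts]
    intro m
    apply mem_range_of_pow_eq ℓ f
    have h2 := congrArg (fun Q : Polynomial (Polynomial K) => (Q.coeff n).coeff m) hΦ
    simp only [Polynomial.coeff_map, Polynomial.coe_mapRingHom, frobenius_def] at h2
    exact h2
  exact (Polynomial.mem_lifts _).mp h1

theorem exists_descent (hne : p ≠ ℓ) :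
    ∃ (ζ : (AlgebraicClosure (ZMod ℓ))ˣ) (Φ₀ : Polynomial (Polynomial (ZMod ℓ))),
      IsPrimitiveRoot (ζ : AlgebraicClosure (ZMod ℓ)) p ∧ Φ₀.Monic ∧ Φ₀.natDegree = p + 1 ∧
      (Φ₀.map (Polynomial.mapRingHom (algebraMap (ZMod ℓ) (AlgebraicClosure (ZMod ℓ))))).map
        (Polynomial.aeval (R := AlgebraicClosure (ZMod ℓ))
          (qExpand (AlgebraicClosure (ZMod ℓ)) p (jqModC (AlgebraicClosure (ZMod ℓ))))).toRingHom =
        Psi p ζ := by
  have : NeZero (p : ZMod ℓ) := ⟨natCast_zmod_ne_zero ℓ p hne⟩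
  obtain ⟨ζ₀, hζ₀⟩ := HasEnoughRootsOfUnity.exists_primitiveRoot (AlgebraicClosure (ZMod ℓ)) p
  have hunit : IsUnit ζ₀ := hζ₀.isUnit hp.out.ne_zero
  obtain ⟨ζ, rfl⟩ := hunit
  obtain ⟨Φ, hmon, hdeg, hmap⟩ := modularEquation p (AlgebraicClosure (ZMod ℓ)) ζ hζ₀
  rw [← Psi_eq] at hmap
  set σ := frobenius (AlgebraicClosure (ZMod ℓ)) ℓ with hσ
  have hσinj : Function.Injective σ := σ.injective
  have hξ : IsPrimitiveRoot
      ((Units.map (σ : AlgebraicClosure (ZMod ℓ) →* AlgebraicClosure (ZMod ℓ)) ζ :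
        (AlgebraicClosure (ZMod ℓ))ˣ) : AlgebraicClosure (ZMod ℓ)) p := by
    rw [Units.coe_map]
    exact hζ₀.map_of_injective hσinj
  have hfix : Φ.map (Polynomial.mapRingHom σ) = Φ := by
    apply Polynomial.map_injective _
      (aeval_qExpand_injective (AlgebraicClosure (ZMod ℓ)) p)
    rw [← map_ev_map_coeffMap, hmap, map_Psi]
    exact Psi_eq_of_primitive p ζ _ hζ₀ hξ
  obtain ⟨Φ₀, hΦ₀⟩ := exists_map_eq_of_frobenius_fixed ℓ
    (algebraMap (ZMod ℓ) (AlgebraicClosure (ZMod ℓ))) Φ hfix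
  have hinj : Function.Injective
      (Polynomial.mapRingHom (algebraMap (ZMod ℓ) (AlgebraicClosure (ZMod ℓ)))) :=
    Polynomial.map_injective _ (algebraMap (ZMod ℓ) (AlgebraicClosure (ZMod ℓ))).injective
  refine ⟨ζ, Φ₀, hζ₀, ?_, ?_, ?_⟩
  · apply Polynomial.monic_of_injective hinj
    rw [hΦ₀]
    exact hmon
  · rw [← Polynomial.natDegree_map_eq_of_injective hinj, hΦ₀]
    exact hdeg
  · rw [hΦ₀]
    exact hmap

/-- **Frobenius descent**: the modular equation package over `𝔽_ℓ` for a prime `p ≠ ℓ` -/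
theorem modPoly_zmod (h : p ≠ ℓ) : P6.ModPoly (ZMod ℓ) p := by
  obtain ⟨ζ, Φ₀, -, hmon, hdeg, hmap⟩ := exists_descent ℓ p h
  exact modPoly_of_map_eq_Psi p (algebraMap (ZMod ℓ) (AlgebraicClosure (ZMod ℓ))) ζ Φ₀ hmon hdeg
    hmap

/-- `J(q^p) ∉ 𝔽_ℓ(J)` for primes `p ≠ ℓ` -/
theorem jp_not_mem_zmod (h : p ≠ ℓ) :
    qExpand (ZMod ℓ) p (jqModC (ZMod ℓ)) ∉ IntermediateField.adjoin (ZMod ℓ) {jqModC (ZMod ℓ)} := by
  have : NeZero (p : ZMod ℓ) := ⟨natCast_zmod_ne_zero ℓ p h⟩
  obtain ⟨ζ₀, hζ₀⟩ := HasEnoughRootsOfUnity.exists_primitiveRoot (AlgebraicClosure (ZMod ℓ)) p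
  have hunit : IsUnit ζ₀ := hζ₀.isUnit hp.out.ne_zero
  obtain ⟨ζ, rfl⟩ := hunit
  have hpK : (p : AlgebraicClosure (ZMod ℓ)) ≠ 0 := by
    have h1 := natCast_zmod_ne_zero ℓ p h
    intro h2
    apply h1
    apply (algebraMap (ZMod ℓ) (AlgebraicClosure (ZMod ℓ))).injective
    rw [map_natCast, h2, map_zero]
  exact jp_not_mem_of_injective p (algebraMap (ZMod ℓ) (AlgebraicClosure (ZMod ℓ)))
    (jp_not_mem p (AlgebraicClosure (ZMod ℓ)) hpK
      (modularUnit_isIntegral p (AlgebraicClosure (ZMod ℓ)) ζ hζ₀))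

end Frobenius

end Fermat.Agent.S28.FrobDescent
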