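import Mathlib

/-!
# S28 (Igusa), piece P6: extension of an embedding `G → Ω` to `G ⊔ k⟮x⟯` (abstract field theory)

* `exists_extend`: if `g ∈ G[T]` is monic irreducible with root `x`, and `φ : G →ₐ[k] Ω` is such
  that `y` is a root of `φ(g)`, then `[G ⊔ k⟮x⟯ : G] = deg g` and `φ` extends to
  `φ' : G ⊔ k⟮x⟯ →ₐ[k] Ω` with `φ' x = y`.
-/

set_option autoImplicit false

noncomputable section

namespace Fermat.Agent.S28.Extend

open IntermediateField Polynomial

variable {k Ω : Type*} [Field k] [Field Ω] [Algebra k Ω]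

theorem sup_adjoin_eq (G : IntermediateField k Ω) (x : Ω) :
    G ⊔ IntermediateField.adjoin k {x} = (IntermediateField.adjoin G {x}).restrictScalars k := by
  rw [IntermediateField.restrictScalars_adjoin_eq_sup]

/-- The ring homomorphism `G⟮x⟯ → Ω` extending `φ` and sending `x` to `y`. -/
def liftHom (G : IntermediateField k Ω) (x : Ω) (hint : IsIntegral G x)
    (φ : G →ₐ[k] Ω) (y : Ω) (hy : Polynomial.eval₂ φ.toRingHom y (minpoly G x) = 0) :
    ↥(IntermediateField.adjoin G {x}) →+* Ω :=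
  (AdjoinRoot.lift φ.toRingHom y hy).comp
    (IntermediateField.adjoinRootEquivAdjoin G hint).symm.toAlgHom.toRingHom

theorem liftHom_apply (G : IntermediateField k Ω) (x : Ω) (hint : IsIntegral G x)
    (φ : G →ₐ[k] Ω) (y : Ω) (hy : Polynomial.eval₂ φ.toRingHom y (minpoly G x) = 0)
    (z : ↥(IntermediateField.adjoin G {x})) :
    liftHom G x hint φ y hy z =
      AdjoinRoot.lift φ.toRingHom y hy ((IntermediateField.adjoinRootEquivAdjoin G hint).symm z) :=
  rfl

theorem liftHom_algebraMap (G : IntermediateField k Ω) (x : Ω) (hint : IsIntegral G x)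
    (φ : G →ₐ[k] Ω) (y : Ω) (hy : Polynomial.eval₂ φ.toRingHom y (minpoly G x) = 0) (a : G) :
    liftHom G x hint φ y hy (algebraMap G ↥(IntermediateField.adjoin G {x}) a) = φ a := by
  rw [liftHom_apply, AlgEquiv.commutes, AdjoinRoot.algebraMap_eq, AdjoinRoot.lift_of]
  rfl

theorem liftHom_gen (G : IntermediateField k Ω) (x : Ω) (hint : IsIntegral G x)
    (φ : G →ₐ[k] Ω) (y : Ω) (hy : Polynomial.eval₂ φ.toRingHom y (minpoly G x) = 0) :
    liftHom G x hint φ y hy (IntermediateField.AdjoinSimple.gen G x) = y := by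
  have h : (IntermediateField.adjoinRootEquivAdjoin G hint).symm
      (IntermediateField.AdjoinSimple.gen G x) = AdjoinRoot.root (minpoly G x) := by
    rw [AlgEquiv.symm_apply_eq, IntermediateField.adjoinRootEquivAdjoin_apply_root]
  rw [liftHom_apply, h, AdjoinRoot.lift_root]

theorem exists_extend_aux (G : IntermediateField k Ω) (x : Ω)
    (g : Polynomial G) (hg : Irreducible g) (hgm : g.Monic) (hx : Polynomial.aeval x g = 0)
    (φ : G →ₐ[k] Ω) (y : Ω) (hy : Polynomial.eval₂ φ.toRingHom y g = 0)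
    (E : IntermediateField k Ω) (hE : E = (IntermediateField.adjoin G {x}).restrictScalars k)
    (hGE : G ≤ E) (hxE : x ∈ E) :
    IntermediateField.relfinrank G E = g.natDegree ∧
    ∃ φ' : ↥E →ₐ[k] Ω,
      (∀ a (ha : a ∈ G), φ' ⟨a, hGE ha⟩ = φ ⟨a, ha⟩) ∧ φ' ⟨x, hxE⟩ = y := by
  subst hE
  have hmin : g = minpoly G x := minpoly.eq_of_irreducible_of_monic hg hx hgm
  have hint : IsIntegral G x := ⟨g, hgm, by rwa [← Polynomial.aeval_def]⟩
  have hy' : Polynomial.eval₂ φ.toRingHom y (minpoly G x) = 0 := hmin ▸ hy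
  refine ⟨?_, ?_⟩
  · rw [IntermediateField.relfinrank_eq_finrank_of_le hGE]
    have hext : IntermediateField.extendScalars hGE = IntermediateField.adjoin G {x} :=
      IntermediateField.restrictScalars_injective k rfl
    rw [hext, IntermediateField.adjoin.finrank hint, hmin]
  · let ψ := liftHom G x hint φ y hy'
    refine ⟨{ toFun := fun z => ψ ⟨z.1, z.2⟩
              map_one' := map_one ψ
              map_mul' := fun a b => map_mul ψ ⟨a.1, a.2⟩ ⟨b.1, b.2⟩
              map_zero' := map_zero ψ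
              map_add' := fun a b => map_add ψ ⟨a.1, a.2⟩ ⟨b.1, b.2⟩
              commutes' := fun c => ?_ }, ?_, ?_⟩
    · have := liftHom_algebraMap G x hint φ y hy' (algebraMap k G c)
      rw [AlgHom.commutes] at this
      exact this
    · intro a ha
      exact liftHom_algebraMap G x hint φ y hy' ⟨a, ha⟩
    · exact liftHom_gen G x hint φ y hy'

theorem exists_extend (G : IntermediateField k Ω) (x : Ω)
    (g : Polynomial G) (hg : Irreducible g) (hgm : g.Monic) (hx : Polynomial.aeval x g = 0)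
    (φ : G →ₐ[k] Ω) (y : Ω) (hy : Polynomial.eval₂ φ.toRingHom y g = 0) :
    IntermediateField.relfinrank G (G ⊔ IntermediateField.adjoin k {x}) = g.natDegree ∧
    ∃ φ' : ↥(G ⊔ IntermediateField.adjoin k {x}) →ₐ[k] Ω,
      (∀ a (ha : a ∈ G), φ' ⟨a, (le_sup_left : G ≤ _) ha⟩ = φ ⟨a, ha⟩) ∧
      φ' ⟨x, (le_sup_right : _ ≤ G ⊔ _) (IntermediateField.mem_adjoin_simple_self k x)⟩ = y :=
  exists_extend_aux G x g hg hgm hx φ y hy _ (sup_adjoin_eq G x) le_sup_left _

end Fermat.Agent.S28.Extend
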