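import Mathlib
import Fermat.Prelude.Def_ModularCurve_X0ModL
import Fermat.Agent.S28.Prime

/-!
# S28 (Igusa), piece P6: the order lemma and two irreducibility criteria

Over a field `k`, with `Ω = k((q))` and `E_p = qExpand k p` (`q ↦ q^p`):

* `eval_map_qExpand_ne_zero`: if `R ∈ Ω[T]` is nonzero of degree `< p` and `p ∤ ord y`, then
  `(E_p R)(y) ≠ 0`;
* `irreducible_of_root_of_natDegree_eq`, `irreducible_of_root_of_natDegree_eq_succ`:
  irreducibility criteria for polynomials of degree `p` and `p + 1`.
-/

set_option autoImplicit false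

noncomputable section

namespace Fermat.Agent.S28.P6

open ModularCurve Polynomial

variable {k : Type*} [Field k]

/-- a finite sum of Laurent series whose nonzero terms have pairwise distinct orders is nonzero
as soon as one term is nonzero -/
theorem sum_ne_zero_of_order_injOn {ι : Type*} (s : Finset ι) (f : ι → LaurentSeries k)
    (hinj : ∀ i ∈ s, ∀ j ∈ s, f i ≠ 0 → f j ≠ 0 → (f i).order = (f j).order → i = j)
    (hex : ∃ i ∈ s, f i ≠ 0) : ∑ i ∈ s, f i ≠ 0 := by
  classical
  obtain ⟨i₁, hi₁, hne₁⟩ := hex
  have hne : (s.filter (fun i => f i ≠ 0)).Nonempty :=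
    ⟨i₁, Finset.mem_filter.mpr ⟨hi₁, hne₁⟩⟩
  obtain ⟨i₀, hi₀, hmin⟩ := Finset.exists_min_image _ (fun i => (f i).order) hne
  rw [Finset.mem_filter] at hi₀
  intro hsum
  have hcoeff := congrArg (fun x : LaurentSeries k => x.coeff (f i₀).order) hsum
  simp only [HahnSeries.coeff_sum, HahnSeries.coeff_zero] at hcoeff
  rw [Finset.sum_eq_single i₀] at hcoeff
  · exact hi₀.2 (HahnSeries.coeff_order_eq_zero.mp hcoeff)
  · intro j hj hji
    by_cases hfj : f j = 0
    · rw [hfj, HahnSeries.coeff_zero]
    · apply HahnSeries.coeff_eq_zero_of_lt_order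
      have hle := hmin j (Finset.mem_filter.mpr ⟨hj, hfj⟩)
      refine lt_of_le_of_ne hle ?_
      intro heq
      exact hji (hinj j hj i₀ hi₀.1 hfj hi₀.2 heq.symm)
  · intro h
    exact absurd hi₀.1 h

/-- **the order lemma**: if `R` is a nonzero polynomial over `k((q))` of degree `< p` and the
order of `y` is prime to `p`, then `y` is not a root of `R(q^p)`. -/
theorem eval_map_qExpand_ne_zero (p : ℕ) [Fact p.Prime] {R : Polynomial (LaurentSeries k)}
    (hR : R ≠ 0) (hdeg : R.natDegree < p) {y : LaurentSeries k} (hy : ¬ ((p : ℤ) ∣ y.order)) :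
    (R.map (qExpand k p)).eval y ≠ 0 := by
  have hp : p.Prime := Fact.out
  have hy0 : y ≠ 0 := by
    rintro rfl
    exact hy (by simp)
  rw [Polynomial.eval_map, Polynomial.eval₂_eq_sum_range]
  have hterm : ∀ i, R.coeff i ≠ 0 →
      (qExpand k p (R.coeff i) * y ^ i).order = (p : ℤ) * (R.coeff i).order + i * y.order := by
    intro i hi
    have h1 : qExpand k p (R.coeff i) ≠ 0 := by
      intro h
      exact hi (qExpand_injective p (h.trans (map_zero _).symm))
    rw [HahnSeries.order_mul h1 (pow_ne_zero i hy0), order_qExpand p hi, HahnSeries.order_pow]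
    simp
  have hzero : ∀ i, qExpand k p (R.coeff i) * y ^ i ≠ 0 → R.coeff i ≠ 0 := by
    intro i h h0
    apply h
    rw [h0, map_zero, zero_mul]
  apply sum_ne_zero_of_order_injOn
  · intro i hi j hj hfi hfj hord
    rw [hterm i (hzero i hfi), hterm j (hzero j hfj)] at hord
    rw [Finset.mem_range] at hi hj
    have hdvd : (p : ℤ) ∣ ((i : ℤ) - j) * y.order := by
      refine ⟨(R.coeff j).order - (R.coeff i).order, ?_⟩
      linear_combination hord
    have hpZ : Prime (p : ℤ) := Nat.prime_iff_prime_int.mp hp
    rcases hpZ.dvd_or_dvd hdvd with h | h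
    · have habs : ((i : ℤ) - j).natAbs < p := by omega
      have h0 : (i : ℤ) - j = 0 := by
        by_contra hne
        have := Int.le_of_dvd (Int.natAbs_pos.mpr hne |> Int.natCast_pos.mpr) 
          ((Int.dvd_natAbs).mpr h)
        omega
      omega
    · exact absurd h hy
  · refine ⟨R.natDegree, Finset.self_mem_range_succ _, ?_⟩
    have h1 : R.coeff R.natDegree ≠ 0 := by
      rw [Polynomial.coeff_natDegree]
      exact Polynomial.leadingCoeff_ne_zero.mpr hR
    have h2 : qExpand k p (R.coeff R.natDegree) ≠ 0 := by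
      intro h
      exact h1 (qExpand_injective p (h.trans (map_zero _).symm))
    exact mul_ne_zero h2 (pow_ne_zero _ hy0)

/-- a nonzero polynomial over `F` whose image under `E_p ∘ φ` has a root of order prime to `p`
has degree at least `p` -/
theorem le_natDegree_of_root {F : Type*} [Field F] (p : ℕ) [Fact p.Prime]
    (φ : F →+* LaurentSeries k) {f : Polynomial F} (hf : f ≠ 0) {y : LaurentSeries k}
    (hy : ¬ ((p : ℤ) ∣ y.order)) (hroot : (f.map ((qExpand k p).comp φ)).IsRoot y) :
    p ≤ f.natDegree := by
  by_contra hlt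
  rw [not_le] at hlt
  have h1 : f.map φ ≠ 0 := (Polynomial.map_ne_zero_iff φ.injective).mpr hf
  have h2 : (f.map φ).natDegree < p := by
    rw [Polynomial.natDegree_map]
    exact hlt
  have h3 := eval_map_qExpand_ne_zero p h1 h2 hy
  rw [Polynomial.map_map] at h3
  exact h3 hroot

/-- **criterion A**: a monic polynomial of degree `p` over `F` whose image under `E_p ∘ φ` has a
root of order prime to `p` is irreducible. -/
theorem irreducible_of_root_of_natDegree_eq {F : Type*} [Field F] (p : ℕ) [Fact p.Prime]
    (φ : F →+* LaurentSeries k) {g : Polynomial F} (hg : g.Monic) (hdeg : g.natDegree = p)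
    {y : LaurentSeries k} (hy : ¬ ((p : ℤ) ∣ y.order))
    (hroot : (g.map ((qExpand k p).comp φ)).IsRoot y) : Irreducible g := by
  have hp : p.Prime := Fact.out
  rw [hg.irreducible_iff_natDegree]
  refine ⟨?_, ?_⟩
  · rintro rfl
    rw [Polynomial.natDegree_one] at hdeg
    exact hp.ne_zero hdeg.symm
  · intro f h hf hh hfh
    have hroot' : (f.map ((qExpand k p).comp φ)).IsRoot y ∨
        (h.map ((qExpand k p).comp φ)).IsRoot y := by
      rw [← hfh, Polynomial.map_mul] at hroot
      exact Polynomial.root_mul.mp hroot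
    have hsum : f.natDegree + h.natDegree = p := by
      rw [← hdeg, ← hfh, hf.natDegree_mul hh]
    rcases hroot' with h1 | h1
    · right
      have := le_natDegree_of_root p φ hf.ne_zero hy h1
      omega
    · left
      have := le_natDegree_of_root p φ hh.ne_zero hy h1
      omega

/-- **criterion B**: a monic polynomial of degree `p + 1` over `F` without roots in `F` whose
image under `E_p ∘ φ` has a root of order prime to `p` is irreducible. -/
theorem irreducible_of_root_of_natDegree_eq_succ {F : Type*} [Field F] (p : ℕ) [Fact p.Prime]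
    (φ : F →+* LaurentSeries k) {g : Polynomial F} (hg : g.Monic) (hdeg : g.natDegree = p + 1)
    (hno : ∀ r : F, ¬ g.IsRoot r)
    {y : LaurentSeries k} (hy : ¬ ((p : ℤ) ∣ y.order))
    (hroot : (g.map ((qExpand k p).comp φ)).IsRoot y) : Irreducible g := by
  have hp : p.Prime := Fact.out
  have hnoroot : ∀ f h : Polynomial F, f * h = g → h.Monic → h.natDegree ≠ 1 := by
    intro f h hfh hh h1
    have hd : h.degree = 1 := by
      rw [Polynomial.degree_eq_natDegree hh.ne_zero, h1]
      rfl
    obtain ⟨r, hr⟩ := Polynomial.exists_root_of_degree_eq_one hd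
    apply hno r
    rw [← hfh]
    exact Polynomial.root_mul.mpr (Or.inr hr)
  rw [hg.irreducible_iff_natDegree]
  refine ⟨?_, ?_⟩
  · rintro rfl
    rw [Polynomial.natDegree_one] at hdeg
    omega
  · intro f h hf hh hfh
    have hroot' : (f.map ((qExpand k p).comp φ)).IsRoot y ∨
        (h.map ((qExpand k p).comp φ)).IsRoot y := by
      rw [← hfh, Polynomial.map_mul] at hroot
      exact Polynomial.root_mul.mp hroot
    have hsum : f.natDegree + h.natDegree = p + 1 := by
      rw [← hdeg, ← hfh, hf.natDegree_mul hh]
    rcases hroot' with h1 | h1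
    · right
      have h2 := le_natDegree_of_root p φ hf.ne_zero hy h1
      have h3 := hnoroot f h hfh hh
      omega
    · left
      have h2 := le_natDegree_of_root p φ hh.ne_zero hy h1
      have h3 := hnoroot h f (by rw [mul_comm]; exact hfh) hf
      omega

end Fermat.Agent.S28.P6
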