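import Mathlib
import Fermat.Prelude.Def_ModularCurve_X0ModL
import Fermat.Agent.S28.Prime
import Fermat.Agent.S28.ModPoly
import Fermat.Agent.S28.OrderLemma
import Fermat.Agent.S28.Extend
import Fermat.Agent.S28.Assemble

/-!
# S28 (Igusa), piece P6: the induction `[k(J(q^d) : d ∣ N prime power) : k(J)] = ψ(N)`
-/

set_option autoImplicit false

noncomputable section

namespace Fermat.Agent.S28.P6

open ModularCurve Polynomial IntermediateField

variable (k : Type*) [Field k]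

/-! ### total versions of `q ↦ q^m` and `J(q^m)` -/

/-- `q ↦ q^m` as a `k`-algebra endomorphism of `k((q))` (the identity for `m = 0`) -/
def Em (m : ℕ) : LaurentSeries k →ₐ[k] LaurentSeries k :=
  if h : m = 0 then AlgHom.id k _ else @qExpandAlgHomC k _ m ⟨h⟩

/-- `J(q^m)` -/
def Jm (m : ℕ) : LaurentSeries k := Em k m (jqModC k)

variable {k}

theorem Em_apply (m : ℕ) [NeZero m] (x : LaurentSeries k) : Em k m x = qExpand k m x := by
  unfold Em
  rw [dif_neg (NeZero.ne m)]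
  rfl

theorem Em_toRingHom (m : ℕ) [NeZero m] : (Em k m).toRingHom = qExpand k m :=
  RingHom.ext fun x => Em_apply m x

theorem Em_injective (m : ℕ) : Function.Injective (Em k m) :=
  (Em k m).toRingHom.injective

theorem Em_one (x : LaurentSeries k) : Em k 1 x = x := by
  rw [Em_apply, qExpand_one_apply]

theorem Em_Em {a b : ℕ} (ha : a ≠ 0) (hb : b ≠ 0) (x : LaurentSeries k) :
    Em k a (Em k b x) = Em k (a * b) x := by
  have : NeZero a := ⟨ha⟩
  have : NeZero b := ⟨hb⟩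
  have : NeZero (a * b) := ⟨Nat.mul_ne_zero ha hb⟩
  rw [Em_apply, Em_apply, Em_apply, qExpand_qExpand]

theorem Jm_eq (m : ℕ) [NeZero m] : Jm k m = qExpand k m (jqModC k) := Em_apply m _

theorem Jm_one : Jm k 1 = jqModC k := Em_one _

theorem Em_Jm {a b : ℕ} (ha : a ≠ 0) (hb : b ≠ 0) : Em k a (Jm k b) = Jm k (a * b) :=
  Em_Em ha hb _

theorem jqModC_ne_zero'' : jqModC k ≠ 0 := jqModC_ne_zero_of_nontrivial k

theorem order_jqModC : (jqModC k).order = -1 := by
  apply le_antisymm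
  · apply HahnSeries.order_le_of_coeff_ne_zero
    rw [coeff_jqModC_neg_one]
    exact one_ne_zero
  · by_contra hlt
    rw [not_le] at hlt
    have h1 : (jqModC k).coeff (jqModC k).order ≠ 0 :=
      fun h => jqModC_ne_zero'' (HahnSeries.coeff_order_eq_zero.mp h)
    exact h1 (coeff_jqModC_of_lt k hlt)

theorem Jm_ne_zero (m : ℕ) : Jm k m ≠ 0 := by
  intro h
  exact jqModC_ne_zero'' (Em_injective m (h.trans (map_zero _).symm))

theorem order_Jm {m : ℕ} (hm : m ≠ 0) : (Jm k m).order = -(m : ℤ) := by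
  have : NeZero m := ⟨hm⟩
  rw [Jm_eq, order_qExpand m jqModC_ne_zero'', order_jqModC]
  ring

theorem Jm_ne_of_ne {a b : ℕ} (ha : a ≠ 0) (hb : b ≠ 0) (hab : a ≠ b) : Jm k a ≠ Jm k b := by
  intro h
  have := congrArg HahnSeries.order h
  rw [order_Jm ha, order_Jm hb] at this
  omega

theorem order_Em {m : ℕ} (hm : m ≠ 0) (x : LaurentSeries k) :
    (Em k m x).order = (m : ℤ) * x.order := by
  have : NeZero m := ⟨hm⟩
  by_cases hx : x = 0
  · subst hx
    simp
  · rw [Em_apply, order_qExpand m hx]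

/-! ### naturality of the two-variable evaluation -/

section Naturality

variable {A B : Type*} [CommRing A] [CommRing B] [Algebra k A] [Algebra k B]

theorem comp_aeval_toRingHom (f : A →ₐ[k] B) (b : A) :
    f.toRingHom.comp (Polynomial.aeval b : Polynomial k →ₐ[k] A).toRingHom =
      (Polynomial.aeval (f b) : Polynomial k →ₐ[k] B).toRingHom := by
  rw [Polynomial.aeval_algHom]
  rfl

theorem map_eval₂_aeval (f : A →ₐ[k] B) (Φ : Polynomial (Polynomial k)) (a b : A) :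
    f (Φ.eval₂ (Polynomial.aeval b : Polynomial k →ₐ[k] A).toRingHom a) =
      Φ.eval₂ (Polynomial.aeval (f b) : Polynomial k →ₐ[k] B).toRingHom (f a) := by
  have h := Polynomial.hom_eval₂ Φ (Polynomial.aeval b : Polynomial k →ₐ[k] A).toRingHom
    f.toRingHom a
  rw [comp_aeval_toRingHom] at h
  exact h

theorem map_map_aeval (f : A →ₐ[k] B) (Φ : Polynomial (Polynomial k)) (b : A) :
    (Φ.map (Polynomial.aeval b : Polynomial k →ₐ[k] A).toRingHom).map f.toRingHom =
      Φ.map (Polynomial.aeval (f b) : Polynomial k →ₐ[k] B).toRingHom := by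
  rw [Polynomial.map_map, comp_aeval_toRingHom]

end Naturality

/-! ### the root facts of a modular polynomial -/

/-- the root facts of the modular polynomial `Φ_p`, in terms of `Jm` -/
structure IsModPoly (p : ℕ) (Φ : Polynomial (Polynomial k)) : Prop where
  monic : Φ.Monic
  natDegree_eq : Φ.natDegree = p + 1
  /-- `Φ(J_m, J_{pm}) = 0` -/
  root_low : ∀ m, m ≠ 0 →
    Φ.eval₂ (Polynomial.aeval (Jm k (p * m)) : Polynomial k →ₐ[k] _).toRingHom (Jm k m) = 0
  /-- `Φ(J_{pm}, J_m) = 0` -/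
  root_high : ∀ m, m ≠ 0 →
    Φ.eval₂ (Polynomial.aeval (Jm k m) : Polynomial k →ₐ[k] _).toRingHom (Jm k (p * m)) = 0
  /-- the only root of `Φ(T, J)` in `k((q))` is `J_p` -/
  root_unique : ∀ r : LaurentSeries k,
    Φ.eval₂ (Polynomial.aeval (jqModC k) : Polynomial k →ₐ[k] _).toRingHom r = 0 → r = Jm k p

theorem ModPoly.exists_isModPoly {p : ℕ} [Fact p.Prime] (h : ModPoly k p) :
    ∃ Φ : Polynomial (Polynomial k), IsModPoly p Φ := by
  have hp : p.Prime := Fact.out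
  have hp0 : p ≠ 0 := hp.ne_zero
  have hpp0 : p ^ 2 ≠ 0 := pow_ne_zero 2 hp0
  obtain ⟨Φ, hmonic, hdeg, hJ, hJpp, hroots⟩ := h
  rw [Polynomial.IsRoot, Polynomial.eval_map, ← Jm_eq] at hJ hJpp
  rw [← Jm_eq] at hJpp
  have hhigh1 : Φ.eval₂ (Polynomial.aeval (Jm k 1) : Polynomial k →ₐ[k] _).toRingHom
      (Jm k p) = 0 := by
    apply Em_injective p
    rw [map_eval₂_aeval, Em_Jm hp0 one_ne_zero, Em_Jm hp0 hp0, map_zero, mul_one, ← sq]
    exact hJpp
  refine ⟨Φ, hmonic, hdeg, ?_, ?_, ?_⟩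
  · intro m hm
    have h1 := congrArg (Em k m) hJ
    rw [map_eval₂_aeval, Em_Jm hm hp0, map_zero, mul_comm m p] at h1
    have h2 : Em k m (jqModC k) = Jm k m := rfl
    rw [h2] at h1
    exact h1
  · intro m hm
    have h1 := congrArg (Em k m) hhigh1
    rw [map_eval₂_aeval, Em_Jm hm hp0, Em_Jm hm one_ne_zero, map_zero, mul_comm m p,
      mul_one] at h1
    exact h1
  · intro r hr
    have h1 := congrArg (Em k p) hr
    rw [map_eval₂_aeval, map_zero] at h1
    have h2 : Em k p (jqModC k) = qExpand k p (jqModC k) := Em_apply p _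
    rw [h2] at h1
    have h3 := hroots (Em k p r) (by rw [Polynomial.IsRoot, Polynomial.eval_map]; exact h1)
    rcases h3 with h3 | h3
    · apply Em_injective p
      rw [h3, Em_Jm hp0 hp0, ← sq, Jm_eq]
    · exfalso
      apply h3
      rw [order_Em hp0]
      exact dvd_mul_right _ _

/-! ### the generators of `GN k (M * p)` -/

theorem mem_ppGens_iff {N : ℕ} {x : LaurentSeries k} :
    x ∈ ppGens k N ↔ ∃ d : ℕ, d ≠ 0 ∧ d ∣ N ∧ (d = 1 ∨ IsPrimePow d) ∧ x = Jm k d := by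
  constructor
  · rintro ⟨d, hd, hdN, hpp, rfl⟩
    exact ⟨d, NeZero.ne d, hdN, hpp, (Jm_eq d).symm⟩
  · rintro ⟨d, hd, hdN, hpp, rfl⟩
    have : NeZero d := ⟨hd⟩
    exact ⟨d, this, hdN, hpp, Jm_eq d⟩

theorem Jm_mem_GN {N d : ℕ} (hd0 : d ≠ 0) (hd : d ∣ N) (hpp : d = 1 ∨ IsPrimePow d) :
    Jm k d ∈ GN k N :=
  IntermediateField.subset_adjoin k _ (mem_ppGens_iff.mpr ⟨d, hd0, hd, hpp, rfl⟩)

/-- a prime power dividing `p^a M' p` (`p ∤ M'`) divides `p^a M'` or is `p^(a+1)` -/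
theorem dvd_or_eq_of_dvd_mul_prime {p a M' d : ℕ} (hp : p.Prime) (hpM' : ¬ p ∣ M')
    (hd : d ∣ p ^ a * M' * p) (hpp : d = 1 ∨ IsPrimePow d) :
    d ∣ p ^ a * M' ∨ d = p ^ (a + 1) := by
  rcases hpp with rfl | hpp
  · exact Or.inl (one_dvd _)
  · obtain ⟨q, i, hq, hi, rfl⟩ := (isPrimePow_nat_iff d).mp hpp
    by_cases hqp : q = p
    · subst hqp
      have hcop : (q ^ i).Coprime M' :=
        Nat.Coprime.pow_left i ((Nat.Prime.coprime_iff_not_dvd hq).mpr hpM')
      have h1 : q ^ i ∣ q ^ (a + 1) := by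
        have h2 : q ^ a * M' * q = q ^ (a + 1) * M' := by ring
        rw [h2] at hd
        exact hcop.dvd_of_dvd_mul_right hd
      have h3 : i ≤ a + 1 := (Nat.pow_dvd_pow_iff_le_right hq.one_lt).mp h1
      rcases Nat.lt_or_ge i (a + 1) with h4 | h4
      · left
        exact Dvd.dvd.mul_right (pow_dvd_pow q (by omega)) M'
      · right
        have : i = a + 1 := le_antisymm h3 h4
        rw [this]
    · left
      have hcop : (q ^ i).Coprime p :=
        Nat.Coprime.pow_left i ((Nat.coprime_primes hq hp).mpr hqp)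
      exact hcop.dvd_of_dvd_mul_right hd

theorem GN_mul_prime {p a M' : ℕ} (hp : p.Prime) (hpM' : ¬ p ∣ M') (hM' : M' ≠ 0) :
    GN k (p ^ a * M' * p) = GN k (p ^ a * M') ⊔ IntermediateField.adjoin k {Jm k (p ^ (a + 1))} := by
  have hpa : p ^ (a + 1) ≠ 0 := pow_ne_zero _ hp.ne_zero
  apply le_antisymm
  · rw [GN, IntermediateField.adjoin_le_iff]
    intro x hx
    obtain ⟨d, hd0, hd, hpp, rfl⟩ := mem_ppGens_iff.mp hx
    rcases dvd_or_eq_of_dvd_mul_prime hp hpM' hd hpp with h | h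
    · exact (le_sup_left : GN k (p ^ a * M') ≤ _) (Jm_mem_GN hd0 h hpp)
    · rw [h]
      exact (le_sup_right : _ ≤ GN k (p ^ a * M') ⊔ _)
        (IntermediateField.mem_adjoin_simple_self k _)
  · apply sup_le
    · exact GN_mono k (Dvd.intro _ rfl)
    · rw [IntermediateField.adjoin_le_iff]
      rintro x rfl
      apply Jm_mem_GN hpa
      · exact ⟨M', by ring⟩
      · exact Or.inr ((isPrimePow_nat_iff _).mpr ⟨p, a + 1, hp, Nat.succ_pos a, rfl⟩)

/-! ### the induction statement -/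

/-- the induction statement for the intermediate field `G` at level `N`: the degree over `k(J)`
is `ψ(N)` and there is a Fricke embedding `J(q^d) ↦ J(q^{N/d})`. -/
def Good (G : IntermediateField k (LaurentSeries k)) (N : ℕ) : Prop :=
  IntermediateField.relfinrank (IntermediateField.adjoin k {jqModC k}) G = dedekindPsi N ∧
  ∃ w : G →ₐ[k] LaurentSeries k, ∀ d e : ℕ, d * e = N → (d = 1 ∨ IsPrimePow d) →
    ∀ h : Jm k d ∈ G, w ⟨Jm k d, h⟩ = Jm k e

/-- the common part of the induction step -/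
theorem good_step {p a M' : ℕ} (hp : p.Prime) (hpM' : ¬ p ∣ M') (hM' : M' ≠ 0)
    (w : GN k (p ^ a * M') →ₐ[k] LaurentSeries k)
    (hrank : IntermediateField.relfinrank (IntermediateField.adjoin k {jqModC k})
      (GN k (p ^ a * M')) = dedekindPsi (p ^ a * M'))
    (hw : ∀ d e : ℕ, d * e = p ^ a * M' → (d = 1 ∨ IsPrimePow d) →
      ∀ h : Jm k d ∈ GN k (p ^ a * M'), w ⟨Jm k d, h⟩ = Jm k e)
    (g : Polynomial (GN k (p ^ a * M'))) (hirr : Irreducible g) (hmonic : g.Monic)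
    (hdeg : dedekindPsi (p ^ a * M') * g.natDegree = dedekindPsi (p ^ a * M' * p))
    (hx : Polynomial.aeval (Jm k (p ^ (a + 1))) g = 0)
    (hy : Polynomial.eval₂ ((Em k p).comp w).toRingHom (Jm k M') g = 0) :
    Good (GN k (p ^ a * M' * p)) (p ^ a * M' * p) := by
  have hp0 : p ≠ 0 := hp.ne_zero
  have hM0 : p ^ a * M' ≠ 0 := Nat.mul_ne_zero (pow_ne_zero _ hp0) hM'
  obtain ⟨hfin, φ', hφ', hφ'x⟩ := Fermat.Agent.S28.Extend.exists_extend (GN k (p ^ a * M'))
    (Jm k (p ^ (a + 1))) g hirr hmonic hx ((Em k p).comp w) (Jm k M') hy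
  rw [GN_mul_prime hp hpM' hM']
  refine ⟨?_, φ', ?_⟩
  · rw [← IntermediateField.relfinrank_mul_relfinrank (adjoin_jqModC_le_GN k (p ^ a * M'))
      le_sup_left, hrank, hfin, hdeg]
  · intro d e hde hpp h
    have hd0 : d ≠ 0 := by
      rintro rfl
      rw [zero_mul] at hde
      exact Nat.mul_ne_zero hM0 hp0 hde.symm
    have hdvd : d ∣ p ^ a * M' * p := ⟨e, hde.symm⟩
    rcases dvd_or_eq_of_dvd_mul_prime hp hpM' hdvd hpp with h1 | h1
    · obtain ⟨e', he'⟩ := h1
      have hmem : Jm k d ∈ GN k (p ^ a * M') := Jm_mem_GN hd0 ⟨e', he'⟩ hpp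
      have he : e = p * e' := by
        have h2 : d * e = d * (p * e') := by
          rw [hde, he']
          ring
        exact Nat.eq_of_mul_eq_mul_left (Nat.pos_of_ne_zero hd0) h2
      have he'0 : e' ≠ 0 := by
        rintro rfl
        rw [mul_zero] at he'
        exact hM0 he'
      have h3 := hφ' (Jm k d) hmem
      rw [AlgHom.comp_apply, hw d e' he'.symm hpp hmem, Em_Jm hp0 he'0, ← he] at h3
      exact h3
    · subst h1
      have he : e = M' := by
        have h2 : p ^ (a + 1) * e = p ^ (a + 1) * M' := by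
          rw [hde]
          ring
        exact Nat.eq_of_mul_eq_mul_left (Nat.pos_of_ne_zero hd0) h2
      rw [he]
      exact hφ'x

/-! ### evaluation of `Φ.map (aeval b)` for `b` in an intermediate field -/

section EvalSub

variable (G : IntermediateField k (LaurentSeries k))

theorem aeval_map_aeval (Φ : Polynomial (Polynomial k)) (b : G) (x : LaurentSeries k) :
    Polynomial.aeval x (Φ.map (Polynomial.aeval b : Polynomial k →ₐ[k] G).toRingHom) =
      Φ.eval₂ (Polynomial.aeval (b : LaurentSeries k) : Polynomial k →ₐ[k] _).toRingHom x := by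
  rw [Polynomial.aeval_def, Polynomial.eval₂_map]
  have h := comp_aeval_toRingHom (k := k) G.val b
  rw [IntermediateField.coe_val] at h
  rw [← h]
  rfl

theorem eval₂_map_aeval (f : G →ₐ[k] LaurentSeries k) (Φ : Polynomial (Polynomial k)) (b : G)
    (y : LaurentSeries k) :
    Polynomial.eval₂ f.toRingHom y (Φ.map (Polynomial.aeval b : Polynomial k →ₐ[k] G).toRingHom) =
      Φ.eval₂ (Polynomial.aeval (f b) : Polynomial k →ₐ[k] _).toRingHom y := by
  rw [Polynomial.eval₂_map, comp_aeval_toRingHom]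

theorem isRoot_map_aeval_iff (Φ : Polynomial (Polynomial k)) (b c : G) :
    (Φ.map (Polynomial.aeval b : Polynomial k →ₐ[k] G).toRingHom).IsRoot c ↔
      Φ.eval₂ (Polynomial.aeval (b : LaurentSeries k) : Polynomial k →ₐ[k] _).toRingHom
        (c : LaurentSeries k) = 0 := by
  rw [Polynomial.IsRoot, Polynomial.eval_map]
  have h := map_eval₂_aeval (k := k) G.val Φ c b
  rw [IntermediateField.coe_val] at h
  rw [← h]
  constructor
  · intro h0
    rw [h0]
    rfl
  · intro h0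
    exact Subtype.ext h0

end EvalSub

/-! ### step A: `p ∣ M` -/

theorem isPrimePow_or_one_pow {p : ℕ} (hp : p.Prime) (b : ℕ) : p ^ b = 1 ∨ IsPrimePow (p ^ b) := by
  rcases Nat.eq_zero_or_pos b with rfl | hb
  · left
    simp
  · right
    exact (isPrimePow_nat_iff _).mpr ⟨p, b, hp, hb, rfl⟩

theorem good_stepA {p b M' : ℕ} [Fact p.Prime] (hpM' : ¬ p ∣ M') (hM' : M' ≠ 0)
    {Φ : Polynomial (Polynomial k)} (hΦ : IsModPoly p Φ)
    (hgood : Good (GN k (p ^ (b + 1) * M')) (p ^ (b + 1) * M')) :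
    Good (GN k (p ^ (b + 1) * M' * p)) (p ^ (b + 1) * M' * p) := by
  have hp : p.Prime := Fact.out
  have hp0 : p ≠ 0 := hp.ne_zero
  have hp2 : 2 ≤ p := hp.two_le
  have hM0 : p ^ (b + 1) * M' ≠ 0 := Nat.mul_ne_zero (pow_ne_zero _ hp0) hM'
  obtain ⟨hrank, w, hw⟩ := hgood
  -- the elements `J_{p^(b+1)}` and `J_{p^b}` of `G`
  have hmemA : Jm k (p ^ (b + 1)) ∈ GN k (p ^ (b + 1) * M') :=
    Jm_mem_GN (pow_ne_zero _ hp0) (Dvd.intro _ rfl) (isPrimePow_or_one_pow hp _)
  have hmemC : Jm k (p ^ b) ∈ GN k (p ^ (b + 1) * M') :=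
    Jm_mem_GN (pow_ne_zero _ hp0) (Dvd.dvd.mul_right (pow_dvd_pow p (Nat.le_succ b)) M')
      (isPrimePow_or_one_pow hp _)
  set Ja : GN k (p ^ (b + 1) * M') := ⟨Jm k (p ^ (b + 1)), hmemA⟩ with hJa
  set c : GN k (p ^ (b + 1) * M') := ⟨Jm k (p ^ b), hmemC⟩ with hc
  set P : Polynomial (GN k (p ^ (b + 1) * M')) :=
    Φ.map (Polynomial.aeval Ja : Polynomial k →ₐ[k] _).toRingHom with hP
  have hPmonic : P.Monic := hΦ.monic.map _
  have hPdeg : P.natDegree = p + 1 := by
    rw [hP, hΦ.monic.natDegree_map, hΦ.natDegree_eq]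
  -- `c` is a root of `P`
  have hrootc : P.IsRoot c := by
    rw [hP, isRoot_map_aeval_iff]
    have h1 := hΦ.root_low (p ^ b) (pow_ne_zero _ hp0)
    rw [← pow_succ'] at h1
    exact h1
  obtain ⟨g, hg⟩ := Polynomial.dvd_iff_isRoot.mpr hrootc
  have hgmonic : g.Monic := by
    apply Polynomial.Monic.of_mul_monic_left (Polynomial.monic_X_sub_C c)
    rw [← hg]
    exact hPmonic
  have hgdeg : g.natDegree = p := by
    have h1 := congrArg Polynomial.natDegree hg
    rw [(Polynomial.monic_X_sub_C c).natDegree_mul hgmonic, Polynomial.natDegree_X_sub_C,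
      hPdeg] at h1
    omega
  -- `x = J_{p^(b+2)}` is a root of `g`
  have hx : Polynomial.aeval (Jm k (p ^ (b + 1 + 1))) g = 0 := by
    have h1 : Polynomial.aeval (Jm k (p ^ (b + 1 + 1))) P = 0 := by
      rw [hP, aeval_map_aeval]
      have h2 := hΦ.root_high (p ^ (b + 1)) (pow_ne_zero _ hp0)
      rw [← pow_succ'] at h2
      exact h2
    rw [hg, map_mul, map_sub, Polynomial.aeval_X, Polynomial.aeval_C] at h1
    rcases mul_eq_zero.mp h1 with h3 | h3
    · exfalso
      have h4 : Jm k (p ^ (b + 1 + 1)) = Jm k (p ^ b) := sub_eq_zero.mp h3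
      refine Jm_ne_of_ne (pow_ne_zero _ hp0) (pow_ne_zero _ hp0) ?_ h4
      intro h5
      have := Nat.pow_right_injective hp2 h5
      omega
    · exact h3
  -- the image of `g` under `E_p ∘ w` has the root `y = J_{M'}`
  have hwA : w Ja = Jm k M' := hw (p ^ (b + 1)) M' rfl (isPrimePow_or_one_pow hp _) hmemA
  have hwC : w c = Jm k (p * M') :=
    hw (p ^ b) (p * M') (by ring) (isPrimePow_or_one_pow hp _) hmemC
  have hy : Polynomial.eval₂ ((Em k p).comp w).toRingHom (Jm k M') g = 0 := by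
    have h1 : Polynomial.eval₂ ((Em k p).comp w).toRingHom (Jm k M') P = 0 := by
      rw [hP, eval₂_map_aeval, AlgHom.comp_apply, hwA, Em_Jm hp0 hM']
      exact hΦ.root_low M' hM'
    rw [hg, Polynomial.eval₂_mul, Polynomial.eval₂_sub, Polynomial.eval₂_X,
      Polynomial.eval₂_C] at h1
    rcases mul_eq_zero.mp h1 with h3 | h3
    · exfalso
      have h4 : Jm k M' = Jm k (p * (p * M')) := by
        have h5 := sub_eq_zero.mp h3
        rw [h5]
        show (Em k p) (w c) = _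
        rw [hwC, Em_Jm hp0 (Nat.mul_ne_zero hp0 hM')]
      refine Jm_ne_of_ne hM' (Nat.mul_ne_zero hp0 (Nat.mul_ne_zero hp0 hM')) ?_ h4
      intro h5
      have h6 : 1 * M' < p * (p * M') := by
        rw [← mul_assoc]
        exact Nat.mul_lt_mul_of_pos_right (by nlinarith) (Nat.pos_of_ne_zero hM')
      omega
    · exact h3
  -- irreducibility
  have hyord : ¬ ((p : ℤ) ∣ (Jm k M').order) := by
    rw [order_Jm hM', Int.dvd_neg, Int.natCast_dvd_natCast]
    exact hpM'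
  have hirr : Irreducible g := by
    apply irreducible_of_root_of_natDegree_eq p w.toRingHom hgmonic hgdeg hyord
    rw [Polynomial.IsRoot, Polynomial.eval_map, ← Em_toRingHom]
    exact hy
  refine good_step hp hpM' hM' w hrank hw g hirr hgmonic ?_ hx hy
  rw [hgdeg, Fermat.Agent.S28.Assemble.dedekindPsi_mul_prime_of_dvd hM0 hp
    (Dvd.dvd.mul_right (dvd_pow_self p (Nat.succ_ne_zero b)) M'), mul_comm]

/-! ### step B: `p ∤ M` and `J_p ∉ G_M` -/

theorem good_stepB {p M' : ℕ} [Fact p.Prime] (hpM' : ¬ p ∣ M') (hM' : M' ≠ 0)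
    {Φ : Polynomial (Polynomial k)} (hΦ : IsModPoly p Φ)
    (hJp : Jm k p ∉ GN k M')
    (hgood : Good (GN k M') M') :
    Good (GN k (M' * p)) (M' * p) := by
  have hp : p.Prime := Fact.out
  have hp0 : p ≠ 0 := hp.ne_zero
  have hM : p ^ 0 * M' = M' := by simp
  suffices h : Good (GN k (p ^ 0 * M' * p)) (p ^ 0 * M' * p) by
    rw [hM] at h
    exact h
  rw [← hM] at hgood hJp
  obtain ⟨hrank, w, hw⟩ := hgood
  have hM0 : p ^ 0 * M' ≠ 0 := by
    rw [hM]
    exact hM'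
  have hmemJ : Jm k 1 ∈ GN k (p ^ 0 * M') := Jm_mem_GN one_ne_zero (one_dvd _) (Or.inl rfl)
  set J1 : GN k (p ^ 0 * M') := ⟨Jm k 1, hmemJ⟩ with hJ1
  set P : Polynomial (GN k (p ^ 0 * M')) :=
    Φ.map (Polynomial.aeval J1 : Polynomial k →ₐ[k] _).toRingHom with hP
  have hPmonic : P.Monic := hΦ.monic.map _
  have hPdeg : P.natDegree = p + 1 := by
    rw [hP, hΦ.monic.natDegree_map, hΦ.natDegree_eq]
  have hx : Polynomial.aeval (Jm k (p ^ (0 + 1))) P = 0 := by
    rw [hP, aeval_map_aeval]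
    have h2 := hΦ.root_high 1 one_ne_zero
    rw [mul_one] at h2
    rw [zero_add, pow_one]
    exact h2
  have hwJ : w J1 = Jm k M' := by
    have := hw 1 M' (by rw [hM, one_mul]) (Or.inl rfl) hmemJ
    exact this
  have hy : Polynomial.eval₂ ((Em k p).comp w).toRingHom (Jm k M') P = 0 := by
    rw [hP, eval₂_map_aeval, AlgHom.comp_apply, hwJ, Em_Jm hp0 hM']
    exact hΦ.root_low M' hM'
  have hno : ∀ r : GN k (p ^ 0 * M'), ¬ P.IsRoot r := by
    intro r hr
    rw [hP, isRoot_map_aeval_iff] at hr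
    have h1 : ((J1 : GN k (p ^ 0 * M')) : LaurentSeries k) = jqModC k := Jm_one
    rw [h1] at hr
    have h2 := hΦ.root_unique _ hr
    apply hJp
    rw [← h2]
    exact r.2
  have hyord : ¬ ((p : ℤ) ∣ (Jm k M').order) := by
    rw [order_Jm hM', Int.dvd_neg, Int.natCast_dvd_natCast]
    exact hpM'
  have hirr : Irreducible P := by
    apply irreducible_of_root_of_natDegree_eq_succ p w.toRingHom hPmonic hPdeg hno hyord
    rw [Polynomial.IsRoot, Polynomial.eval_map, ← Em_toRingHom]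
    exact hy
  refine good_step hp hpM' hM' w hrank hw P hirr hPmonic ?_ hx hy
  have hnd : ¬ p ∣ p ^ 0 * M' := by
    rw [hM]
    exact hpM'
  rw [hPdeg, Fermat.Agent.S28.Assemble.dedekindPsi_mul_prime_of_not_dvd hM0 hp hnd, mul_comm]

/-! ### the induction -/

theorem GN_one : GN k 1 = IntermediateField.adjoin k {jqModC k} := by
  apply le_antisymm
  · rw [GN, IntermediateField.adjoin_le_iff]
    intro x hx
    obtain ⟨d, hd0, hd, -, rfl⟩ := mem_ppGens_iff.mp hx
    have hd1 : d = 1 := Nat.dvd_one.mp hd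
    rw [hd1, Jm_one]
    exact IntermediateField.mem_adjoin_simple_self k _
  · exact adjoin_jqModC_le_GN k 1

theorem good_one : Good (GN k 1) 1 := by
  refine ⟨?_, (GN k 1).val, ?_⟩
  · rw [GN_one, IntermediateField.relfinrank_self, dedekindPsi_one]
  · intro d e hde _ h
    have hd1 : d = 1 := Nat.dvd_one.mp ⟨e, hde.symm⟩
    have he1 : e = 1 := Nat.dvd_one.mp ⟨d, by rw [mul_comm]; exact hde.symm⟩
    subst hd1
    subst he1
    rfl

theorem GN_mul_prime_of_mem {p M : ℕ} (hp : p.Prime) (hpM : ¬ p ∣ M) (hM : M ≠ 0)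
    (hmem : Jm k p ∈ GN k M) : GN k (M * p) = GN k M := by
  have h := GN_mul_prime (k := k) (a := 0) hp hpM hM
  rw [pow_zero, one_mul, zero_add, pow_one] at h
  rw [h]
  apply sup_eq_left.mpr
  rw [IntermediateField.adjoin_le_iff]
  rintro x rfl
  exact hmem

theorem good_GN (N : ℕ) (hN : N ≠ 0)
    (hΦ : ∀ p : ℕ, p.Prime → p ∣ N → ∃ Φ : Polynomial (Polynomial k), IsModPoly p Φ)
    (hJ : ∀ p : ℕ, p.Prime → p ∣ N → Jm k p ∉ IntermediateField.adjoin k {jqModC k}) :
    Good (GN k N) N := by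
  induction N using Nat.strong_induction_on with
  | _ N ih =>
  by_cases hN1 : N = 1
  · subst hN1
    exact good_one
  by_cases hsq : ∃ p : ℕ, p.Prime ∧ p * p ∣ N
  · -- step A
    obtain ⟨p, hp, M, hM⟩ := hsq
    have hp0 : p ≠ 0 := hp.ne_zero
    have hM0 : p * M ≠ 0 := by
      rintro h0
      apply hN
      rw [hM, mul_assoc, h0, mul_zero]
    obtain ⟨a, M', hpM', hMM'⟩ := Nat.exists_eq_pow_mul_and_not_dvd hM0 p hp.ne_one
    have hM'0 : M' ≠ 0 := by
      rintro rfl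
      exact hpM' (dvd_zero p)
    have ha : a ≠ 0 := by
      rintro rfl
      apply hpM'
      rw [pow_zero, one_mul] at hMM'
      exact ⟨M, hMM'.symm⟩
    obtain ⟨b, rfl⟩ : ∃ b, a = b + 1 := ⟨a - 1, by omega⟩
    have hNeq : N = p ^ (b + 1) * M' * p := by
      rw [← hMM', hM]
      ring
    have hlt : p ^ (b + 1) * M' < N := by
      rw [hNeq]
      exact lt_mul_of_one_lt_right (Nat.pos_of_ne_zero (by rw [← hMM']; exact hM0)) hp.one_lt
    have hdvd : p ^ (b + 1) * M' ∣ N := ⟨p, hNeq⟩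
    have hgood := ih (p ^ (b + 1) * M') hlt (by rw [← hMM']; exact hM0)
      (fun q hq hqd => hΦ q hq (hqd.trans hdvd)) (fun q hq hqd => hJ q hq (hqd.trans hdvd))
    obtain ⟨Φ, hΦp⟩ := hΦ p hp ⟨p * M, by rw [hM, mul_assoc]⟩
    haveI : Fact p.Prime := ⟨hp⟩
    rw [hNeq]
    exact good_stepA hpM' hM'0 hΦp hgood
  · -- squarefree case
    have hsq' : ∀ p : ℕ, p.Prime → ¬ p * p ∣ N := fun p hp h => hsq ⟨p, hp, h⟩
    -- the general step B
    have stepB : ∀ p M : ℕ, p.Prime → N = M * p → Jm k p ∉ GN k M → Good (GN k N) N := by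
      intro p M hp hNM hnot
      have hM0 : M ≠ 0 := by
        rintro rfl
        rw [zero_mul] at hNM
        exact hN hNM
      have hpM : ¬ p ∣ M := by
        rintro ⟨c, rfl⟩
        apply hsq' p hp
        exact ⟨c, by rw [hNM]; ring⟩
      have hlt : M < N := by
        rw [hNM]
        exact lt_mul_of_one_lt_right (Nat.pos_of_ne_zero hM0) hp.one_lt
      have hdvd : M ∣ N := ⟨p, hNM⟩
      have hgood := ih M hlt hM0
        (fun q hq hqd => hΦ q hq (hqd.trans hdvd)) (fun q hq hqd => hJ q hq (hqd.trans hdvd))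
      obtain ⟨Φ, hΦp⟩ := hΦ p hp ⟨M, by rw [hNM, mul_comm]⟩
      haveI : Fact p.Prime := ⟨hp⟩
      rw [hNM]
      exact good_stepB hpM hM0 hΦp hnot hgood
    -- first prime
    have hp₁ : (N.minFac).Prime := Nat.minFac_prime hN1
    obtain ⟨M₁, hM₁⟩ := Nat.minFac_dvd N
    rw [mul_comm] at hM₁
    by_cases hmem₁ : Jm k N.minFac ∈ GN k M₁
    swap
    · exact stepB N.minFac M₁ hp₁ hM₁ hmem₁
    set p₁ := N.minFac with hp₁def
    have hM₁0 : M₁ ≠ 0 := by
      rintro rfl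
      rw [zero_mul] at hM₁
      exact hN hM₁
    have hp₁M₁ : ¬ p₁ ∣ M₁ := by
      rintro ⟨c, rfl⟩
      apply hsq' p₁ hp₁
      exact ⟨c, by rw [hM₁]; ring⟩
    have hM₁1 : M₁ ≠ 1 := by
      rintro rfl
      rw [GN_one] at hmem₁
      exact hJ p₁ hp₁ (Nat.minFac_dvd N) hmem₁
    -- second prime
    have hp₂ : (M₁.minFac).Prime := Nat.minFac_prime hM₁1
    obtain ⟨M₀, hM₀⟩ := Nat.minFac_dvd M₁
    rw [mul_comm] at hM₀
    set p₂ := M₁.minFac with hp₂def
    have hM₀0 : M₀ ≠ 0 := by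
      rintro rfl
      rw [zero_mul] at hM₀
      exact hM₁0 hM₀
    have hne : p₁ ≠ p₂ := by
      intro h
      apply hp₁M₁
      rw [h]
      exact Nat.minFac_dvd M₁
    have hp₂M₀ : ¬ p₂ ∣ M₀ := by
      rintro ⟨c, rfl⟩
      apply hsq' p₂ hp₂
      exact ⟨c * p₁, by rw [hM₁, hM₀]; ring⟩
    have hp₁M₀ : ¬ p₁ ∣ M₀ := by
      intro h
      apply hp₁M₁
      rw [hM₀]
      exact Dvd.dvd.mul_right h p₂
    have hN₂ : N = M₀ * p₁ * p₂ := by
      rw [hM₁, hM₀]
      ring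
    apply stepB p₂ (M₀ * p₁) hp₂ hN₂
    intro hmem₂
    have hM₂0 : M₀ * p₁ ≠ 0 := Nat.mul_ne_zero hM₀0 hp₁.ne_zero
    have hp₂M₂ : ¬ p₂ ∣ M₀ * p₁ := by
      intro h
      rcases (Nat.Prime.dvd_mul hp₂).mp h with h1 | h1
      · exact hp₂M₀ h1
      · exact hne ((Nat.prime_dvd_prime_iff_eq hp₂ hp₁).mp h1).symm
    have e₁ : GN k N = GN k M₁ := by
      rw [hM₁]
      exact GN_mul_prime_of_mem hp₁ hp₁M₁ hM₁0 hmem₁
    have e₂ : GN k N = GN k (M₀ * p₁) := by
      rw [hN₂]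
      exact GN_mul_prime_of_mem hp₂ hp₂M₂ hM₂0 hmem₂
    have hlt₁ : M₁ < N := by
      rw [hM₁]
      exact lt_mul_of_one_lt_right (Nat.pos_of_ne_zero hM₁0) hp₁.one_lt
    have hlt₂ : M₀ * p₁ < N := by
      rw [hN₂]
      exact lt_mul_of_one_lt_right (Nat.pos_of_ne_zero hM₂0) hp₂.one_lt
    have hdvd₁ : M₁ ∣ N := ⟨p₁, hM₁⟩
    have hdvd₂ : M₀ * p₁ ∣ N := ⟨p₂, hN₂⟩
    have hg₁ := (ih M₁ hlt₁ hM₁0
      (fun q hq hqd => hΦ q hq (hqd.trans hdvd₁)) (fun q hq hqd => hJ q hq (hqd.trans hdvd₁))).1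
    have hg₂ := (ih (M₀ * p₁) hlt₂ hM₂0
      (fun q hq hqd => hΦ q hq (hqd.trans hdvd₂)) (fun q hq hqd => hJ q hq (hqd.trans hdvd₂))).1
    rw [← e₁] at hg₁
    rw [← e₂, hg₁, hM₀, Fermat.Agent.S28.Assemble.dedekindPsi_mul_prime_of_not_dvd hM₀0 hp₂ hp₂M₀,
      Fermat.Agent.S28.Assemble.dedekindPsi_mul_prime_of_not_dvd hM₀0 hp₁ hp₁M₀] at hg₂
    have hpos := Fermat.Agent.S28.Assemble.dedekindPsi_pos hM₀0
    have := Nat.eq_of_mul_eq_mul_right hpos hg₂
    omega

/-- **P6**: the degree of `G_N = k(J(q^d) : d ∣ N prime power)` over `k(J)` is `ψ(N)`. -/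
theorem relfinrank_GN (k : Type*) [Field k] (N : ℕ) [NeZero N]
    (h : ∀ p, ∀ hp : p.Prime, p ∣ N → (haveI := Fact.mk hp;
      ModPoly k p ∧ qExpand k p (jqModC k) ∉ IntermediateField.adjoin k {jqModC k})) :
    IntermediateField.relfinrank (IntermediateField.adjoin k {jqModC k}) (GN k N) =
      dedekindPsi N := by
  refine (good_GN N (NeZero.ne N) ?_ ?_).1
  · intro p hp hpN
    haveI := Fact.mk hp
    exact (h p hp hpN).1.exists_isModPoly
  · intro p hp hpN
    haveI := Fact.mk hp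
    rw [Jm_eq]
    exact (h p hp hpN).2

/-- the Fricke embedding of `G_N`: `J(q^d) ↦ J(q^{N/d})` -/
theorem exists_fricke_GN (k : Type*) [Field k] (N : ℕ) [NeZero N]
    (h : ∀ p, ∀ hp : p.Prime, p ∣ N → (haveI := Fact.mk hp;
      ModPoly k p ∧ qExpand k p (jqModC k) ∉ IntermediateField.adjoin k {jqModC k})) :
    ∃ w : GN k N →ₐ[k] LaurentSeries k, ∀ d e : ℕ, d * e = N → (d = 1 ∨ IsPrimePow d) →
      ∀ hmem : Jm k d ∈ GN k N, w ⟨Jm k d, hmem⟩ = Jm k e := by
  refine (good_GN N (NeZero.ne N) ?_ ?_).2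
  · intro p hp hpN
    haveI := Fact.mk hp
    exact (h p hp hpN).1.exists_isModPoly
  · intro p hp hpN
    haveI := Fact.mk hp
    rw [Jm_eq]
    exact (h p hp hpN).2

end Fermat.Agent.S28.P6
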