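import Mathlib
import Fermat.Prelude.Def_ModularCurve_X0ModL

/-!
# S28 (Igusa): the degree inequality `(IG)` in characteristic `ℓ`

`(IG)`: `ψ(N) ≤ [𝔽_ℓ(j(q^d) : d ∣ N) : 𝔽_ℓ(j)]`. This is the interface between the algebra part
(`(IG) ⇒ ker ρ = (ℓ)` on the charts) and the modular part (which proves `(IG)` for `ℓ ∤ N`).
-/

set_option autoImplicit false

noncomputable section

namespace Fermat.Agent.S28.Algebra

open ModularCurve IntermediateField

/-- **(IG)**: the degree of the function field of `X₀(N)` in characteristic `ℓ` over `𝔽_ℓ(j)`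
is at least `ψ(N)`. -/
def IG (N : ℕ) [NeZero N] (ℓ : ℕ) [Fact ℓ.Prime] : Prop :=
  dedekindPsi N ≤ Module.finrank
    (ZMod ℓ)⟮(⟨jqModC (ZMod ℓ), jqModC_mem_full (ZMod ℓ) N⟩ : modularFunctionFieldFullC (ZMod ℓ) N)⟯
    (modularFunctionFieldFullC (ZMod ℓ) N)

end Fermat.Agent.S28.Algebra
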