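import Mathlib
import Fermat.Prelude.Def_ModularCurve_X0ModL
import Fermat.Agent.S28.P2IG
import Fermat.Agent.S28.FinDimL
import Fermat.Agent.S28.Induction
import Fermat.Agent.S28.FrobDescent

/-!
# S28 (Igusa): the degree inequality `(IG)` for `ℓ ∤ N`

`ig N ℓ hℓN : Algebra.IG N ℓ`, i.e. `ψ(N) ≤ [𝔽_ℓ(J(q^d) : d ∣ N) : 𝔽_ℓ(J)]`.
-/

set_option autoImplicit false

noncomputable section

namespace Fermat.Agent.S28

open ModularCurve IntermediateField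

/-- **(IG)**: for `ℓ ∤ N` the function field of `X₀(N)` in characteristic `ℓ` has degree at
least `ψ(N)` over `𝔽_ℓ(J)`. -/
theorem ig (N : ℕ) [NeZero N] (ℓ : ℕ) [Fact ℓ.Prime] (hℓN : ¬ ℓ ∣ N) : Algebra.IG N ℓ := by
  have hne : ∀ p, p ∣ N → p ≠ ℓ := by
    rintro p hpN rfl
    exact hℓN hpN
  refine FinDimL.ig_of_relfinrank (ZMod ℓ) N ?_ (P6.relfinrank_GN (ZMod ℓ) N ?_)
  · intro p hp hpN
    haveI := Fact.mk hp
    exact FrobDescent.modPoly_zmod ℓ p (hne p hpN)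
  · intro p hp hpN
    haveI := Fact.mk hp
    exact ⟨FrobDescent.modPoly_zmod ℓ p (hne p hpN), FrobDescent.jp_not_mem_zmod ℓ p (hne p hpN)⟩

end Fermat.Agent.S28
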