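import Mathlib
import Fermat.Prelude.Def_ModularCurve_IgusaScheme
import Fermat.Agent.Lib.ModJ.Degree

/-!
# S28 (Igusa), algebra part: the degree bound `[F : ℚ(j)] ≤ ψ(N)` in characteristic `0`,
for the prelude's `modularFunctionFieldFull N` (bridge from `Lib.ModJ.finrank_le_dedekindPsi`)
-/

set_option autoImplicit false
set_option linter.unusedSectionVars false

noncomputable section

namespace Fermat.Agent.S28.Algebra

open ModularCurve ModularCurve.IgusaScheme IntermediateField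

variable (N : ℕ) [NeZero N]

theorem coeffEmb_rat (x : LaurentSeries ℚ) : coeffEmb ℚ x = x := by
  apply HahnSeries.ext
  funext k
  rw [coeffEmb_coeff]
  rfl

theorem FFK_rat : Fermat.Agent.Lib.ModJ.FFK ℚ N = modularFunctionFieldFull N := by
  show IntermediateField.adjoin ℚ (⇑(coeffEmb ℚ) '' (modularFunctionFieldFull N : Set (LaurentSeries ℚ))) = _
  have : (⇑(coeffEmb ℚ) '' (modularFunctionFieldFull N : Set (LaurentSeries ℚ)))
      = (modularFunctionFieldFull N : Set (LaurentSeries ℚ)) := by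
    ext x
    constructor
    · rintro ⟨y, hy, rfl⟩
      rw [coeffEmb_rat]; exact hy
    · intro hx
      exact ⟨x, hx, coeffEmb_rat x⟩
  rw [this, IntermediateField.adjoin_self]

theorem degBound_transfer {K L : Type*} [Field K] [Field L] [Algebra K L] {E₁ E₂ : IntermediateField K L}
    (h : E₁ = E₂) (x₁ : E₁) (x₂ : E₂) (hx : (x₁ : L) = x₂) (n : ℕ)
    (h1 : FiniteDimensional K⟮x₁⟯ E₁ ∧ Module.finrank K⟮x₁⟯ E₁ ≤ n) :
    FiniteDimensional K⟮x₂⟯ E₂ ∧ Module.finrank K⟮x₂⟯ E₂ ≤ n := by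
  subst h
  obtain rfl : x₁ = x₂ := Subtype.ext hx
  exact h1

theorem degBound_congr {F : Type*} [Field F] (I₁ I₂ : Algebra ℚ F) (x : F) (n : ℕ)
    (h : (letI := I₁; FiniteDimensional ℚ⟮x⟯ F ∧ Module.finrank ℚ⟮x⟯ F ≤ n)) :
    (letI := I₂; FiniteDimensional ℚ⟮x⟯ F ∧ Module.finrank ℚ⟮x⟯ F ≤ n) := by
  have : I₁ = I₂ := Subsingleton.elim _ _
  subst this
  exact h

theorem degBound_j : FiniteDimensional ℚ⟮jFull N⟯ ↥(modularFunctionFieldFull N) ∧
    Module.finrank ℚ⟮jFull N⟯ ↥(modularFunctionFieldFull N) ≤ dedekindPsi N := by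
  have hmem : jq ∈ Fermat.Agent.Lib.ModJ.FFK ℚ N := by
    rw [FFK_rat]; exact (jFull N).2
  let x₁ : Fermat.Agent.Lib.ModJ.FFK ℚ N := ⟨jq, hmem⟩
  have hx₁ : (x₁ : LaurentSeries ℚ) = coeffEmb ℚ jq := (coeffEmb_rat jq).symm
  have h := Fermat.Agent.Lib.ModJ.finrank_le_dedekindPsi N (algebraMap ℚ ℂ) x₁ hx₁
  have hx : (x₁ : LaurentSeries ℚ) = (jFull N : LaurentSeries ℚ) := rfl
  have h3 := degBound_transfer (FFK_rat N) x₁ (jFull N) hx (dedekindPsi N) ⟨h.2.1, h.2.2⟩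
  exact degBound_congr _ _ (jFull N) _ h3

theorem adjoin_inv_eq (x : ↥(modularFunctionFieldFull N)) : ℚ⟮x⁻¹⟯ = ℚ⟮x⟯ := by
  apply le_antisymm
  · rw [adjoin_simple_le_iff]
    exact inv_mem (mem_adjoin_simple_self ℚ x)
  · rw [adjoin_simple_le_iff]
    have := inv_mem (mem_adjoin_simple_self ℚ x⁻¹)
    rwa [inv_inv] at this

theorem degBound_jinv : FiniteDimensional ℚ⟮(jFull N)⁻¹⟯ ↥(modularFunctionFieldFull N) ∧
    Module.finrank ℚ⟮(jFull N)⁻¹⟯ ↥(modularFunctionFieldFull N) ≤ dedekindPsi N := by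
  rw [adjoin_inv_eq]
  exact degBound_j N

end Fermat.Agent.S28.Algebra
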