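/-
S28 (Igusa), part P2 / II.3: three abstract commutative-algebra statements (Mathlib only).

* `isIntegral_of_prime_smul_of_smul` (C2): over an integrally closed domain `R`, if `p • y` and
  `t • y` are integral with `p` prime and `p ∤ t`, then `y` is integral.
* `exists_unit_denominator` (Lemma 4): fractions `a / b` lying in `D` can be written with a
  denominator that is a unit of `D`.
* `exists_mul_isIntegral` (C1): a family `e` whose residues are independent over the residues of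
  `D ∩ K` is a `K`-basis of `F`, and every `y ∈ D` is `A`-integral up to a unit denominator.
-/
import Mathlib

open Polynomial

namespace Fermat.Agent.S28.AbsAlg

/-- abstract C2 -/
theorem isIntegral_of_prime_smul_of_smul {R F : Type*} [CommRing R] [IsDomain R]
    [IsIntegrallyClosed R] [Field F] [Algebra R F] [FaithfulSMul R F] {p t : R} (hp : Prime p)
    (ht : ¬ p ∣ t) {y : F} (h1 : IsIntegral R (p • y)) (h2 : IsIntegral R (t • y)) :
    IsIntegral R y := by
  have hp0 : p ≠ 0 := hp.ne_zero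
  have ht0 : t ≠ 0 := fun h => ht (h ▸ dvd_zero p)
  have hinj : Function.Injective (algebraMap R F) := FaithfulSMul.algebraMap_injective R F
  set P := minpoly R (p • y) with hP
  set Q := minpoly R (t • y) with hQ
  have hPm : P.Monic := minpoly.monic h1
  have heq : P.scaleRoots t = Q.scaleRoots p := by
    rw [hP, hQ, ← IsIntegrallyClosed.minpoly_smul ht0 h1, ← IsIntegrallyClosed.minpoly_smul hp0 h2,
      smul_comm]
  have hdeg : P.natDegree = Q.natDegree := by
    have := congrArg Polynomial.natDegree heq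
    simpa [natDegree_scaleRoots] using this
  set d := P.natDegree with hd
  have hdiv : ∀ i, p ^ (d - i) ∣ P.coeff i := by
    intro i
    have h := congrArg (fun f => Polynomial.coeff f i) heq
    simp only [coeff_scaleRoots] at h
    rw [← hd, ← hdeg] at h
    have hnd : ¬ p ∣ t ^ (d - i) := fun h' => ht (hp.dvd_of_dvd_pow h')
    refine hp.pow_dvd_of_dvd_mul_right (d - i) hnd ?_
    rw [h]
    exact dvd_mul_left _ _
  choose a ha using hdiv
  set P' : R[X] := X ^ d + ∑ i ∈ Finset.range d, C (a i) * X ^ i with hP'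
  have hP'm : P'.Monic := by
    apply Polynomial.monic_X_pow_add
    refine (Polynomial.degree_sum_le _ _).trans_lt ?_
    rw [Finset.sup_lt_iff (by exact WithBot.bot_lt_coe d)]
    intro i hi
    refine (Polynomial.degree_C_mul_X_pow_le _ _).trans_lt ?_
    exact_mod_cast Finset.mem_range.mp hi
  refine ⟨P', hP'm, ?_⟩
  have hroot : aeval (p • y) P = 0 := minpoly.aeval R _
  rw [hPm.as_sum] at hroot
  have key : (p ^ d) • (aeval y P') = 0 := by
    rw [← hroot, hP']
    simp only [map_add, map_pow, aeval_X, map_sum, map_mul, aeval_C, Finset.smul_sum, smul_add]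
    congr 1
    · rw [_root_.smul_pow]
    · refine Finset.sum_congr rfl fun i hi => ?_
      have hi' : i ≤ d := (Finset.mem_range.mp hi).le
      have : (algebraMap R F p) ^ d = (algebraMap R F p) ^ (d - i) * (algebraMap R F p) ^ i := by
        rw [← pow_add, Nat.sub_add_cancel hi']
      rw [ha i, _root_.smul_pow]
      simp only [Algebra.smul_def, map_mul, map_pow]
      rw [this]
      ring
  rw [Algebra.smul_def] at key
  rcases mul_eq_zero.mp key with h | h
  · exfalso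
    rw [map_pow] at h
    by_cases hd0 : d = 0
    · rw [hd0, pow_zero] at h; exact one_ne_zero h
    · have h' := (pow_eq_zero_iff hd0).mp h
      exact hp0 (hinj (h'.trans (map_zero _).symm))
  · simpa [Polynomial.aeval_def] using h

section basic

variable {F Ω : Type*} [Field F] [Field Ω]
  (D : Subring F) (ρ : D →+* Ω) (π : D)
  (hker : ∀ x : D, ρ x = 0 ↔ ∃ y : D, x = π * y)
  (huf : ∀ x : F, x ≠ 0 → ∃ (m : ℤ) (u : D), ρ u ≠ 0 ∧ x = (π : F) ^ m * (u : F))

include hker in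
theorem rho_pi : ρ π = 0 := (hker π).mpr ⟨1, (mul_one π).symm⟩

include hker in
theorem rho_pi_pow_mul {k : ℕ} (hk : 0 < k) (x : D) : ρ (π ^ k * x) = 0 := by
  obtain ⟨j, rfl⟩ : ∃ j, k = j + 1 := ⟨k - 1, by omega⟩
  rw [map_mul, map_pow, rho_pi D ρ π hker, pow_succ, mul_zero, zero_mul]

include hker huf in
/-- An element of `D` with nonzero residue is a unit of `D`. -/
theorem inv_mem_of_rho_ne_zero (hπ : (π : F) ≠ 0) {u : D} (hu : ρ u ≠ 0) : (u : F)⁻¹ ∈ D := by
  have hu0 : (u : F) ≠ 0 := by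
    intro h
    apply hu
    have : u = 0 := Subtype.ext h
    rw [this, map_zero]
  obtain ⟨m, u', hu', hm⟩ := huf (u : F)⁻¹ (inv_ne_zero hu0)
  have h1 : (u : F) * ((π : F) ^ m * (u' : F)) = 1 := by rw [← hm, mul_inv_cancel₀ hu0]
  rcases lt_trichotomy m 0 with hlt | h0 | hgt
  · exfalso
    obtain ⟨k, hk⟩ : ∃ k : ℕ, m = -(k : ℤ) := ⟨(-m).toNat, by omega⟩
    have hk0 : 0 < k := by omega
    rw [hk, zpow_neg, zpow_natCast] at h1
    have h2 : (u : F) * (u' : F) = (π : F) ^ k := by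
      field_simp at h1
      linear_combination h1
    have h3 : u * u' = π ^ k := Subtype.ext (by push_cast; exact h2)
    have h4 : ρ (u * u') = 0 := by
      have := rho_pi_pow_mul D ρ π hker hk0 1
      rwa [mul_one, ← h3] at this
    rw [map_mul] at h4
    rcases mul_eq_zero.mp h4 with h | h
    · exact hu h
    · exact hu' h
  · rw [h0, zpow_zero, one_mul] at hm
    rw [hm]; exact u'.2
  · exfalso
    obtain ⟨k, hk⟩ : ∃ k : ℕ, m = (k : ℤ) := ⟨m.toNat, by omega⟩
    have hk0 : 0 < k := by omega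
    rw [hk, zpow_natCast] at h1
    have h3 : π ^ k * (u * u') = 1 := Subtype.ext (by push_cast; linear_combination h1)
    have h4 := rho_pi_pow_mul D ρ π hker hk0 (u * u')
    rw [h3, map_one] at h4
    exact one_ne_zero h4

include hker huf in
theorem mem_or_inv_mem_of_huf (hπ : (π : F) ≠ 0) (x : F) : x ∈ D ∨ x⁻¹ ∈ D := by
  by_cases hx : x = 0
  · left; rw [hx]; exact D.zero_mem
  obtain ⟨m, u, hu, hm⟩ := huf x hx
  rcases le_total 0 m with h | h
  · left
    obtain ⟨k, hk⟩ : ∃ k : ℕ, m = (k : ℤ) := ⟨m.toNat, by omega⟩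
    rw [hm, hk, zpow_natCast]
    exact D.mul_mem (D.pow_mem π.2 k) u.2
  · right
    obtain ⟨k, hk⟩ : ∃ k : ℕ, m = -(k : ℤ) := ⟨(-m).toNat, by omega⟩
    rw [hm, hk, zpow_neg, zpow_natCast, mul_inv, inv_inv]
    exact D.mul_mem (D.pow_mem π.2 k) (inv_mem_of_rho_ne_zero D ρ π hker huf hπ hu)

include hker huf in
/-- An element outside `D` has its inverse in the kernel of `ρ`. -/
theorem exists_inv_rho_eq_zero (hπ : (π : F) ≠ 0) {x : F} (hx : x ∉ D) :
    ∃ w : D, (w : F) = x⁻¹ ∧ ρ w = 0 := by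
  have h3 : x⁻¹ ∈ D := (mem_or_inv_mem_of_huf D ρ π hker huf hπ x).resolve_left hx
  refine ⟨⟨x⁻¹, h3⟩, rfl, ?_⟩
  by_contra hne
  have := inv_mem_of_rho_ne_zero D ρ π hker huf hπ hne
  simp only [inv_inv] at this
  exact hx this

end basic

/-- abstract Lemma 4 (fractions with unit denominators) -/
theorem exists_unit_denominator
    {k₀ R₀ F Ω : Type*} [Field k₀] [CommRing R₀] [Field F] [Field Ω] [Algebra k₀ F] [Algebra R₀ F]
    (D : Subring F) (ρ : D →+* Ω) (π : D) (hπ : (π : F) ≠ 0)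
    (hker : ∀ x : D, ρ x = 0 ↔ ∃ y : D, x = π * y)
    (huf : ∀ x : F, x ≠ 0 → ∃ (m : ℤ) (u : D), ρ u ≠ 0 ∧ x = (π : F) ^ m * (u : F))
    (K : IntermediateField k₀ F)
    (A : Subalgebra R₀ F) (hAD : ∀ a ∈ A, a ∈ D)
    (hK : ∀ c ∈ K, ∃ a b : A, (b : F) ≠ 0 ∧ c * (b : F) = (a : F))
    (hG : ∀ a : A, ρ ⟨(a : F), hAD _ a.2⟩ = 0 → ∃ a' : A, (a : F) = (π : F) * (a' : F))
    (c : D) (hc : (c : F) ∈ K) :
    ∃ a b : A, ρ ⟨(b : F), hAD _ b.2⟩ ≠ 0 ∧ (c : F) * (b : F) = (a : F) := by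
  have hρπ : ρ π = 0 := rho_pi D ρ π hker
  -- the induction on the exponent of `π` in the denominator
  have key : ∀ (β : ℕ) (a b : A) (u : D), ρ u ≠ 0 → (b : F) = (π : F) ^ β * (u : F) →
      (c : F) * (b : F) = (a : F) →
      ∃ a b : A, ρ ⟨(b : F), hAD _ b.2⟩ ≠ 0 ∧ (c : F) * (b : F) = (a : F) := by
    intro β
    induction β with
    | zero =>
      intro a b u hu hb hab
      refine ⟨a, b, ?_, hab⟩
      have : (⟨(b : F), hAD _ b.2⟩ : D) = u := Subtype.ext (by rw [hb, pow_zero, one_mul])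
      rw [this]; exact hu
    | succ β ih =>
      intro a b u hu hb hab
      have hbD : (⟨(b : F), hAD _ b.2⟩ : D) = π * (π ^ β * u) :=
        Subtype.ext (by push_cast; rw [hb, pow_succ]; ring)
      have hρb : ρ ⟨(b : F), hAD _ b.2⟩ = 0 := (hker _).mpr ⟨_, hbD⟩
      obtain ⟨b', hb'⟩ := hG b hρb
      have haD : (⟨(a : F), hAD _ a.2⟩ : D) = c * ⟨(b : F), hAD _ b.2⟩ :=
        Subtype.ext (by push_cast; exact hab.symm)
      have hρa : ρ ⟨(a : F), hAD _ a.2⟩ = 0 := by rw [haD, map_mul, hρb, mul_zero]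
      obtain ⟨a', ha'⟩ := hG a hρa
      refine ih a' b' u hu ?_ ?_
      · apply mul_left_cancel₀ hπ
        rw [← hb', hb, pow_succ]; ring
      · apply mul_left_cancel₀ hπ
        rw [← ha', ← hab, hb']; ring
  obtain ⟨a, b, hb0, hab⟩ := hK (c : F) hc
  obtain ⟨m, u, hu, hm⟩ := huf (b : F) hb0
  -- the exponent is nonnegative since `b ∈ D`
  have hm0 : 0 ≤ m := by
    by_contra hneg
    push Not at hneg
    obtain ⟨k, hk⟩ : ∃ k : ℕ, m = -(k : ℤ) := ⟨(-m).toNat, by omega⟩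
    have hk0 : 0 < k := by omega
    rw [hk, zpow_neg, zpow_natCast] at hm
    have hpk : (π : F) ^ k ≠ 0 := pow_ne_zero _ hπ
    have h2 : (π : F) ^ k * (b : F) = (u : F) := by
      rw [hm]; field_simp
    have h3 : π ^ k * ⟨(b : F), hAD _ b.2⟩ = u := Subtype.ext (by push_cast; exact h2)
    apply hu
    rw [← h3]
    exact rho_pi_pow_mul D ρ π hker hk0 _
  obtain ⟨k, hk⟩ : ∃ k : ℕ, m = (k : ℤ) := ⟨m.toNat, by omega⟩
  rw [hk, zpow_natCast] at hm
  exact key k a b u hu hm hab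

/-- Normalisation: a `K`-linear combination of the `e k` lying in `D` has its coefficients
in `D`; if it vanishes, all coefficients vanish. -/
theorem coeff_mem_of_sum_eq
    {k₀ F Ω : Type*} [Field k₀] [Field F] [Field Ω] [Algebra k₀ F]
    (D : Subring F) (ρ : D →+* Ω) (π : D) (hπ : (π : F) ≠ 0)
    (hker : ∀ x : D, ρ x = 0 ↔ ∃ y : D, x = π * y)
    (huf : ∀ x : F, x ≠ 0 → ∃ (m : ℤ) (u : D), ρ u ≠ 0 ∧ x = (π : F) ^ m * (u : F))
    (K : IntermediateField k₀ F)
    (n : ℕ) (e : Fin n → D)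
    (he : ∀ g : Fin n → D, (∀ i, (g i : F) ∈ K) → ∑ i, ρ (g i) * ρ (e i) = 0 → ∀ i, ρ (g i) = 0)
    (c : Fin n → F) (hcK : ∀ k, c k ∈ K) (z : D) (hz : ∑ k, c k * (e k : F) = (z : F)) :
    (∀ k, c k ∈ D) ∧ (z = 0 → ∀ k, c k = 0) := by
  have main : ∀ k₁, (c k₁ ∉ D ∨ (z = 0 ∧ c k₁ ≠ 0)) → False := by
    intro k₁ h
    let V : ValuationSubring F :=
      { D with mem_or_inv_mem' := mem_or_inv_mem_of_huf D ρ π hker huf hπ }
    have hV : ∀ x : F, V.valuation x ≤ 1 ↔ x ∈ D := fun x => V.valuation_le_one_iff x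
    obtain ⟨k₀, -, hk₀⟩ := Finset.exists_max_image Finset.univ (fun k => V.valuation (c k))
      ⟨k₁, Finset.mem_univ _⟩
    have hck₁ : c k₁ ≠ 0 := by
      rcases h with h | h
      · intro h0; exact h (h0 ▸ D.zero_mem)
      · exact h.2
    have hvk₁ : V.valuation (c k₁) ≠ 0 := (Valuation.ne_zero_iff _).mpr hck₁
    have hvk₀ : V.valuation (c k₀) ≠ 0 :=
      ne_of_gt (lt_of_lt_of_le (zero_lt_iff.mpr hvk₁) (hk₀ k₁ (Finset.mem_univ _)))
    have hck₀ : c k₀ ≠ 0 := (Valuation.ne_zero_iff _).mp hvk₀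
    have hG : ∀ k, c k / c k₀ ∈ D := fun k => by
      rw [← hV, map_div₀]
      exact div_le_one_of_le₀ (hk₀ k (Finset.mem_univ _)) zero_le
    have hζ : ∃ ζ : D, (ζ : F) = z / c k₀ ∧ ρ ζ = 0 := by
      rcases h with h | ⟨hz0, _⟩
      · have h1 : ¬ V.valuation (c k₁) ≤ 1 := fun hle => h ((hV _).mp hle)
        have h2 : c k₀ ∉ D := fun hmem =>
          h1 ((hk₀ k₁ (Finset.mem_univ _)).trans ((hV _).mpr hmem))
        obtain ⟨w, hw1, hw2⟩ := exists_inv_rho_eq_zero D ρ π hker huf hπ h2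
        exact ⟨z * w, by push_cast; rw [hw1, div_eq_mul_inv], by rw [map_mul, hw2, mul_zero]⟩
      · exact ⟨0, by rw [hz0]; simp, map_zero ρ⟩
    obtain ⟨ζ, hζ1, hζ2⟩ := hζ
    have hsum : ∑ k, (⟨c k / c k₀, hG k⟩ : D) * e k = ζ := by
      apply Subtype.ext
      push_cast
      rw [hζ1, ← hz, Finset.sum_div]
      refine Finset.sum_congr rfl fun k _ => ?_
      field_simp
    have h0 := he (fun k => ⟨c k / c k₀, hG k⟩) (fun k => K.div_mem (hcK k) (hcK k₀))
      (by simp only [← map_mul, ← map_sum]; rw [hsum, hζ2]) k₀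
    have h1 : (⟨c k₀ / c k₀, hG k₀⟩ : D) = 1 := Subtype.ext (div_self hck₀)
    simp only [h1, map_one] at h0
    exact one_ne_zero h0
  constructor
  · intro k
    by_contra hk
    exact main k (Or.inl hk)
  · intro hz0 k
    by_contra hk
    exact main k (Or.inr ⟨hz0, hk⟩)

/-- abstract C1 -/
theorem exists_mul_isIntegral
    {k₀ R₀ F Ω : Type*} [Field k₀] [CommRing R₀] [Field F] [Field Ω] [Algebra k₀ F] [Algebra R₀ F]
    (D : Subring F) (ρ : D →+* Ω) (π : D) (hπ : (π : F) ≠ 0)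
    (hker : ∀ x : D, ρ x = 0 ↔ ∃ y : D, x = π * y)
    (huf : ∀ x : F, x ≠ 0 → ∃ (m : ℤ) (u : D), ρ u ≠ 0 ∧ x = (π : F) ^ m * (u : F))
    (K : IntermediateField k₀ F) [FiniteDimensional K F]
    (A : Subalgebra R₀ F) (hAD : ∀ a ∈ A, a ∈ D)
    (hA : ∀ c : D, (c : F) ∈ K →
      ∃ a b : A, ρ ⟨(b : F), hAD _ b.2⟩ ≠ 0 ∧ (c : F) * (b : F) = (a : F))
    (n : ℕ) (hn : Module.finrank K F ≤ n) (e : Fin n → D)
    (he : ∀ g : Fin n → D, (∀ i, (g i : F) ∈ K) → ∑ i, ρ (g i) * ρ (e i) = 0 → ∀ i, ρ (g i) = 0)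
    (y : D) :
    ∃ t : A, ρ ⟨(t : F), hAD _ t.2⟩ ≠ 0 ∧ IsIntegral A ((t : F) * (y : F)) := by
  classical
  -- (i) `e` is `K`-linearly independent, hence a basis
  have hli : LinearIndependent K (fun i => (e i : F)) := by
    rw [Fintype.linearIndependent_iff]
    intro g hg i
    have h := (coeff_mem_of_sum_eq D ρ π hπ hker huf K n e he (fun k => (g k : F))
      (fun k => (g k).2) 0 (by
        rw [ZeroMemClass.coe_zero, ← hg]
        exact Finset.sum_congr rfl fun k _ => rfl)).2 rfl i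
    exact Subtype.ext h
  have hcard : Fintype.card (Fin n) = Module.finrank K F := by
    have := hli.fintype_card_le_finrank
    rw [Fintype.card_fin] at this ⊢
    omega
  have hspan : Submodule.span K (Set.range (fun i => (e i : F))) = ⊤ :=
    hli.span_eq_top_of_card_eq_finrank' hcard
  have hn0 : 0 < n := by
    have : 0 < Module.finrank K F := Module.finrank_pos
    omega
  -- (ii) the structure constants of multiplication by `y` lie in `D ∩ K`
  have hc : ∀ i, ∃ c : Fin n → F, (∀ k, c k ∈ K) ∧ (∀ k, c k ∈ D) ∧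
      ∑ k, c k * (e k : F) = (y : F) * (e i : F) := by
    intro i
    have hmem : (y : F) * (e i : F) ∈ Submodule.span K (Set.range (fun i => (e i : F))) := by
      rw [hspan]; trivial
    obtain ⟨g, hg⟩ := (Submodule.mem_span_range_iff_exists_fun K).mp hmem
    have hg' : ∑ k, (g k : F) * (e k : F) = (y : F) * (e i : F) := by
      rw [← hg]
      exact Finset.sum_congr rfl fun k _ => rfl
    refine ⟨fun k => (g k : F), fun k => (g k).2, ?_, hg'⟩
    exact (coeff_mem_of_sum_eq D ρ π hπ hker huf K n e he (fun k => (g k : F))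
      (fun k => (g k).2) (y * e i) (by rw [hg']; rfl)).1
  choose c hcK hcD hcsum using hc
  -- (iii) clear denominators
  have hab : ∀ p : Fin n × Fin n, ∃ a b : A, ρ ⟨(b : F), hAD _ b.2⟩ ≠ 0 ∧
      c p.1 p.2 * (b : F) = (a : F) := fun p => hA ⟨c p.1 p.2, hcD _ _⟩ (hcK _ _)
  choose a b hb hab using hab
  let ι : A →+* D := (A.val : A →+* F).codRestrict D (fun x => hAD _ x.2)
  have hι : ∀ x : A, (⟨(x : F), hAD _ x.2⟩ : D) = ι x := fun x => rfl
  let t : A := ∏ p, b p
  have ht : ρ ⟨(t : F), hAD _ t.2⟩ ≠ 0 := by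
    rw [hι, ← RingHom.comp_apply, map_prod]
    refine Finset.prod_ne_zero_iff.mpr fun p _ => ?_
    rw [RingHom.comp_apply, ← hι]
    exact hb p
  have hs : ∀ i k, ∃ s : A, (s : F) = (t : F) * c i k := by
    intro i k
    refine ⟨a (i, k) * ∏ p ∈ Finset.univ.erase (i, k), b p, ?_⟩
    have h1 : t = b (i, k) * ∏ p ∈ Finset.univ.erase (i, k), b p :=
      (Finset.mul_prod_erase Finset.univ b (Finset.mem_univ _)).symm
    rw [h1]
    push_cast
    rw [← hab (i, k)]
    ring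
  choose s hs using hs
  refine ⟨t, ht, ?_⟩
  let N : Submodule A F := Submodule.span A (Set.range (fun k => (e k : F)))
  have hN0 : N ≠ ⊥ := by
    intro h
    have h1 : (e ⟨0, hn0⟩ : F) ∈ N := Submodule.subset_span ⟨_, rfl⟩
    rw [h, Submodule.mem_bot] at h1
    exact hli.ne_zero ⟨0, hn0⟩ h1
  have hNfg : N.FG := Submodule.fg_span (Set.finite_range _)
  refine isIntegral_of_smul_mem_submodule N hN0 hNfg _ ?_
  intro m hm
  induction hm using Submodule.span_induction with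
  | mem x hx =>
    obtain ⟨i, rfl⟩ := hx
    have : ((t : F) * (y : F)) • (e i : F) = ∑ k, s i k • (e k : F) := by
      rw [smul_eq_mul, mul_assoc, ← hcsum i, Finset.mul_sum]
      refine Finset.sum_congr rfl fun k _ => ?_
      rw [Subalgebra.smul_def, smul_eq_mul, hs i k, mul_assoc]
    rw [this]
    exact Submodule.sum_mem _ fun k _ => Submodule.smul_mem _ _ (Submodule.subset_span ⟨k, rfl⟩)
  | zero => rw [smul_zero]; exact N.zero_mem
  | add x z _ _ hx hz => rw [smul_add]; exact N.add_mem hx hz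
  | smul r x _ hx =>
    rw [smul_comm]
    exact N.smul_mem r hx

/-- abstract II.3 (C1 + C2): if `π • y` is `A`-integral for `y ∈ D`, then so is `y`. -/
theorem isIntegral_of_pi_mul_isIntegral
    {k₀ R₀ F Ω : Type*} [Field k₀] [CommRing R₀] [Field F] [Field Ω] [Algebra k₀ F] [Algebra R₀ F]
    (D : Subring F) (ρ : D →+* Ω) (π : D) (hπ : (π : F) ≠ 0)
    (hker : ∀ x : D, ρ x = 0 ↔ ∃ y : D, x = π * y)
    (huf : ∀ x : F, x ≠ 0 → ∃ (m : ℤ) (u : D), ρ u ≠ 0 ∧ x = (π : F) ^ m * (u : F))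
    (K : IntermediateField k₀ F) [FiniteDimensional K F]
    (A : Subalgebra R₀ F) [IsIntegrallyClosed A] (hAD : ∀ a ∈ A, a ∈ D)
    (hA : ∀ c : D, (c : F) ∈ K →
      ∃ a b : A, ρ ⟨(b : F), hAD _ b.2⟩ ≠ 0 ∧ (c : F) * (b : F) = (a : F))
    (n : ℕ) (hn : Module.finrank K F ≤ n) (e : Fin n → D)
    (he : ∀ g : Fin n → D, (∀ i, (g i : F) ∈ K) → ∑ i, ρ (g i) * ρ (e i) = 0 → ∀ i, ρ (g i) = 0)
    (p : A) (hp : Prime p) (hpπ : (p : F) = (π : F))
    (y : D) (hy : IsIntegral A ((π : F) * (y : F))) : IsIntegral A (y : F) := by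
  obtain ⟨t, ht, hty⟩ := exists_mul_isIntegral D ρ π hπ hker huf K A hAD hA n hn e he y
  have hpt : ¬ p ∣ t := by
    rintro ⟨t', rfl⟩
    apply ht
    have : (⟨((p * t' : A) : F), hAD _ (p * t').2⟩ : D) = π * ⟨(t' : F), hAD _ t'.2⟩ :=
      Subtype.ext (by push_cast; rw [hpπ])
    rw [this, map_mul, rho_pi D ρ π hker, zero_mul]
  refine isIntegral_of_prime_smul_of_smul (R := A) hp hpt ?_ ?_
  · rw [Subalgebra.smul_def, smul_eq_mul, hpπ]; exact hy
  · rw [Subalgebra.smul_def, smul_eq_mul]; exact hty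

end Fermat.Agent.S28.AbsAlg
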