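import Mathlib
import Fermat.Prelude.Def_ModularCurve_IgusaScheme
import Fermat.Prelude.Def_ModularCurve_X0ModL

/-!
# S28 (Igusa), algebra part: the Gauss valuation ring of `ℚ((q))` at `ℓ`

* `resZ ℓ : ℤ_(ℓ) →+* ZMod ℓ`, kernel `= (ℓ)`;
* `eps ℓ : ℤ_(ℓ)((q)) →+* ℚ((q))` (injective), `redL ℓ : ℤ_(ℓ)((q)) →+* 𝔽_ℓ((q))`, kernel `= (ℓ)`;
* `gaussRing ℓ : Subring ℚ((q))`, the elements `P / Q` with `P, Q` integral and `Q̄ ≠ 0`;
* `rho ℓ : gaussRing ℓ →+* 𝔽_ℓ((q))`, `P / Q ↦ P̄ / Q̄`, kernel `= (ℓ)`.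
-/

set_option autoImplicit false
set_option linter.unusedSectionVars false

noncomputable section

namespace Fermat.Agent.S28.Algebra

open ModularCurve

variable (ℓ : ℕ) [Fact ℓ.Prime]

/-- `ℤ_(ℓ)` -/
abbrev Zl (ℓ : ℕ) : Type := ↥(GaloisRep.ratLocalizedAt ℓ)

theorem den_ne_zero_of_mem {q : ℚ} (hq : q ∈ GaloisRep.ratLocalizedAt ℓ) :
    ((q.den : ℕ) : ZMod ℓ) ≠ 0 := by
  have hp : ℓ.Prime := Fact.out
  intro h
  rw [ZMod.natCast_eq_zero_iff] at h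
  have hc : q.den.Coprime ℓ := hq
  have := Nat.Coprime.eq_one_of_dvd hc.symm h
  exact hp.one_lt.ne' this

/-- the residue map `ℤ_(ℓ) → 𝔽_ℓ` -/
def resZ : Zl ℓ →+* ZMod ℓ where
  toFun q := ((q : ℚ) : ZMod ℓ)
  map_one' := by simp
  map_zero' := by simp
  map_add' a b := by
    show (((a + b : Zl ℓ) : ℚ) : ZMod ℓ) = _
    rw [Subring.coe_add]
    exact Rat.cast_add_of_ne_zero (den_ne_zero_of_mem ℓ a.2) (den_ne_zero_of_mem ℓ b.2)
  map_mul' a b := by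
    show (((a * b : Zl ℓ) : ℚ) : ZMod ℓ) = _
    rw [Subring.coe_mul]
    exact Rat.cast_mul_of_ne_zero (den_ne_zero_of_mem ℓ a.2) (den_ne_zero_of_mem ℓ b.2)

theorem resZ_apply (q : Zl ℓ) : resZ ℓ q = ((q : ℚ) : ZMod ℓ) := rfl

/-- the element `ℓ` of `ℤ_(ℓ)` -/
def ellZ : Zl ℓ := (ℓ : Zl ℓ)

theorem coe_natCast (n : ℕ) : (((n : Zl ℓ) : Zl ℓ) : ℚ) = n := by
  simp

theorem resZ_eq_zero_iff (q : Zl ℓ) : resZ ℓ q = 0 ↔ ∃ q' : Zl ℓ, q = (ℓ : Zl ℓ) * q' := by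
  have hp : ℓ.Prime := Fact.out
  constructor
  · intro h
    rw [resZ_apply, Rat.cast_def, div_eq_zero_iff] at h
    rcases h with h | h
    · have hdvd : (ℓ : ℤ) ∣ (q : ℚ).num := by
        rw [← ZMod.intCast_zmod_eq_zero_iff_dvd]
        exact_mod_cast h
      obtain ⟨m, hm⟩ := hdvd
      have hmem : (m : ℚ) / ((q : ℚ).den : ℚ) ∈ GaloisRep.ratLocalizedAt ℓ := by
        show ((m : ℚ) / ((q : ℚ).den : ℚ)).den.Coprime ℓ
        have h1 : ((m : ℚ) / ((q : ℚ).den : ℚ)) = Rat.divInt m ((q : ℚ).den : ℤ) := by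
          rw [Rat.divInt_eq_div]; norm_cast
        rw [h1]
        have h2 : ((Rat.divInt m ((q : ℚ).den : ℤ)).den : ℤ) ∣ ((q : ℚ).den : ℤ) := Rat.den_dvd _ _
        have h3 : (Rat.divInt m ((q : ℚ).den : ℤ)).den ∣ (q : ℚ).den := by exact_mod_cast h2
        exact Nat.Coprime.coprime_dvd_left h3 q.2
      refine ⟨⟨_, hmem⟩, Subtype.ext ?_⟩
      rw [Subring.coe_mul, coe_natCast]
      have hq : (q : ℚ) = ((q : ℚ).num : ℚ) / ((q : ℚ).den : ℚ) := (Rat.num_div_den _).symm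
      have hden : (((q : ℚ).den : ℚ)) ≠ 0 := by exact_mod_cast (q : ℚ).den_nz
      show (q : ℚ) = (ℓ : ℚ) * ((m : ℚ) / ((q : ℚ).den : ℚ))
      conv_lhs => rw [hq, hm]
      push_cast
      ring
    · exact absurd h (den_ne_zero_of_mem ℓ q.2)
  · rintro ⟨q', rfl⟩
    rw [map_mul, map_natCast, ZMod.natCast_self, zero_mul]


theorem padicValRat_nonneg (q : Zl ℓ) : 0 ≤ padicValRat ℓ (q : ℚ) := by
  have hp : ℓ.Prime := Fact.out
  rw [padicValRat_def]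
  have h1 : padicValNat ℓ (q : ℚ).den = 0 := by
    apply padicValNat.eq_zero_of_not_dvd
    intro h
    have hc : (q : ℚ).den.Coprime ℓ := q.2
    exact hp.one_lt.ne' (Nat.Coprime.eq_one_of_dvd hc.symm h)
  rw [h1]
  simp

/-! ### Laurent series over `ℤ_(ℓ)` -/

/-- the inclusion `ℤ_(ℓ)((q)) → ℚ((q))` -/
def eps : LaurentSeries (Zl ℓ) →+* LaurentSeries ℚ :=
  coeffMap (GaloisRep.ratLocalizedAt ℓ).subtype

/-- the reduction `ℤ_(ℓ)((q)) → 𝔽_ℓ((q))` -/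
def redL : LaurentSeries (Zl ℓ) →+* LaurentSeries (ZMod ℓ) :=
  coeffMap (resZ ℓ)

@[simp] theorem eps_coeff (P : LaurentSeries (Zl ℓ)) (k : ℤ) :
    (eps ℓ P).coeff k = ((P.coeff k : Zl ℓ) : ℚ) := rfl

@[simp] theorem redL_coeff (P : LaurentSeries (Zl ℓ)) (k : ℤ) :
    (redL ℓ P).coeff k = resZ ℓ (P.coeff k) := rfl

theorem eps_injective : Function.Injective (eps ℓ) := by
  intro P Q h
  apply HahnSeries.ext
  funext k
  have := congrArg (fun x => x.coeff k) h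
  simp only [eps_coeff] at this
  exact Subtype.ext this

theorem eps_eq_zero_iff (P : LaurentSeries (Zl ℓ)) : eps ℓ P = 0 ↔ P = 0 := by
  rw [← (eps ℓ).map_zero]
  exact (eps_injective ℓ).eq_iff

/-- division by `ℓ` on `ℤ_(ℓ)` (junk value `0` outside `ℓ ℤ_(ℓ)`) -/
def divEll (q : Zl ℓ) : Zl ℓ :=
  if h : resZ ℓ q = 0 then Classical.choose ((resZ_eq_zero_iff ℓ q).1 h) else 0

theorem ell_ne_zero : ((ℓ : Zl ℓ)) ≠ 0 := by
  have hp : ℓ.Prime := Fact.out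
  intro h
  have := congrArg (fun x : Zl ℓ => (x : ℚ)) h
  simp only [coe_natCast, ZeroMemClass.coe_zero] at this
  exact hp.ne_zero (by exact_mod_cast this)

theorem mul_divEll {q : Zl ℓ} (h : resZ ℓ q = 0) : (ℓ : Zl ℓ) * divEll ℓ q = q := by
  rw [divEll, dif_pos h]
  exact (Classical.choose_spec ((resZ_eq_zero_iff ℓ q).1 h)).symm

theorem divEll_zero : divEll ℓ 0 = 0 := by
  have h := mul_divEll ℓ (q := 0) (map_zero _)
  exact (mul_eq_zero.mp h).resolve_left (ell_ne_zero ℓ)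

/-- division by `ℓ` on Laurent series -/
def divEllL (P : LaurentSeries (Zl ℓ)) : LaurentSeries (Zl ℓ) :=
  P.map (⟨divEll ℓ, divEll_zero ℓ⟩ : ZeroHom (Zl ℓ) (Zl ℓ))

theorem redL_eq_zero_iff (P : LaurentSeries (Zl ℓ)) :
    redL ℓ P = 0 ↔ ∃ P' : LaurentSeries (Zl ℓ), P = HahnSeries.C (ℓ : Zl ℓ) * P' := by
  constructor
  · intro h
    refine ⟨divEllL ℓ P, ?_⟩
    apply HahnSeries.ext
    funext k
    rw [HahnSeries.C_mul_eq_smul, HahnSeries.coeff_smul, smul_eq_mul]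
    have hk : resZ ℓ (P.coeff k) = 0 := by
      have := congrArg (fun x => x.coeff k) h
      simpa using this
    show P.coeff k = (ℓ : Zl ℓ) * divEll ℓ (P.coeff k)
    rw [mul_divEll ℓ hk]
  · rintro ⟨P', rfl⟩
    apply HahnSeries.ext
    funext k
    rw [HahnSeries.C_mul_eq_smul]
    simp only [redL_coeff, HahnSeries.coeff_smul, smul_eq_mul, map_mul, map_natCast,
      ZMod.natCast_self, zero_mul, HahnSeries.coeff_zero]

/-- the constant `ℓ` as a Laurent series over `ℤ_(ℓ)` -/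
abbrev ellL : LaurentSeries (Zl ℓ) := HahnSeries.C (ℓ : Zl ℓ)

theorem ellL_ne_zero : ellL ℓ ≠ 0 := by
  intro h
  have := congrArg (fun x => x.coeff 0) h
  have h2 : (ellL ℓ).coeff 0 = (ℓ : Zl ℓ) := HahnSeries.coeff_single_same 0 _
  rw [h2] at this
  exact ell_ne_zero ℓ this

theorem redL_ellL : redL ℓ (ellL ℓ) = 0 :=
  (redL_eq_zero_iff ℓ _).2 ⟨1, (mul_one _).symm⟩

/-- **normal form**: a nonzero integral series is `ℓ^a · P₀` with `P̄₀ ≠ 0`. -/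
theorem exists_normal_form (P : LaurentSeries (Zl ℓ)) (hP : P ≠ 0) :
    ∃ (a : ℕ) (P₀ : LaurentSeries (Zl ℓ)), P = ellL ℓ ^ a * P₀ ∧ redL ℓ P₀ ≠ 0 := by
  have hp : ℓ.Prime := Fact.out
  obtain ⟨k, hk⟩ : ∃ k, P.coeff k ≠ 0 := by
    by_contra hall
    push Not at hall
    exact hP (HahnSeries.ext (funext hall))
  have key : ∀ n : ℕ, ∀ P : LaurentSeries (Zl ℓ), P.coeff k ≠ 0 →
      padicValRat ℓ ((P.coeff k : Zl ℓ) : ℚ) = n →
      ∃ (a : ℕ) (P₀ : LaurentSeries (Zl ℓ)), P = ellL ℓ ^ a * P₀ ∧ redL ℓ P₀ ≠ 0 := by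
    intro n
    induction n with
    | zero =>
      intro P hk hv
      refine ⟨0, P, by rw [pow_zero, one_mul], ?_⟩
      intro h0
      obtain ⟨P', hP'⟩ := (redL_eq_zero_iff ℓ P).1 h0
      have hc : P.coeff k = (ℓ : Zl ℓ) * P'.coeff k := by
        rw [hP', HahnSeries.C_mul_eq_smul, HahnSeries.coeff_smul, smul_eq_mul]
      have hne : P'.coeff k ≠ 0 := by
        intro h; rw [hc, h, mul_zero] at hk; exact hk rfl
      have hneq : ((P'.coeff k : Zl ℓ) : ℚ) ≠ 0 := fun h => hne (Subtype.ext h)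
      have hlq : ((ℓ : ℕ) : ℚ) ≠ 0 := by exact_mod_cast hp.ne_zero
      rw [hc, Subring.coe_mul, coe_natCast, padicValRat.mul hlq hneq, padicValRat.self hp.one_lt]
        at hv
      have := padicValRat_nonneg ℓ (P'.coeff k)
      omega
    | succ n ih =>
      intro P hk hv
      by_cases h0 : redL ℓ P = 0
      · obtain ⟨P', hP'⟩ := (redL_eq_zero_iff ℓ P).1 h0
        have hc : P.coeff k = (ℓ : Zl ℓ) * P'.coeff k := by
          rw [hP', HahnSeries.C_mul_eq_smul, HahnSeries.coeff_smul, smul_eq_mul]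
        have hne : P'.coeff k ≠ 0 := by
          intro h; rw [hc, h, mul_zero] at hk; exact hk rfl
        have hneq : ((P'.coeff k : Zl ℓ) : ℚ) ≠ 0 := fun h => hne (Subtype.ext h)
        have hlq : ((ℓ : ℕ) : ℚ) ≠ 0 := by exact_mod_cast hp.ne_zero
        rw [hc, Subring.coe_mul, coe_natCast, padicValRat.mul hlq hneq,
          padicValRat.self hp.one_lt] at hv
        have hv' : padicValRat ℓ ((P'.coeff k : Zl ℓ) : ℚ) = n := by
          push_cast at hv; omega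
        obtain ⟨a, P₀, h1, h2⟩ := ih P' hne hv'
        refine ⟨a + 1, P₀, ?_, h2⟩
        rw [hP', h1, pow_succ]
        ring
      · exact ⟨0, P, by rw [pow_zero, one_mul], h0⟩
  have hnn := padicValRat_nonneg ℓ (P.coeff k)
  obtain ⟨n, hn⟩ := Int.eq_ofNat_of_zero_le hnn
  exact key n P hk hn


/-! ### The Gauss valuation ring and its residue map -/

theorem redL_one_ne_zero : redL ℓ 1 ≠ 0 := by
  rw [map_one]; exact one_ne_zero

/-- the Gauss valuation ring: `P / Q` with `P, Q` integral, `Q̄ ≠ 0` -/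
def gaussRing : Subring (LaurentSeries ℚ) where
  carrier := {x | ∃ P Q : LaurentSeries (Zl ℓ), redL ℓ Q ≠ 0 ∧ x * eps ℓ Q = eps ℓ P}
  mul_mem' := by
    rintro x y ⟨P, Q, hQ, h⟩ ⟨P', Q', hQ', h'⟩
    refine ⟨P * P', Q * Q', ?_, ?_⟩
    · rw [map_mul]; exact mul_ne_zero hQ hQ'
    · rw [map_mul, map_mul, ← h, ← h']; ring
  one_mem' := ⟨1, 1, redL_one_ne_zero ℓ, by simp⟩
  add_mem' := by
    rintro x y ⟨P, Q, hQ, h⟩ ⟨P', Q', hQ', h'⟩
    refine ⟨P * Q' + P' * Q, Q * Q', ?_, ?_⟩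
    · rw [map_mul]; exact mul_ne_zero hQ hQ'
    · rw [map_mul, map_add, map_mul, map_mul, ← h, ← h']; ring
  zero_mem' := ⟨0, 1, redL_one_ne_zero ℓ, by simp⟩
  neg_mem' := by
    rintro x ⟨P, Q, hQ, h⟩
    exact ⟨-P, Q, hQ, by rw [map_neg, ← h]; ring⟩

theorem mem_gaussRing_iff {x : LaurentSeries ℚ} :
    x ∈ gaussRing ℓ ↔
      ∃ P Q : LaurentSeries (Zl ℓ), redL ℓ Q ≠ 0 ∧ x * eps ℓ Q = eps ℓ P := Iff.rfl

theorem eps_mem_gaussRing (P : LaurentSeries (Zl ℓ)) : eps ℓ P ∈ gaussRing ℓ :=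
  ⟨P, 1, redL_one_ne_zero ℓ, by simp⟩

theorem eps_ne_zero_of_redL {Q : LaurentSeries (Zl ℓ)} (hQ : redL ℓ Q ≠ 0) : eps ℓ Q ≠ 0 := by
  intro h
  rw [eps_eq_zero_iff] at h
  exact hQ (by rw [h, map_zero])

/-- numerator / denominator chosen for an element of the Gauss ring -/
def rhoFun (x : gaussRing ℓ) : LaurentSeries (ZMod ℓ) :=
  redL ℓ (Classical.choose x.2) / redL ℓ (Classical.choose (Classical.choose_spec x.2))

theorem rhoFun_eq (x : gaussRing ℓ) {P Q : LaurentSeries (Zl ℓ)} (hQ : redL ℓ Q ≠ 0)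
    (h : (x : LaurentSeries ℚ) * eps ℓ Q = eps ℓ P) : rhoFun ℓ x = redL ℓ P / redL ℓ Q := by
  obtain ⟨hQ', h'⟩ := Classical.choose_spec (Classical.choose_spec x.2)
  set P' := Classical.choose x.2
  set Q' := Classical.choose (Classical.choose_spec x.2)
  have key : P' * Q = P * Q' := by
    apply eps_injective ℓ
    rw [map_mul, map_mul, ← h, ← h']
    ring
  have key2 := congrArg (redL ℓ) key
  rw [map_mul, map_mul] at key2
  rw [rhoFun, div_eq_div_iff hQ' hQ]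
  exact key2

/-- the residue map of the Gauss valuation ring -/
def rho : gaussRing ℓ →+* LaurentSeries (ZMod ℓ) where
  toFun := rhoFun ℓ
  map_one' := by
    rw [rhoFun_eq ℓ 1 (P := 1) (Q := 1) (redL_one_ne_zero ℓ) (by simp), map_one, div_one]
  map_zero' := by
    rw [rhoFun_eq ℓ 0 (P := 0) (Q := 1) (redL_one_ne_zero ℓ) (by simp), map_zero, zero_div]
  map_mul' := by
    rintro ⟨x, P, Q, hQ, h⟩ ⟨y, P', Q', hQ', h'⟩
    rw [rhoFun_eq ℓ ⟨x, P, Q, hQ, h⟩ hQ h, rhoFun_eq ℓ ⟨y, P', Q', hQ', h'⟩ hQ' h',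
      rhoFun_eq ℓ _ (P := P * P') (Q := Q * Q') (by rw [map_mul]; exact mul_ne_zero hQ hQ')
        (by
          show x * y * eps ℓ (Q * Q') = eps ℓ (P * P')
          rw [map_mul, map_mul, ← h, ← h']; ring),
      map_mul, map_mul, div_mul_div_comm]
  map_add' := by
    rintro ⟨x, P, Q, hQ, h⟩ ⟨y, P', Q', hQ', h'⟩
    rw [rhoFun_eq ℓ ⟨x, P, Q, hQ, h⟩ hQ h, rhoFun_eq ℓ ⟨y, P', Q', hQ', h'⟩ hQ' h',
      rhoFun_eq ℓ _ (P := P * Q' + P' * Q) (Q := Q * Q')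
        (by rw [map_mul]; exact mul_ne_zero hQ hQ')
        (by
          show (x + y) * eps ℓ (Q * Q') = eps ℓ (P * Q' + P' * Q)
          rw [map_mul, map_add, map_mul, map_mul, ← h, ← h']; ring),
      map_mul, map_add, map_mul, map_mul, div_add_div _ _ hQ hQ']
    congr 1
    ring

theorem rho_eq (x : gaussRing ℓ) {P Q : LaurentSeries (Zl ℓ)} (hQ : redL ℓ Q ≠ 0)
    (h : (x : LaurentSeries ℚ) * eps ℓ Q = eps ℓ P) : rho ℓ x = redL ℓ P / redL ℓ Q :=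
  rhoFun_eq ℓ x hQ h

theorem rho_eps (P : LaurentSeries (Zl ℓ)) : rho ℓ ⟨eps ℓ P, eps_mem_gaussRing ℓ P⟩ = redL ℓ P := by
  rw [rho_eq ℓ _ (P := P) (Q := 1) (redL_one_ne_zero ℓ) (by simp), map_one, div_one]

/-- the constant `ℓ` in `ℚ((q))` -/
theorem eps_ellL : eps ℓ (ellL ℓ) = (ℓ : LaurentSeries ℚ) := by
  have h1 : ((ℓ : ℕ) : LaurentSeries ℚ) = HahnSeries.C ((ℓ : ℕ) : ℚ) := by
    rw [map_natCast]
  rw [h1]
  apply HahnSeries.ext
  funext k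
  rw [eps_coeff]
  show (((HahnSeries.single 0 (ℓ : Zl ℓ)).coeff k : Zl ℓ) : ℚ)
    = (HahnSeries.single 0 ((ℓ : ℕ) : ℚ)).coeff k
  by_cases hk : k = 0
  · subst hk
    rw [HahnSeries.coeff_single_same, HahnSeries.coeff_single_same, coe_natCast]
  · rw [HahnSeries.coeff_single_of_ne hk, HahnSeries.coeff_single_of_ne hk]
    rfl

theorem natCast_mem_gaussRing : ((ℓ : ℕ) : LaurentSeries ℚ) ∈ gaussRing ℓ := by
  rw [← eps_ellL]; exact eps_mem_gaussRing ℓ _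

theorem rho_natCast_self : rho ℓ (ℓ : gaussRing ℓ) = 0 := by
  rw [map_natCast]
  have : ((ℓ : ℕ) : LaurentSeries (ZMod ℓ)) = HahnSeries.C ((ℓ : ℕ) : ZMod ℓ) := by
    rw [map_natCast]
  rw [this, ZMod.natCast_self, map_zero]

/-- **kernel of `ρ`**: the ideal generated by `ℓ`. -/
theorem rho_eq_zero_iff (x : gaussRing ℓ) :
    rho ℓ x = 0 ↔ ∃ y : gaussRing ℓ, x = (ℓ : gaussRing ℓ) * y := by
  constructor
  · intro h0
    obtain ⟨P, Q, hQ, h⟩ := x.2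
    rw [rho_eq ℓ x hQ h, div_eq_zero_iff] at h0
    have hP : redL ℓ P = 0 := h0.resolve_right hQ
    obtain ⟨P', hP'⟩ := (redL_eq_zero_iff ℓ P).1 hP
    have hQ0 : eps ℓ Q ≠ 0 := eps_ne_zero_of_redL ℓ hQ
    have hy : eps ℓ P' / eps ℓ Q ∈ gaussRing ℓ := ⟨P', Q, hQ, by field_simp⟩
    refine ⟨⟨_, hy⟩, Subtype.ext ?_⟩
    show (x : LaurentSeries ℚ) = ((ℓ : gaussRing ℓ) : LaurentSeries ℚ) * (eps ℓ P' / eps ℓ Q)
    have hx : (x : LaurentSeries ℚ) = eps ℓ P / eps ℓ Q := by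
      field_simp; exact h
    rw [hx, hP', map_mul, eps_ellL]
    push_cast
    ring
  · rintro ⟨y, rfl⟩
    rw [map_mul, rho_natCast_self, zero_mul]

end Fermat.Agent.S28.Algebra
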