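import Mathlib
import Fermat.Agent.S28.Red

/-!
# S28 (Igusa), algebra part II.1–II.2: the Gauss valuation ring is a valuation ring of its
fraction field, it is integrally closed there, and the function field of `X₀(N)` lies in it.
-/

set_option autoImplicit false
set_option linter.unusedSectionVars false

noncomputable section

namespace Fermat.Agent.S28.Algebra

open ModularCurve

variable (ℓ : ℕ) [Fact ℓ.Prime]

/-- the fraction field of `ℤ_(ℓ)((q))` inside `ℚ((q))`, as a subfield -/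
def fracSubfield : Subfield (LaurentSeries ℚ) where
  carrier := {x | ∃ P Q : LaurentSeries (Zl ℓ), Q ≠ 0 ∧ x * eps ℓ Q = eps ℓ P}
  mul_mem' := by
    rintro x y ⟨P, Q, hQ, h⟩ ⟨P', Q', hQ', h'⟩
    refine ⟨P * P', Q * Q', mul_ne_zero hQ hQ', ?_⟩
    rw [map_mul, map_mul, ← h, ← h']; ring
  one_mem' := ⟨1, 1, one_ne_zero, by simp⟩
  add_mem' := by
    rintro x y ⟨P, Q, hQ, h⟩ ⟨P', Q', hQ', h'⟩
    refine ⟨P * Q' + P' * Q, Q * Q', mul_ne_zero hQ hQ', ?_⟩
    rw [map_mul, map_add, map_mul, map_mul, ← h, ← h']; ring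
  zero_mem' := ⟨0, 1, one_ne_zero, by simp⟩
  neg_mem' := by
    rintro x ⟨P, Q, hQ, h⟩
    exact ⟨-P, Q, hQ, by rw [map_neg, ← h]; ring⟩
  inv_mem' := by
    rintro x ⟨P, Q, hQ, h⟩
    by_cases hx : x = 0
    · subst hx
      exact ⟨0, 1, one_ne_zero, by simp⟩
    · have hQ0 : eps ℓ Q ≠ 0 := fun h0 => hQ ((eps_eq_zero_iff ℓ Q).1 h0)
      have hP : P ≠ 0 := by
        rintro rfl
        rw [map_zero] at h
        rcases mul_eq_zero.mp h with h1 | h1
        · exact hx h1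
        · exact hQ0 h1
      refine ⟨Q, P, hP, ?_⟩
      rw [← h]
      field_simp

/-- the fraction field of `ℤ_(ℓ)((q))` inside `ℚ((q))` -/
def fracField : IntermediateField ℚ (LaurentSeries ℚ) :=
  (fracSubfield ℓ).toIntermediateField (fun x => by
    rw [eq_ratCast]
    exact SubfieldClass.ratCast_mem _ x)

theorem mem_fracField_iff {x : LaurentSeries ℚ} :
    x ∈ fracField ℓ ↔ ∃ P Q : LaurentSeries (Zl ℓ), Q ≠ 0 ∧ x * eps ℓ Q = eps ℓ P := Iff.rfl

theorem eps_mem_fracField (P : LaurentSeries (Zl ℓ)) : eps ℓ P ∈ fracField ℓ :=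
  ⟨P, 1, one_ne_zero, by simp⟩

theorem gaussRing_le_fracField {x : LaurentSeries ℚ} (hx : x ∈ gaussRing ℓ) : x ∈ fracField ℓ := by
  obtain ⟨P, Q, hQ, h⟩ := hx
  exact ⟨P, Q, fun h0 => hQ (by rw [h0, map_zero]), h⟩

theorem natCast_ell_ne_zero : ((ℓ : ℕ) : LaurentSeries ℚ) ≠ 0 := by
  rw [← eps_ellL]
  exact fun h => ellL_ne_zero ℓ ((eps_eq_zero_iff ℓ _).1 h)

/-- **unit form**: a nonzero element of the fraction field is `ℓ^m · u`, `u` a unit of the
Gauss ring. -/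
theorem exists_unit_form {x : LaurentSeries ℚ} (hx : x ∈ fracField ℓ) (hx0 : x ≠ 0) :
    ∃ (m : ℤ) (u : gaussRing ℓ), rho ℓ u ≠ 0 ∧ x = ((ℓ : ℕ) : LaurentSeries ℚ) ^ m * u := by
  obtain ⟨P, Q, hQ, h⟩ := hx
  have hQ0 : eps ℓ Q ≠ 0 := fun h0 => hQ ((eps_eq_zero_iff ℓ Q).1 h0)
  have hP : P ≠ 0 := by
    rintro rfl
    rw [map_zero] at h
    rcases mul_eq_zero.mp h with h1 | h1
    · exact hx0 h1
    · exact hQ0 h1
  obtain ⟨a, P₀, hP₀, hP₀'⟩ := exists_normal_form ℓ P hP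
  obtain ⟨b, Q₀, hQ₀, hQ₀'⟩ := exists_normal_form ℓ Q hQ
  have hQ₀0 : eps ℓ Q₀ ≠ 0 := eps_ne_zero_of_redL ℓ hQ₀'
  have hu : eps ℓ P₀ / eps ℓ Q₀ ∈ gaussRing ℓ := ⟨P₀, Q₀, hQ₀', by field_simp⟩
  refine ⟨(a : ℤ) - b, ⟨_, hu⟩, ?_, ?_⟩
  · rw [rho_eq ℓ ⟨_, hu⟩ (P := P₀) (Q := Q₀) hQ₀' (by field_simp)]
    exact div_ne_zero hP₀' hQ₀'
  · have hl := natCast_ell_ne_zero ℓ
    have hx : x = eps ℓ P / eps ℓ Q := by
      field_simp; exact h
    rw [hx, hP₀, hQ₀, map_mul, map_mul, map_pow, map_pow, eps_ellL, zpow_sub₀ hl, zpow_natCast,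
      zpow_natCast]
    show _ = _ * (eps ℓ P₀ / eps ℓ Q₀)
    field_simp

theorem pow_eq_zero_iff_of_pos' {M : Type*} [MonoidWithZero M] [NoZeroDivisors M] {a : M}
    {n : ℕ} (h : a ^ n = 0) : a = 0 := by
  induction n with
  | zero => rw [pow_zero] at h; rw [← mul_one a, h, mul_zero]
  | succ n ih =>
    rw [pow_succ] at h
    rcases mul_eq_zero.mp h with h | h
    · exact ih h
    · exact h

theorem rho_natCast_ell : rho ℓ ((ℓ : ℕ) : gaussRing ℓ) = 0 := rho_natCast_self ℓ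

/-- **the Gauss ring is integrally closed in its fraction field** -/
theorem mem_gaussRing_of_isIntegral {x : LaurentSeries ℚ} (hx : x ∈ fracField ℓ)
    (h : IsIntegral (gaussRing ℓ) x) : x ∈ gaussRing ℓ := by
  by_cases hx0 : x = 0
  · rw [hx0]; exact (gaussRing ℓ).zero_mem
  obtain ⟨m, u, hu, hxu⟩ := exists_unit_form ℓ hx hx0
  have hl := natCast_ell_ne_zero ℓ
  rcases le_or_gt 0 m with hm | hm
  · obtain ⟨k, rfl⟩ := Int.eq_ofNat_of_zero_le hm
    rw [hxu, zpow_natCast]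
    exact (gaussRing ℓ).mul_mem ((gaussRing ℓ).pow_mem (natCast_mem_gaussRing ℓ) k) u.2
  · exfalso
    obtain ⟨k, hk⟩ : ∃ k : ℕ, m = -((k : ℤ) + 1) := ⟨(-m - 1).toNat, by omega⟩
    obtain ⟨p, hp, h0⟩ := h
    -- `u = ℓ^(k+1) x` is a root of `p.scaleRoots (ℓ^(k+1))`
    set s : gaussRing ℓ := ((ℓ : ℕ) : gaussRing ℓ) ^ (k + 1) with hs
    have hsu : algebraMap (gaussRing ℓ) (LaurentSeries ℚ) s * x = (u : LaurentSeries ℚ) := by
      rw [hxu, hk, hs, map_pow, map_natCast, zpow_neg, ← mul_assoc]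
      rw [show ((k : ℤ) + 1) = ((k + 1 : ℕ) : ℤ) by push_cast; ring, zpow_natCast]
      rw [mul_inv_cancel₀ (pow_ne_zero _ hl), one_mul]
    have h1 := Polynomial.scaleRoots_eval₂_eq_zero (algebraMap (gaussRing ℓ) (LaurentSeries ℚ))
      (s := s) h0
    rw [hsu] at h1
    have h2 : Polynomial.eval u (p.scaleRoots s) = 0 := by
      have h3 : algebraMap (gaussRing ℓ) (LaurentSeries ℚ) (Polynomial.eval u (p.scaleRoots s))
          = 0 := by
        rw [← h1, Polynomial.eval, Polynomial.hom_eval₂]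
        rfl
      exact Subtype.ext h3
    have h4 := congrArg (rho ℓ) h2
    rw [map_zero, ← Polynomial.eval₂_hom, Polynomial.eval₂_eq_eval_map,
      Polynomial.map_scaleRoots _ _ _ (by rw [hp.leadingCoeff, map_one]; exact one_ne_zero),
      hs, map_pow, rho_natCast_ell, zero_pow (Nat.succ_ne_zero k), Polynomial.scaleRoots_zero,
      (hp.map (rho ℓ)).leadingCoeff, one_smul, Polynomial.eval_pow, Polynomial.eval_X] at h4
    exact hu (pow_eq_zero_iff_of_pos' h4)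

/-! ### The function field of `X₀(N)` -/

section FunctionField

open ModularCurve.IgusaScheme

variable (N : ℕ) [NeZero N]

/-- the integral `j(q^d)` -/
def jdZ (d : ℕ) [NeZero d] : LaurentSeries (Zl ℓ) := qExpand (Zl ℓ) d (jqModC (Zl ℓ))

theorem eps_jdZ (d : ℕ) [NeZero d] : eps ℓ (jdZ ℓ d) = qExpand ℚ d jq := by
  rw [jdZ, eps, coeffMap_qExpand, coeffMap_jqModC, jqModC_rat]

theorem redL_jdZ (d : ℕ) [NeZero d] : redL ℓ (jdZ ℓ d) = qExpand (ZMod ℓ) d (jqModC (ZMod ℓ)) := by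
  rw [jdZ, redL, coeffMap_qExpand, coeffMap_jqModC]

theorem eps_jqModC : eps ℓ (jqModC (Zl ℓ)) = jq := by
  rw [eps, coeffMap_jqModC, jqModC_rat]

theorem redL_jqModC : redL ℓ (jqModC (Zl ℓ)) = jqModC (ZMod ℓ) := by
  rw [redL, coeffMap_jqModC]

theorem full_le_fracField : modularFunctionFieldFull N ≤ fracField ℓ := by
  rw [modularFunctionFieldFull, IntermediateField.adjoin_le_iff]
  rintro x ⟨d, hd, -, rfl⟩
  haveI := hd
  rw [← eps_jdZ ℓ d]
  exact eps_mem_fracField ℓ _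

/-- `D ∩ F`: the Gauss valuation ring of the function field -/
def DF : Subring ↥(modularFunctionFieldFull N) where
  carrier := {x | (x : LaurentSeries ℚ) ∈ gaussRing ℓ}
  mul_mem' := fun {a b} ha hb => (gaussRing ℓ).mul_mem ha hb
  one_mem' := (gaussRing ℓ).one_mem
  add_mem' := fun {a b} ha hb => (gaussRing ℓ).add_mem ha hb
  zero_mem' := (gaussRing ℓ).zero_mem
  neg_mem' := fun {a} ha => (gaussRing ℓ).neg_mem ha

theorem mem_DF_iff {x : ↥(modularFunctionFieldFull N)} :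
    x ∈ DF ℓ N ↔ (x : LaurentSeries ℚ) ∈ gaussRing ℓ := Iff.rfl

/-- the inclusion `D ∩ F → D` -/
def toGauss : DF ℓ N →+* gaussRing ℓ where
  toFun x := ⟨((x : ↥(modularFunctionFieldFull N)) : LaurentSeries ℚ), x.2⟩
  map_one' := rfl
  map_zero' := rfl
  map_mul' _ _ := rfl
  map_add' _ _ := rfl

theorem coe_toGauss (x : DF ℓ N) :
    ((toGauss ℓ N x : gaussRing ℓ) : LaurentSeries ℚ)
      = ((x : ↥(modularFunctionFieldFull N)) : LaurentSeries ℚ) := rfl

/-- the residue map on `D ∩ F` -/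
def rhoF : DF ℓ N →+* LaurentSeries (ZMod ℓ) := (rho ℓ).comp (toGauss ℓ N)

theorem rhoF_apply (x : DF ℓ N) : rhoF ℓ N x = rho ℓ (toGauss ℓ N x) := rfl

theorem rhoF_eq (x : DF ℓ N) {P Q : LaurentSeries (Zl ℓ)} (hQ : redL ℓ Q ≠ 0)
    (h : ((x : ↥(modularFunctionFieldFull N)) : LaurentSeries ℚ) * eps ℓ Q = eps ℓ P) :
    rhoF ℓ N x = redL ℓ P / redL ℓ Q :=
  rho_eq ℓ (toGauss ℓ N x) hQ h

theorem rhoF_eq_of_eps (x : DF ℓ N) {P : LaurentSeries (Zl ℓ)}
    (h : ((x : ↥(modularFunctionFieldFull N)) : LaurentSeries ℚ) = eps ℓ P) :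
    rhoF ℓ N x = redL ℓ P := by
  rw [rhoF_eq ℓ N x (P := P) (Q := 1) (redL_one_ne_zero ℓ) (by rw [map_one, mul_one, h]),
    map_one, div_one]

omit [Fact ℓ.Prime] in
theorem coe_natCast_F (n : ℕ) :
    ((((n : ℕ) : ↥(modularFunctionFieldFull N)) : ↥(modularFunctionFieldFull N))
      : LaurentSeries ℚ) = (n : LaurentSeries ℚ) := by
  simp

omit [Fact ℓ.Prime] in
theorem coe_zpow_F (x : ↥(modularFunctionFieldFull N)) (m : ℤ) :
    ((x ^ m : ↥(modularFunctionFieldFull N)) : LaurentSeries ℚ) = (x : LaurentSeries ℚ) ^ m :=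
  map_zpow₀ (modularFunctionFieldFull N).val x m

theorem natCast_mem_DF (n : ℕ) : ((n : ℕ) : ↥(modularFunctionFieldFull N)) ∈ DF ℓ N :=
  natCast_mem (DF ℓ N) n

theorem rhoF_ell : rhoF ℓ N ((ℓ : ℕ) : DF ℓ N) = 0 := by
  rw [map_natCast]
  have : ((ℓ : ℕ) : LaurentSeries (ZMod ℓ)) = HahnSeries.C ((ℓ : ℕ) : ZMod ℓ) := by
    rw [map_natCast]
  rw [this, ZMod.natCast_self, map_zero]

theorem ellF_ne_zero : ((ℓ : ℕ) : ↥(modularFunctionFieldFull N)) ≠ 0 := by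
  intro h
  have h1 : ((((ℓ : ℕ) : ↥(modularFunctionFieldFull N)) : ↥(modularFunctionFieldFull N))
      : LaurentSeries ℚ) = 0 := by rw [h]; rfl
  rw [coe_natCast_F] at h1
  exact natCast_ell_ne_zero ℓ h1

/-- **kernel of `ρ_F`** -/
theorem rhoF_eq_zero_iff (x : DF ℓ N) :
    rhoF ℓ N x = 0 ↔ ∃ y : DF ℓ N, x = ((ℓ : ℕ) : DF ℓ N) * y := by
  constructor
  · intro h
    obtain ⟨y, hy⟩ := (rho_eq_zero_iff ℓ (toGauss ℓ N x)).1 h
    have hy' : ((x : ↥(modularFunctionFieldFull N)) : LaurentSeries ℚ)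
        = ((ℓ : ℕ) : LaurentSeries ℚ) * (y : LaurentSeries ℚ) := by
      have h1 : ((toGauss ℓ N x : gaussRing ℓ) : LaurentSeries ℚ)
          = ((((ℓ : ℕ) : gaussRing ℓ) * y : gaussRing ℓ) : LaurentSeries ℚ) :=
        congrArg Subtype.val hy
      rw [coe_toGauss, Subring.coe_mul, Subring.coe_natCast] at h1
      exact h1
    have hl := ellF_ne_zero ℓ N
    have hyF : ((x : ↥(modularFunctionFieldFull N)) / ((ℓ : ℕ) : ↥(modularFunctionFieldFull N))
        : ↥(modularFunctionFieldFull N)) ∈ DF ℓ N := by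
      rw [mem_DF_iff]
      have : (((x : ↥(modularFunctionFieldFull N)) / ((ℓ : ℕ) : ↥(modularFunctionFieldFull N))
          : ↥(modularFunctionFieldFull N)) : LaurentSeries ℚ) = (y : LaurentSeries ℚ) := by
        push_cast
        rw [hy']
        field_simp [natCast_ell_ne_zero ℓ]
      rw [this]
      exact y.2
    refine ⟨⟨_, hyF⟩, Subtype.ext ?_⟩
    show (x : ↥(modularFunctionFieldFull N)) = ((ℓ : ℕ) : ↥(modularFunctionFieldFull N))
      * ((x : ↥(modularFunctionFieldFull N)) / ((ℓ : ℕ) : ↥(modularFunctionFieldFull N)))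
    field_simp
  · rintro ⟨y, rfl⟩
    rw [map_mul, rhoF_ell, zero_mul]

/-- **unit form in `F`** -/
theorem exists_unit_form_F (x : ↥(modularFunctionFieldFull N)) (hx : x ≠ 0) :
    ∃ (m : ℤ) (u : DF ℓ N), rhoF ℓ N u ≠ 0 ∧
      x = ((((ℓ : ℕ) : DF ℓ N) : DF ℓ N) : ↥(modularFunctionFieldFull N)) ^ m
        * (u : ↥(modularFunctionFieldFull N)) := by
  have hx0 : (x : LaurentSeries ℚ) ≠ 0 := fun h => hx (Subtype.ext h)
  obtain ⟨m, u, hu, hxu⟩ := exists_unit_form ℓ (full_le_fracField ℓ N x.2) hx0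
  have hl := ellF_ne_zero ℓ N
  have huF : (x * (((ℓ : ℕ) : ↥(modularFunctionFieldFull N)) ^ m)⁻¹
      : ↥(modularFunctionFieldFull N)) ∈ DF ℓ N := by
    rw [mem_DF_iff]
    have : ((x * (((ℓ : ℕ) : ↥(modularFunctionFieldFull N)) ^ m)⁻¹
        : ↥(modularFunctionFieldFull N)) : LaurentSeries ℚ) = (u : LaurentSeries ℚ) := by
      push_cast
      rw [coe_zpow_F, coe_natCast_F, hxu]
      field_simp [natCast_ell_ne_zero ℓ]
    rw [this]
    exact u.2
  refine ⟨m, ⟨_, huF⟩, ?_, ?_⟩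
  · have : toGauss ℓ N ⟨_, huF⟩ = u := by
      apply Subtype.ext
      rw [coe_toGauss]
      push_cast
      rw [coe_zpow_F, coe_natCast_F, hxu]
      field_simp [natCast_ell_ne_zero ℓ]
    rw [rhoF_apply, this]
    exact hu
  · show x = ((ℓ : ℕ) : ↥(modularFunctionFieldFull N)) ^ m
      * (x * (((ℓ : ℕ) : ↥(modularFunctionFieldFull N)) ^ m)⁻¹)
    field_simp

/-! ### constants, charts -/

theorem eps_C (a : Zl ℓ) : eps ℓ (HahnSeries.C a) = HahnSeries.C ((a : Zl ℓ) : ℚ) := by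
  show coeffMap _ (HahnSeries.single 0 a) = HahnSeries.single 0 _
  rw [coeffMap_single]
  rfl

theorem redL_C (a : Zl ℓ) : redL ℓ (HahnSeries.C a) = HahnSeries.C (resZ ℓ a) := by
  show coeffMap _ (HahnSeries.single 0 a) = HahnSeries.single 0 _
  rw [coeffMap_single]

theorem coe_algebraMap_F (a : Zl ℓ) :
    ((algebraMap (Zl ℓ) ↥(modularFunctionFieldFull N) a : ↥(modularFunctionFieldFull N))
      : LaurentSeries ℚ) = eps ℓ (HahnSeries.C a) := by
  rw [eps_C]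
  rfl

theorem algebraMap_mem_DF (a : Zl ℓ) :
    algebraMap (Zl ℓ) ↥(modularFunctionFieldFull N) a ∈ DF ℓ N := by
  rw [mem_DF_iff, coe_algebraMap_F]
  exact eps_mem_gaussRing ℓ _

theorem rhoF_algebraMap (a : Zl ℓ) :
    rhoF ℓ N ⟨algebraMap (Zl ℓ) ↥(modularFunctionFieldFull N) a, algebraMap_mem_DF ℓ N a⟩
      = HahnSeries.C (resZ ℓ a) := by
  rw [rhoF_eq_of_eps ℓ N _ (coe_algebraMap_F ℓ N a), redL_C]

/-- `D ∩ F` as a `ℤ_(ℓ)`-subalgebra -/
def DFalg : Subalgebra (Zl ℓ) ↥(modularFunctionFieldFull N) :=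
  { DF ℓ N with
    algebraMap_mem' := fun a => algebraMap_mem_DF ℓ N a }

theorem mem_DFalg_iff {x : ↥(modularFunctionFieldFull N)} : x ∈ DFalg ℓ N ↔ x ∈ DF ℓ N := Iff.rfl

/-- **charts lie in the Gauss ring** -/
theorem chartAlg_le_DF (S : Set ↥(modularFunctionFieldFull N)) (hS : ∀ s ∈ S, s ∈ DF ℓ N)
    {x : ↥(modularFunctionFieldFull N)} (hx : x ∈ chartAlg N ℓ S) : x ∈ DF ℓ N := by
  have hle : Algebra.adjoin (Zl ℓ) S ≤ DFalg ℓ N := Algebra.adjoin_le hS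
  rw [mem_chartAlg_iff] at hx
  obtain ⟨p, hp, h0⟩ := hx
  -- the coefficient map into the Gauss ring
  let φ : ↥(Algebra.adjoin (Zl ℓ) S) →+* gaussRing ℓ :=
    { toFun := fun a => ⟨((a : ↥(modularFunctionFieldFull N)) : LaurentSeries ℚ), hle a.2⟩
      map_one' := rfl
      map_zero' := rfl
      map_mul' := fun _ _ => rfl
      map_add' := fun _ _ => rfl }
  rw [mem_DF_iff]
  apply mem_gaussRing_of_isIntegral ℓ (full_le_fracField ℓ N x.2)
  refine ⟨p.map φ, hp.map φ, ?_⟩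
  rw [Polynomial.eval₂_map]
  have hcomp : (algebraMap (gaussRing ℓ) (LaurentSeries ℚ)).comp φ
      = (algebraMap ↥(modularFunctionFieldFull N) (LaurentSeries ℚ)).comp
        (algebraMap ↥(Algebra.adjoin (Zl ℓ) S) ↥(modularFunctionFieldFull N)) := rfl
  rw [hcomp]
  have h1 := Polynomial.hom_eval₂ p
    (algebraMap ↥(Algebra.adjoin (Zl ℓ) S) ↥(modularFunctionFieldFull N))
    (algebraMap ↥(modularFunctionFieldFull N) (LaurentSeries ℚ)) x
  rw [h0, map_zero] at h1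
  exact h1.symm

end FunctionField

end Fermat.Agent.S28.Algebra
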