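import Mathlib
import Fermat.Agent.S28.Closed

/-!
# S28 (Igusa), algebra part: `j`, `j⁻¹` in the Gauss ring; the residue maps of the charts
-/

set_option autoImplicit false
set_option linter.unusedSectionVars false

noncomputable section

namespace Fermat.Agent.S28.Algebra

open ModularCurve ModularCurve.IgusaScheme

variable (ℓ : ℕ) [Fact ℓ.Prime] (N : ℕ) [NeZero N]

theorem jqModC_ZMod_ne_zero : jqModC (ZMod ℓ) ≠ 0 := by
  haveI : Nontrivial (ZMod ℓ) := inferInstance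
  exact jqModC_ne_zero_of_nontrivial (ZMod ℓ)

theorem coe_jFull_eq : ((jFull N : ↥(modularFunctionFieldFull N)) : LaurentSeries ℚ)
    = eps ℓ (jqModC (Zl ℓ)) := by
  rw [eps_jqModC]; rfl

theorem jFull_mem_DF : jFull N ∈ DF ℓ N := by
  rw [mem_DF_iff, coe_jFull_eq ℓ N]
  exact eps_mem_gaussRing ℓ _

theorem rhoF_jFull : rhoF ℓ N ⟨jFull N, jFull_mem_DF ℓ N⟩ = jqModC (ZMod ℓ) := by
  rw [rhoF_eq_of_eps ℓ N _ (coe_jFull_eq ℓ N), redL_jqModC]

theorem jFull_inv_mem_DF : (jFull N)⁻¹ ∈ DF ℓ N := by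
  rw [mem_DF_iff]
  refine ⟨1, jqModC (Zl ℓ), ?_, ?_⟩
  · rw [redL_jqModC]; exact jqModC_ZMod_ne_zero ℓ
  · rw [map_one, ← coe_jFull_eq ℓ N]
    have h := jFull_ne_zero N
    have : ((jFull N)⁻¹ * jFull N : ↥(modularFunctionFieldFull N)) = 1 := inv_mul_cancel₀ h
    have h2 := congrArg (fun x : ↥(modularFunctionFieldFull N) => (x : LaurentSeries ℚ)) this
    simpa using h2

theorem rhoF_jFull_inv :
    rhoF ℓ N ⟨(jFull N)⁻¹, jFull_inv_mem_DF ℓ N⟩ = (jqModC (ZMod ℓ))⁻¹ := by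
  have h1 : (⟨(jFull N)⁻¹, jFull_inv_mem_DF ℓ N⟩ : DF ℓ N) * ⟨jFull N, jFull_mem_DF ℓ N⟩ = 1 :=
    Subtype.ext (inv_mul_cancel₀ (jFull_ne_zero N))
  have h2 := congrArg (rhoF ℓ N) h1
  rw [map_mul, map_one, rhoF_jFull] at h2
  exact eq_inv_of_mul_eq_one_left h2

/-- the generators `j(q^d)` of the function field -/
theorem coe_gen_eq (d : ℕ) [NeZero d] : qExpand ℚ d jq = eps ℓ (jdZ ℓ d) := (eps_jdZ ℓ d).symm

/-! ### residue maps of the charts -/

/-- the three sets of chart generators lie in the Gauss ring -/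
theorem subset_DF_of_subset {S : Set ↥(modularFunctionFieldFull N)}
    (hS : S ⊆ {jFull N, (jFull N)⁻¹}) : ∀ s ∈ S, s ∈ DF ℓ N := by
  intro s hs
  rcases hS hs with h | h
  · rw [h]; exact jFull_mem_DF ℓ N
  · rw [Set.mem_singleton_iff] at h
    rw [h]; exact jFull_inv_mem_DF ℓ N

/-- the inclusion of a chart into `D ∩ F` -/
def chartToDF (S : Set ↥(modularFunctionFieldFull N)) (hS : S ⊆ {jFull N, (jFull N)⁻¹}) :
    chartAlg N ℓ S →+* DF ℓ N where
  toFun x := ⟨(x : ↥(modularFunctionFieldFull N)),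
    chartAlg_le_DF ℓ N S (subset_DF_of_subset ℓ N hS) x.2⟩
  map_one' := rfl
  map_zero' := rfl
  map_mul' _ _ := rfl
  map_add' _ _ := rfl

/-- the residue map of a chart -/
def rhoChart (S : Set ↥(modularFunctionFieldFull N)) (hS : S ⊆ {jFull N, (jFull N)⁻¹}) :
    chartAlg N ℓ S →+* LaurentSeries (ZMod ℓ) :=
  (rhoF ℓ N).comp (chartToDF ℓ N S hS)

theorem rhoChart_apply (S : Set ↥(modularFunctionFieldFull N))
    (hS : S ⊆ {jFull N, (jFull N)⁻¹}) (x : chartAlg N ℓ S) :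
    rhoChart ℓ N S hS x = rhoF ℓ N (chartToDF ℓ N S hS x) := rfl

theorem coe_chartToDF (S : Set ↥(modularFunctionFieldFull N))
    (hS : S ⊆ {jFull N, (jFull N)⁻¹}) (x : chartAlg N ℓ S) :
    ((chartToDF ℓ N S hS x : DF ℓ N) : ↥(modularFunctionFieldFull N)) = x := rfl

/-- `(ℓ) ⊆ ker ρ_S` -/
theorem span_le_ker_rhoChart (S : Set ↥(modularFunctionFieldFull N))
    (hS : S ⊆ {jFull N, (jFull N)⁻¹}) :
    Ideal.span {((ℓ : ℕ) : chartAlg N ℓ S)} ≤ RingHom.ker (rhoChart ℓ N S hS) := by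
  rw [Ideal.span_le]
  intro x hx
  rw [Set.mem_singleton_iff] at hx
  rw [hx, SetLike.mem_coe, RingHom.mem_ker, map_natCast]
  have : ((ℓ : ℕ) : LaurentSeries (ZMod ℓ)) = HahnSeries.C ((ℓ : ℕ) : ZMod ℓ) := by
    rw [map_natCast]
  rw [this, ZMod.natCast_self, map_zero]

/-- **reduction of the kernel statement** to the descent property `B_S ∩ ℓ D = ℓ B_S` -/
theorem ker_rhoChart_eq (S : Set ↥(modularFunctionFieldFull N))
    (hS : S ⊆ {jFull N, (jFull N)⁻¹})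
    (hdesc : ∀ y : DF ℓ N,
      ((ℓ : ℕ) : ↥(modularFunctionFieldFull N)) * (y : ↥(modularFunctionFieldFull N))
        ∈ chartAlg N ℓ S → (y : ↥(modularFunctionFieldFull N)) ∈ chartAlg N ℓ S) :
    RingHom.ker (rhoChart ℓ N S hS) = Ideal.span {((ℓ : ℕ) : chartAlg N ℓ S)} := by
  apply le_antisymm _ (span_le_ker_rhoChart ℓ N S hS)
  intro x hx
  rw [RingHom.mem_ker, rhoChart_apply] at hx
  obtain ⟨y, hy⟩ := (rhoF_eq_zero_iff ℓ N _).1 hx
  have hy' : (x : ↥(modularFunctionFieldFull N))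
      = ((ℓ : ℕ) : ↥(modularFunctionFieldFull N)) * (y : ↥(modularFunctionFieldFull N)) := by
    have := congrArg (fun z : DF ℓ N => (z : ↥(modularFunctionFieldFull N))) hy
    simpa [coe_chartToDF] using this
  have hmem : (y : ↥(modularFunctionFieldFull N)) ∈ chartAlg N ℓ S := by
    apply hdesc
    rw [← hy']
    exact x.2
  rw [Ideal.mem_span_singleton]
  refine ⟨⟨_, hmem⟩, Subtype.ext ?_⟩
  rw [hy']
  simp

end Fermat.Agent.S28.Algebra
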