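import Mathlib
import Fermat.Agent.S28.Charts

/-!
# S28 (Igusa), algebra part: `J` and `J⁻¹` are transcendental (in `eval₂` form)
-/

set_option autoImplicit false
set_option linter.unusedSectionVars false

noncomputable section

namespace Fermat.Agent.S28.Algebra

open ModularCurve ModularCurve.IgusaScheme

section General

variable (R : Type*) [CommRing R]

theorem coeff_C_mul' (c : R) (x : LaurentSeries R) (k : ℤ) :
    ((HahnSeries.C c : LaurentSeries R) * x).coeff k = c * x.coeff k := by
  rw [HahnSeries.C_mul_eq_smul, HahnSeries.coeff_smul, smul_eq_mul]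

/-- the coefficient of `q^(-deg p)` in `p(J)` is the leading coefficient of `p` -/
theorem coeff_eval₂_jqModC (p : Polynomial R) :
    (Polynomial.eval₂ (HahnSeries.C : R →+* LaurentSeries R) (jqModC R) p).coeff
      (-(p.natDegree : ℤ)) = p.leadingCoeff := by
  rw [Polynomial.eval₂_eq_sum_range, ← HahnSeries.coeff.addMonoidHom_apply, map_sum]
  simp only [HahnSeries.coeff.addMonoidHom_apply]
  rw [Finset.sum_eq_single p.natDegree]
  · rw [coeff_C_mul', coeff_jqModC_pow_self, mul_one]
    rfl
  · intro a ha hne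
    rw [coeff_C_mul', coeff_jqModC_pow_of_lt, mul_zero]
    have : a < p.natDegree := lt_of_le_of_ne (Nat.lt_succ_iff.mp (Finset.mem_range.mp ha)) hne
    omega
  · intro h
    exact absurd (Finset.mem_range.mpr (Nat.lt_succ_self _)) h

/-- `J` is transcendental over `R` -/
theorem eq_zero_of_eval₂_jqModC {p : Polynomial R}
    (h : Polynomial.eval₂ (HahnSeries.C : R →+* LaurentSeries R) (jqModC R) p = 0) : p = 0 := by
  by_contra hne
  have := coeff_eval₂_jqModC R p
  rw [h] at this
  exact (Polynomial.leadingCoeff_ne_zero.mpr hne) this.symm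

end General

section Inverse

variable {k Ω : Type*} [CommRing k] [Field Ω] (i : k →+* Ω)

/-- if `x` is transcendental, so is `x⁻¹` (in `eval₂` form) -/
theorem eq_zero_of_eval₂_inv {x : Ω} (hx : x ≠ 0)
    (htr : ∀ p : Polynomial k, Polynomial.eval₂ i x p = 0 → p = 0)
    {p : Polynomial k} (h : Polynomial.eval₂ i x⁻¹ p = 0) : p = 0 := by
  letI : Invertible x⁻¹ := invertibleOfNonzero (inv_ne_zero hx)
  have h1 := Polynomial.eval₂_reverse_mul_pow i x⁻¹ p
  rw [h] at h1
  have h2 : (⅟(x⁻¹) : Ω) = x := by
    rw [invOf_eq_inv, inv_inv]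
  rw [h2] at h1
  have h3 : Polynomial.eval₂ i x p.reverse = 0 := by
    rcases mul_eq_zero.mp h1 with h | h
    · exact h
    · exact absurd h (pow_ne_zero _ (inv_ne_zero hx))
  exact Polynomial.reverse_eq_zero.mp (htr _ h3)

end Inverse

end Fermat.Agent.S28.Algebra
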