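import Mathlib
import Fermat.Agent.S28.P2Trans

/-!
# S28 (Igusa), algebra part: the Gauss lemma for `A = ℤ_(ℓ)[τ]`

For `τ ∈ D ∩ F` whose residue `τ̄` is transcendental over `𝔽_ℓ`: an element of `A = ℤ_(ℓ)[τ]` with
zero residue is divisible by `ℓ` in `A`.
-/

set_option autoImplicit false
set_option linter.unusedSectionVars false

noncomputable section

namespace Fermat.Agent.S28.Algebra

open ModularCurve ModularCurve.IgusaScheme

variable (ℓ : ℕ) [Fact ℓ.Prime] (N : ℕ) [NeZero N]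

/-- the structure map `ℤ_(ℓ) → D ∩ F` -/
def cstDF : Zl ℓ →+* DF ℓ N :=
  (algebraMap (Zl ℓ) ↥(modularFunctionFieldFull N)).codRestrict (DF ℓ N)
    (algebraMap_mem_DF ℓ N)

theorem coe_cstDF (a : Zl ℓ) : ((cstDF ℓ N a : DF ℓ N) : ↥(modularFunctionFieldFull N))
    = algebraMap (Zl ℓ) ↥(modularFunctionFieldFull N) a := rfl

theorem rhoF_comp_cstDF :
    (rhoF ℓ N).comp (cstDF ℓ N) = (HahnSeries.C : ZMod ℓ →+* LaurentSeries (ZMod ℓ)).comp (resZ ℓ) := by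
  ext a : 1
  exact rhoF_algebraMap ℓ N a

variable {ℓ N} in
/-- evaluation of integral polynomials at `τ`, inside `D ∩ F` -/
def evalDF (τ : DF ℓ N) : Polynomial (Zl ℓ) →+* DF ℓ N :=
  Polynomial.eval₂RingHom (cstDF ℓ N) τ

theorem coe_evalDF (τ : DF ℓ N) (p : Polynomial (Zl ℓ)) :
    ((evalDF τ p : DF ℓ N) : ↥(modularFunctionFieldFull N))
      = Polynomial.aeval (τ : ↥(modularFunctionFieldFull N)) p := by
  have h := Polynomial.hom_eval₂ p (cstDF ℓ N) (DF ℓ N).subtype τ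
  exact h

theorem rhoF_evalDF (τ : DF ℓ N) (p : Polynomial (Zl ℓ)) :
    rhoF ℓ N (evalDF τ p) = Polynomial.eval₂ (HahnSeries.C : ZMod ℓ →+* LaurentSeries (ZMod ℓ))
      (rhoF ℓ N τ) (p.map (resZ ℓ)) := by
  have h := Polynomial.hom_eval₂ p (cstDF ℓ N) (rhoF ℓ N) τ
  rw [rhoF_comp_cstDF] at h
  rw [Polynomial.eval₂_map]
  exact h

/-- a polynomial with zero reduction is divisible by `ℓ` -/
theorem exists_eq_C_mul_of_map_eq_zero {p : Polynomial (Zl ℓ)} (h : p.map (resZ ℓ) = 0) :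
    ∃ p' : Polynomial (Zl ℓ), p = Polynomial.C ((ℓ : ℕ) : Zl ℓ) * p' := by
  have h1 : p ∈ Ideal.map (Polynomial.C : Zl ℓ →+* Polynomial (Zl ℓ))
      (Ideal.span {((ℓ : ℕ) : Zl ℓ)}) := by
    rw [Ideal.mem_map_C_iff]
    intro n
    have hn : resZ ℓ (p.coeff n) = 0 := by
      have := congrArg (fun q => q.coeff n) h
      simpa [Polynomial.coeff_map] using this
    obtain ⟨q', hq'⟩ := (resZ_eq_zero_iff ℓ _).1 hn
    rw [Ideal.mem_span_singleton]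
    exact ⟨q', hq'⟩
  rw [Ideal.map_span, Set.image_singleton, Ideal.mem_span_singleton] at h1
  exact h1

theorem mem_adjoin_iff_evalDF (τ : DF ℓ N) (a : ↥(modularFunctionFieldFull N)) :
    a ∈ Algebra.adjoin (Zl ℓ) {(τ : ↥(modularFunctionFieldFull N))}
      ↔ ∃ p : Polynomial (Zl ℓ), ((evalDF τ p : DF ℓ N) : ↥(modularFunctionFieldFull N)) = a := by
  rw [Algebra.adjoin_singleton_eq_range_aeval]
  constructor
  · rintro ⟨p, hp⟩
    exact ⟨p, by rw [coe_evalDF]; exact hp⟩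
  · rintro ⟨p, hp⟩
    exact ⟨p, by rw [coe_evalDF] at hp; exact hp⟩

theorem adjoin_le_DF (τ : DF ℓ N) :
    ∀ a ∈ Algebra.adjoin (Zl ℓ) {(τ : ↥(modularFunctionFieldFull N))}, a ∈ DF ℓ N := by
  intro a ha
  obtain ⟨p, rfl⟩ := (mem_adjoin_iff_evalDF ℓ N τ a).1 ha
  exact (evalDF τ p).2

/-- **Gauss lemma** -/
theorem gauss_adjoin (τ : DF ℓ N)
    (htr : ∀ p : Polynomial (ZMod ℓ),
      Polynomial.eval₂ (HahnSeries.C : ZMod ℓ →+* LaurentSeries (ZMod ℓ)) (rhoF ℓ N τ) p = 0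
        → p = 0)
    (a : ↥(Algebra.adjoin (Zl ℓ) {(τ : ↥(modularFunctionFieldFull N))}))
    (ha : rhoF ℓ N ⟨(a : ↥(modularFunctionFieldFull N)), adjoin_le_DF ℓ N τ _ a.2⟩ = 0) :
    ∃ a' : ↥(Algebra.adjoin (Zl ℓ) {(τ : ↥(modularFunctionFieldFull N))}),
      (a : ↥(modularFunctionFieldFull N))
        = ((((ℓ : ℕ) : DF ℓ N) : DF ℓ N) : ↥(modularFunctionFieldFull N))
          * (a' : ↥(modularFunctionFieldFull N)) := by
  obtain ⟨p, hp⟩ := (mem_adjoin_iff_evalDF ℓ N τ a).1 a.2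
  have h1 : (⟨(a : ↥(modularFunctionFieldFull N)), adjoin_le_DF ℓ N τ _ a.2⟩ : DF ℓ N)
      = evalDF τ p := Subtype.ext hp.symm
  rw [h1, rhoF_evalDF] at ha
  obtain ⟨p', hp'⟩ := exists_eq_C_mul_of_map_eq_zero ℓ (htr _ ha)
  refine ⟨⟨((evalDF τ p' : DF ℓ N) : ↥(modularFunctionFieldFull N)),
    (mem_adjoin_iff_evalDF ℓ N τ _).2 ⟨p', rfl⟩⟩, ?_⟩
  have h2 : ((evalDF τ (Polynomial.C ((ℓ : ℕ) : Zl ℓ)) : DF ℓ N) : ↥(modularFunctionFieldFull N))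
      = ((((ℓ : ℕ) : DF ℓ N) : DF ℓ N) : ↥(modularFunctionFieldFull N)) := by
    rw [coe_evalDF, Polynomial.aeval_C]
    simp
  rw [← hp, hp', map_mul, Subring.coe_mul, h2]

/-- the residue of an element of `A = ℤ_(ℓ)[τ]` is a polynomial in `τ̄` -/
theorem rhoF_adjoin (τ : DF ℓ N)
    (a : ↥(Algebra.adjoin (Zl ℓ) {(τ : ↥(modularFunctionFieldFull N))})) :
    ∃ p : Polynomial (ZMod ℓ),
      rhoF ℓ N ⟨(a : ↥(modularFunctionFieldFull N)), adjoin_le_DF ℓ N τ _ a.2⟩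
        = Polynomial.eval₂ (HahnSeries.C : ZMod ℓ →+* LaurentSeries (ZMod ℓ)) (rhoF ℓ N τ) p := by
  obtain ⟨p, hp⟩ := (mem_adjoin_iff_evalDF ℓ N τ a).1 a.2
  have h1 : (⟨(a : ↥(modularFunctionFieldFull N)), adjoin_le_DF ℓ N τ _ a.2⟩ : DF ℓ N)
      = evalDF τ p := Subtype.ext hp.symm
  exact ⟨p.map (resZ ℓ), by rw [h1, rhoF_evalDF]⟩

end Fermat.Agent.S28.Algebra
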