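import Mathlib
import Fermat.Agent.S28.P2Gauss

/-!
# S28 (Igusa), algebra part: `ℚ(τ)` is the fraction field of `ℤ_(ℓ)[τ]`
-/

set_option autoImplicit false
set_option linter.unusedSectionVars false

noncomputable section

namespace Fermat.Agent.S28.Algebra

open ModularCurve ModularCurve.IgusaScheme IntermediateField

variable (ℓ : ℕ) [Fact ℓ.Prime] (N : ℕ) [NeZero N]

/-- a rational polynomial has an integral multiple -/
theorem exists_int_multiple (r : Polynomial ℚ) :
    ∃ (n : ℤ) (r' : Polynomial ℤ), n ≠ 0 ∧ r'.map (algebraMap ℤ ℚ) = n • r := by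
  obtain ⟨b, hb, h⟩ := IsLocalization.integerNormalization_spec (nonZeroDivisors ℤ) r
  exact ⟨b, _, nonZeroDivisors.ne_zero hb, h⟩

/-- evaluation of an integral polynomial lies in `ℤ_(ℓ)[τ]` -/
theorem aeval_int_mem_adjoin (τ : ↥(modularFunctionFieldFull N)) (r : Polynomial ℤ) :
    Polynomial.aeval τ r ∈ Algebra.adjoin (Zl ℓ) {τ} := by
  have h : Polynomial.aeval τ r = Polynomial.aeval τ (r.map (algebraMap ℤ (Zl ℓ))) := by
    rw [Polynomial.aeval_map_algebraMap]
  rw [h, Algebra.adjoin_singleton_eq_range_aeval]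
  exact ⟨_, rfl⟩

/-- **`ℚ(τ) ⊆ Frac ℤ_(ℓ)[τ]`** -/
theorem exists_fraction (τ : ↥(modularFunctionFieldFull N)) (c : ↥(modularFunctionFieldFull N))
    (hc : c ∈ ℚ⟮τ⟯) :
    ∃ a b : ↥(Algebra.adjoin (Zl ℓ) {τ}), (b : ↥(modularFunctionFieldFull N)) ≠ 0 ∧
      c * (b : ↥(modularFunctionFieldFull N)) = (a : ↥(modularFunctionFieldFull N)) := by
  obtain ⟨r, s, hrs⟩ := (mem_adjoin_simple_iff ℚ c).1 hc
  by_cases hs : Polynomial.aeval τ s = 0
  · refine ⟨0, 1, ?_, ?_⟩
    · simp
    · rw [hrs, hs, div_zero]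
      simp
  · obtain ⟨n, r', hn, hr'⟩ := exists_int_multiple r
    obtain ⟨m, s', hm, hs'⟩ := exists_int_multiple s
    have hr2 : Polynomial.aeval τ r' = (n : ↥(modularFunctionFieldFull N)) * Polynomial.aeval τ r := by
      have := congrArg (Polynomial.aeval τ) hr'
      rw [Polynomial.aeval_map_algebraMap, map_zsmul, zsmul_eq_mul] at this
      exact this
    have hs2 : Polynomial.aeval τ s' = (m : ↥(modularFunctionFieldFull N)) * Polynomial.aeval τ s := by
      have := congrArg (Polynomial.aeval τ) hs'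
      rw [Polynomial.aeval_map_algebraMap, map_zsmul, zsmul_eq_mul] at this
      exact this
    have hn0 : (n : ↥(modularFunctionFieldFull N)) ≠ 0 := by exact_mod_cast hn
    have hm0 : (m : ↥(modularFunctionFieldFull N)) ≠ 0 := by exact_mod_cast hm
    have hmA : (m : ↥(modularFunctionFieldFull N)) ∈ Algebra.adjoin (Zl ℓ) {τ} :=
      intCast_mem _ m
    have hnA : (n : ↥(modularFunctionFieldFull N)) ∈ Algebra.adjoin (Zl ℓ) {τ} :=
      intCast_mem _ n
    refine ⟨⟨(m : ↥(modularFunctionFieldFull N)) * Polynomial.aeval τ r',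
        Subalgebra.mul_mem _ hmA (aeval_int_mem_adjoin ℓ N τ r')⟩,
      ⟨(n : ↥(modularFunctionFieldFull N)) * Polynomial.aeval τ s',
        Subalgebra.mul_mem _ hnA (aeval_int_mem_adjoin ℓ N τ s')⟩, ?_, ?_⟩
    · show (n : ↥(modularFunctionFieldFull N)) * Polynomial.aeval τ s' ≠ 0
      rw [hs2]
      exact mul_ne_zero hn0 (mul_ne_zero hm0 hs)
    · show c * ((n : ↥(modularFunctionFieldFull N)) * Polynomial.aeval τ s')
        = (m : ↥(modularFunctionFieldFull N)) * Polynomial.aeval τ r'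
      rw [hrs, hr2, hs2]
      field_simp

end Fermat.Agent.S28.Algebra
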