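import Mathlib
import Fermat.Agent.S28.P2Frac
import Fermat.Agent.S28.P2IG
import Fermat.Agent.S28.AbsAlg

/-!
# S28 (Igusa), algebra part: the residue field of `D ∩ F` contains the function field in
characteristic `ℓ`; a family in `D ∩ F` with independent residues from `(IG)`.
-/

set_option autoImplicit false
set_option linter.unusedSectionVars false

noncomputable section

namespace Fermat.Agent.S28.Algebra

open ModularCurve ModularCurve.IgusaScheme IntermediateField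

variable (ℓ : ℕ) [Fact ℓ.Prime] (N : ℕ) [NeZero N]

theorem coe_ellDF_ne_zero :
    ((((ℓ : ℕ) : DF ℓ N) : DF ℓ N) : ↥(modularFunctionFieldFull N)) ≠ 0 := by
  have := ellF_ne_zero ℓ N
  simpa using this

theorem resZ_surjective : Function.Surjective (resZ ℓ) := by
  intro c
  refine ⟨((c.val : ℕ) : Zl ℓ), ?_⟩
  rw [map_natCast, ZMod.natCast_zmod_val]

/-- units of `D ∩ F` -/
theorem inv_mem_DF {u : DF ℓ N} (hu : rhoF ℓ N u ≠ 0) :
    (u : ↥(modularFunctionFieldFull N))⁻¹ ∈ DF ℓ N :=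
  Fermat.Agent.S28.AbsAlg.inv_mem_of_rho_ne_zero (DF ℓ N) (rhoF ℓ N) ((ℓ : ℕ) : DF ℓ N)
    (rhoF_eq_zero_iff ℓ N) (exists_unit_form_F ℓ N) (coe_ellDF_ne_zero ℓ N) hu

/-- the residue field of `D ∩ F`, as a subfield of `𝔽_ℓ((q))` -/
def resSubfield : Subfield (LaurentSeries (ZMod ℓ)) :=
  { (rhoF ℓ N).range with
    inv_mem' := by
      rintro z ⟨u, rfl⟩
      by_cases hu : rhoF ℓ N u = 0
      · rw [hu, inv_zero]
        exact ⟨0, map_zero _⟩
      · refine ⟨⟨_, inv_mem_DF ℓ N hu⟩, ?_⟩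
        have hu0 : (u : ↥(modularFunctionFieldFull N)) ≠ 0 := by
          intro h
          apply hu
          have : u = 0 := Subtype.ext h
          rw [this, map_zero]
        have h1 : (⟨_, inv_mem_DF ℓ N hu⟩ : DF ℓ N) * u = 1 :=
          Subtype.ext (inv_mul_cancel₀ hu0)
        have h2 := congrArg (rhoF ℓ N) h1
        rw [map_mul, map_one] at h2
        exact eq_inv_of_mul_eq_one_left h2 }

theorem mem_resSubfield_iff {z : LaurentSeries (ZMod ℓ)} :
    z ∈ resSubfield ℓ N ↔ ∃ u : DF ℓ N, rhoF ℓ N u = z := Iff.rfl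

/-- the residue field of `D ∩ F` -/
def resField : IntermediateField (ZMod ℓ) (LaurentSeries (ZMod ℓ)) :=
  (resSubfield ℓ N).toIntermediateField (fun c => by
    rw [mem_resSubfield_iff]
    obtain ⟨a, rfl⟩ := resZ_surjective ℓ c
    refine ⟨cstDF ℓ N a, ?_⟩
    rw [algebraMap_laurentSeries_eq_single]
    exact rhoF_algebraMap ℓ N a)

theorem mem_resField_iff {z : LaurentSeries (ZMod ℓ)} :
    z ∈ resField ℓ N ↔ ∃ u : DF ℓ N, rhoF ℓ N u = z := Iff.rfl

theorem gen_mem_DF (d : ℕ) [NeZero d] (hd : d ∣ N) :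
    (⟨qExpand ℚ d jq, jqd_mem_full N hd⟩ : ↥(modularFunctionFieldFull N)) ∈ DF ℓ N := by
  rw [mem_DF_iff]
  show qExpand ℚ d jq ∈ gaussRing ℓ
  rw [← eps_jdZ ℓ d]
  exact eps_mem_gaussRing ℓ _

theorem rhoF_gen (d : ℕ) [NeZero d] (hd : d ∣ N) :
    rhoF ℓ N ⟨_, gen_mem_DF ℓ N d hd⟩ = qExpand (ZMod ℓ) d (jqModC (ZMod ℓ)) := by
  rw [rhoF_eq_of_eps ℓ N _ (P := jdZ ℓ d) (eps_jdZ ℓ d).symm, redL_jdZ]

/-- **the residue field contains the function field of `X₀(N)` in characteristic `ℓ`** -/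
theorem fullC_le_resField : modularFunctionFieldFullC (ZMod ℓ) N ≤ resField ℓ N := by
  rw [modularFunctionFieldFullC, IntermediateField.adjoin_le_iff]
  rintro x ⟨d, hd, hdN, rfl⟩
  haveI := hd
  exact ⟨⟨_, gen_mem_DF ℓ N d hdN⟩, rhoF_gen ℓ N d hdN⟩

theorem exists_lift {z : LaurentSeries (ZMod ℓ)} (hz : z ∈ modularFunctionFieldFullC (ZMod ℓ) N) :
    ∃ u : DF ℓ N, rhoF ℓ N u = z :=
  fullC_le_resField ℓ N hz

/-- the subfield `𝔽_ℓ(J)` of the function field in characteristic `ℓ` -/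
abbrev kappa : IntermediateField (ZMod ℓ) ↥(modularFunctionFieldFullC (ZMod ℓ) N) :=
  (ZMod ℓ)⟮(⟨jqModC (ZMod ℓ), jqModC_mem_full (ZMod ℓ) N⟩ : modularFunctionFieldFullC (ZMod ℓ) N)⟯

/-- **a family with independent residues**, from `(IG)` -/
theorem exists_family (h : IG N ℓ) :
    ∃ e : Fin (dedekindPsi N) → DF ℓ N, ∀ w : Fin (dedekindPsi N) → kappa ℓ N,
      (∑ i, (((w i : kappa ℓ N) : ↥(modularFunctionFieldFullC (ZMod ℓ) N))
        : LaurentSeries (ZMod ℓ)) * rhoF ℓ N (e i) = 0) → ∀ i, w i = 0 := by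
  obtain ⟨f, hf⟩ := exists_linearIndependent_of_le_finrank h
  choose e he using fun i => exists_lift ℓ N (f i).2
  refine ⟨e, fun w hw => ?_⟩
  have h1 : ∑ i, w i • f i = 0 := by
    apply Subtype.ext
    rw [ZeroMemClass.coe_zero, ← hw]
    rw [IntermediateField.coe_sum]
    refine Finset.sum_congr rfl (fun i _ => ?_)
    rw [he i]
    rfl
  exact Fintype.linearIndependent_iff.1 hf w h1

end Fermat.Agent.S28.Algebra
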