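/-
S28 (Igusa), part P2 / II.3, concrete input for the abstract statements of `AbsAlg.lean`:
`ℤ_(ℓ)` and `ℤ_(ℓ)[τ]` (`τ` transcendental) are integrally closed domains in which `ℓ` is prime.
-/
import Mathlib
import Fermat.Agent.S28.Red

set_option autoImplicit false

noncomputable section

namespace Fermat.Agent.S28.ZlClosed

open Fermat.Agent.S28.Algebra Polynomial

variable (ℓ : ℕ) [Fact ℓ.Prime]

theorem ratLocalizedAt_mem_or_inv_mem (q : ℚ) :
    q ∈ GaloisRep.ratLocalizedAt ℓ ∨ q⁻¹ ∈ GaloisRep.ratLocalizedAt ℓ := by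
  have hp : ℓ.Prime := Fact.out
  by_cases h : q.den.Coprime ℓ
  · exact Or.inl h
  · right
    have hq0 : q ≠ 0 := by
      rintro rfl
      exact h (by simp)
    have hdvd : ℓ ∣ q.den := by
      by_contra hnd
      exact h ((Nat.Prime.coprime_iff_not_dvd hp).mpr hnd).symm
    show (q⁻¹).den.Coprime ℓ
    rw [Rat.den_inv_of_ne_zero hq0]
    apply Nat.Coprime.symm
    rw [Nat.Prime.coprime_iff_not_dvd hp]
    intro hnum
    have hred : q.num.natAbs.Coprime q.den := q.reduced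
    have : ℓ ∣ Nat.gcd q.num.natAbs q.den := Nat.dvd_gcd hnum hdvd
    rw [hred] at this
    exact hp.one_lt.ne' (Nat.dvd_one.mp this)

/-- `ℤ_(ℓ)` as a valuation subring of `ℚ`. -/
def zlValuationSubring : ValuationSubring ℚ :=
  { GaloisRep.ratLocalizedAt ℓ with
    mem_or_inv_mem' := ratLocalizedAt_mem_or_inv_mem ℓ }

theorem zlValuationSubring_toSubring :
    (zlValuationSubring ℓ).toSubring = GaloisRep.ratLocalizedAt ℓ := rfl

theorem isIntegrallyClosed_Zl : IsIntegrallyClosed (Zl ℓ) :=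
  inferInstanceAs (IsIntegrallyClosed (zlValuationSubring ℓ).toSubring)

theorem natCast_dvd_iff (q : Zl ℓ) : ((ℓ : ℕ) : Zl ℓ) ∣ q ↔ resZ ℓ q = 0 :=
  (resZ_eq_zero_iff ℓ q).symm

theorem prime_ell_Zl : Prime ((ℓ : ℕ) : Zl ℓ) := by
  refine ⟨ell_ne_zero ℓ, ?_, ?_⟩
  · intro hu
    have h1 : ((ℓ : ℕ) : Zl ℓ) ∣ 1 := hu.dvd
    rw [natCast_dvd_iff, map_one] at h1
    exact one_ne_zero h1
  · intro a b hab
    rw [natCast_dvd_iff, map_mul] at hab
    rw [natCast_dvd_iff, natCast_dvd_iff]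
    exact mul_eq_zero.mp hab

section adjoin

variable {F : Type*} [Field F] [Algebra (Zl ℓ) F] {τ : F}

theorem isIntegrallyClosed_adjoin (hτ : Transcendental (Zl ℓ) τ) :
    IsIntegrallyClosed ↥(Algebra.adjoin (Zl ℓ) {τ}) := by
  have := isIntegrallyClosed_Zl ℓ
  exact IsIntegrallyClosed.of_equiv
    (Polynomial.algEquivOfTranscendental (Zl ℓ) τ hτ).toRingEquiv

theorem prime_ell_adjoin (hτ : Transcendental (Zl ℓ) τ) :
    Prime ((ℓ : ℕ) : ↥(Algebra.adjoin (Zl ℓ) {τ})) := by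
  have h1 : Prime ((ℓ : ℕ) : (Zl ℓ)[X]) := by
    have : ((ℓ : ℕ) : (Zl ℓ)[X]) = C ((ℓ : ℕ) : Zl ℓ) := by simp
    rw [this, Polynomial.prime_C_iff]
    exact prime_ell_Zl ℓ
  have h2 := (MulEquiv.prime_iff
    (Polynomial.algEquivOfTranscendental (Zl ℓ) τ hτ).toMulEquiv
    (p := ((ℓ : ℕ) : (Zl ℓ)[X]))).mpr h1
  simpa using h2

end adjoin

end Fermat.Agent.S28.ZlClosed
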