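import Mathlib
import Fermat.Agent.S28.P2Res
import Fermat.Agent.S28.ZlClosed

/-!
# S28 (Igusa), algebra part: the descent `B_τ ∩ ℓ D = ℓ B_τ` for a chart `B_τ`, from `(IG)`
-/

set_option autoImplicit false
set_option linter.unusedSectionVars false

noncomputable section

namespace Fermat.Agent.S28.Algebra

open ModularCurve ModularCurve.IgusaScheme IntermediateField

variable (ℓ : ℕ) [Fact ℓ.Prime] (N : ℕ) [NeZero N]

/-- the embedding `𝔽_ℓ(J) → 𝔽_ℓ((q))` -/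
def kappaEmb : kappa ℓ N →+* LaurentSeries (ZMod ℓ) :=
  (algebraMap ↥(modularFunctionFieldFullC (ZMod ℓ) N) (LaurentSeries (ZMod ℓ))).comp
    (algebraMap (kappa ℓ N) ↥(modularFunctionFieldFullC (ZMod ℓ) N))

theorem kappaEmb_apply (w : kappa ℓ N) :
    kappaEmb ℓ N w = (((w : kappa ℓ N) : ↥(modularFunctionFieldFullC (ZMod ℓ) N))
      : LaurentSeries (ZMod ℓ)) := rfl

theorem C_mem_range_kappaEmb (c : ZMod ℓ) :
    (HahnSeries.C c : LaurentSeries (ZMod ℓ)) ∈ (kappaEmb ℓ N).range := by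
  refine ⟨((c.val : ℕ) : kappa ℓ N), ?_⟩
  rw [map_natCast]
  have : ((c.val : ℕ) : LaurentSeries (ZMod ℓ)) = HahnSeries.C ((c.val : ℕ) : ZMod ℓ) := by
    rw [map_natCast]
  rw [this, ZMod.natCast_zmod_val]

theorem eval₂_mem_range_kappaEmb (t : kappa ℓ N) (p : Polynomial (ZMod ℓ)) :
    Polynomial.eval₂ (HahnSeries.C : ZMod ℓ →+* LaurentSeries (ZMod ℓ)) (kappaEmb ℓ N t) p
      ∈ (kappaEmb ℓ N).range := by
  rw [Polynomial.eval₂_eq_sum_range]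
  refine Subring.sum_mem _ (fun i _ => ?_)
  have ht : kappaEmb ℓ N t ∈ (kappaEmb ℓ N).range := ⟨t, rfl⟩
  exact Subring.mul_mem _ (C_mem_range_kappaEmb ℓ N _) (Subring.pow_mem _ ht _)

section Core

variable (τ : DF ℓ N)
  (htr : ∀ p : Polynomial (ZMod ℓ),
    Polynomial.eval₂ (HahnSeries.C : ZMod ℓ →+* LaurentSeries (ZMod ℓ)) (rhoF ℓ N τ) p = 0 → p = 0)
  (hτκ : ∃ t : kappa ℓ N, kappaEmb ℓ N t = rhoF ℓ N τ)

include htr in
/-- elements of `D ∩ ℚ(τ)` are fractions with unit denominators in `ℤ_(ℓ)[τ]` -/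
theorem exists_unit_fraction (c : DF ℓ N)
    (hc : (c : ↥(modularFunctionFieldFull N)) ∈ ℚ⟮(τ : ↥(modularFunctionFieldFull N))⟯) :
    ∃ a b : ↥(Algebra.adjoin (Zl ℓ) {(τ : ↥(modularFunctionFieldFull N))}),
      rhoF ℓ N ⟨(b : ↥(modularFunctionFieldFull N)), adjoin_le_DF ℓ N τ _ b.2⟩ ≠ 0 ∧
        (c : ↥(modularFunctionFieldFull N)) * (b : ↥(modularFunctionFieldFull N))
          = (a : ↥(modularFunctionFieldFull N)) :=
  Fermat.Agent.S28.AbsAlg.exists_unit_denominator (DF ℓ N) (rhoF ℓ N) ((ℓ : ℕ) : DF ℓ N)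
    (coe_ellDF_ne_zero ℓ N) (rhoF_eq_zero_iff ℓ N) (exists_unit_form_F ℓ N)
    ℚ⟮(τ : ↥(modularFunctionFieldFull N))⟯
    (Algebra.adjoin (Zl ℓ) {(τ : ↥(modularFunctionFieldFull N))}) (adjoin_le_DF ℓ N τ)
    (fun c hc => exists_fraction ℓ N _ c hc)
    (fun a ha => gauss_adjoin ℓ N τ htr a ha) c hc

include htr hτκ in
/-- residues of `D ∩ ℚ(τ)` lie in `𝔽_ℓ(J)` -/
theorem exists_kappa_eq (c : DF ℓ N)
    (hc : (c : ↥(modularFunctionFieldFull N)) ∈ ℚ⟮(τ : ↥(modularFunctionFieldFull N))⟯) :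
    ∃ w : kappa ℓ N, kappaEmb ℓ N w = rhoF ℓ N c := by
  obtain ⟨a, b, hb, hab⟩ := exists_unit_fraction ℓ N τ htr c hc
  obtain ⟨t, ht⟩ := hτκ
  obtain ⟨pa, hpa⟩ := rhoF_adjoin ℓ N τ a
  obtain ⟨pb, hpb⟩ := rhoF_adjoin ℓ N τ b
  rw [← ht] at hpa hpb
  obtain ⟨wa, hwa⟩ := eval₂_mem_range_kappaEmb ℓ N t pa
  obtain ⟨wb, hwb⟩ := eval₂_mem_range_kappaEmb ℓ N t pb
  refine ⟨wa / wb, ?_⟩
  rw [map_div₀, hwa, hwb, ← hpa, ← hpb]
  have h1 : c * ⟨(b : ↥(modularFunctionFieldFull N)), adjoin_le_DF ℓ N τ _ b.2⟩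
      = ⟨(a : ↥(modularFunctionFieldFull N)), adjoin_le_DF ℓ N τ _ a.2⟩ := Subtype.ext hab
  have h2 := congrArg (rhoF ℓ N) h1
  rw [map_mul] at h2
  rw [← h2]
  field_simp

include htr hτκ in
/-- **the descent**: `ℓ y ∈ B_τ`, `y ∈ D ∩ F` ⇒ `y ∈ B_τ` -/
theorem descent_core
    (htrZ : Transcendental (Zl ℓ) (τ : ↥(modularFunctionFieldFull N)))
    (hfin : FiniteDimensional ℚ⟮(τ : ↥(modularFunctionFieldFull N))⟯
      ↥(modularFunctionFieldFull N))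
    (hdeg : Module.finrank ℚ⟮(τ : ↥(modularFunctionFieldFull N))⟯
      ↥(modularFunctionFieldFull N) ≤ dedekindPsi N)
    (hIG : IG N ℓ) (y : DF ℓ N)
    (hy : ((ℓ : ℕ) : ↥(modularFunctionFieldFull N)) * (y : ↥(modularFunctionFieldFull N))
      ∈ chartAlg N ℓ {(τ : ↥(modularFunctionFieldFull N))}) :
    (y : ↥(modularFunctionFieldFull N)) ∈ chartAlg N ℓ {(τ : ↥(modularFunctionFieldFull N))} := by
  obtain ⟨e, he⟩ := exists_family ℓ N hIG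
  haveI := hfin
  haveI : IsIntegrallyClosed ↥(Algebra.adjoin (Zl ℓ) {(τ : ↥(modularFunctionFieldFull N))}) :=
    Fermat.Agent.S28.ZlClosed.isIntegrallyClosed_adjoin ℓ htrZ
  rw [mem_chartAlg_iff] at hy ⊢
  refine Fermat.Agent.S28.AbsAlg.isIntegral_of_pi_mul_isIntegral (DF ℓ N) (rhoF ℓ N)
    ((ℓ : ℕ) : DF ℓ N) (coe_ellDF_ne_zero ℓ N) (rhoF_eq_zero_iff ℓ N) (exists_unit_form_F ℓ N)
    ℚ⟮(τ : ↥(modularFunctionFieldFull N))⟯
    (Algebra.adjoin (Zl ℓ) {(τ : ↥(modularFunctionFieldFull N))}) (adjoin_le_DF ℓ N τ)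
    (fun c hc => exists_unit_fraction ℓ N τ htr c hc)
    (dedekindPsi N) hdeg e ?_
    ((ℓ : ℕ) : ↥(Algebra.adjoin (Zl ℓ) {(τ : ↥(modularFunctionFieldFull N))}))
    (Fermat.Agent.S28.ZlClosed.prime_ell_adjoin ℓ htrZ) ?_ y ?_
  · intro g hg hsum i
    choose w hw using fun i => exists_kappa_eq ℓ N τ htr hτκ (g i) (hg i)
    have h1 : ∀ i, w i = 0 := he w (by
      rw [← hsum]
      refine Finset.sum_congr rfl (fun i _ => ?_)
      rw [← kappaEmb_apply, hw i])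
    rw [← hw i, h1 i, map_zero]
  · simp
  · have : ((((ℓ : ℕ) : DF ℓ N) : DF ℓ N) : ↥(modularFunctionFieldFull N))
        = ((ℓ : ℕ) : ↥(modularFunctionFieldFull N)) := by simp
    rw [this]
    exact hy

end Core

end Fermat.Agent.S28.Algebra
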