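import Mathlib
import Fermat.Agent.S28.P2Core

/-!
# S28 (Igusa), algebra part: the descent for the three charts (modulo the degree bound in
characteristic `0`)
-/

set_option autoImplicit false
set_option linter.unusedSectionVars false

noncomputable section

namespace Fermat.Agent.S28.Algebra

open ModularCurve ModularCurve.IgusaScheme IntermediateField

variable (ℓ : ℕ) [Fact ℓ.Prime] (N : ℕ) [NeZero N]

/-- `j` as an element of `D ∩ F` -/
def tauJ : DF ℓ N := ⟨jFull N, jFull_mem_DF ℓ N⟩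

/-- `j⁻¹` as an element of `D ∩ F` -/
def tauJinv : DF ℓ N := ⟨(jFull N)⁻¹, jFull_inv_mem_DF ℓ N⟩

theorem rhoF_tauJ : rhoF ℓ N (tauJ ℓ N) = jqModC (ZMod ℓ) := rhoF_jFull ℓ N

theorem rhoF_tauJinv : rhoF ℓ N (tauJinv ℓ N) = (jqModC (ZMod ℓ))⁻¹ := rhoF_jFull_inv ℓ N

theorem htr_tauJ (p : Polynomial (ZMod ℓ))
    (h : Polynomial.eval₂ (HahnSeries.C : ZMod ℓ →+* LaurentSeries (ZMod ℓ))
      (rhoF ℓ N (tauJ ℓ N)) p = 0) : p = 0 := by
  rw [rhoF_tauJ] at h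
  exact eq_zero_of_eval₂_jqModC (ZMod ℓ) h

theorem htr_tauJinv (p : Polynomial (ZMod ℓ))
    (h : Polynomial.eval₂ (HahnSeries.C : ZMod ℓ →+* LaurentSeries (ZMod ℓ))
      (rhoF ℓ N (tauJinv ℓ N)) p = 0) : p = 0 := by
  rw [rhoF_tauJinv] at h
  exact eq_zero_of_eval₂_inv _ (jqModC_ZMod_ne_zero ℓ)
    (fun p hp => eq_zero_of_eval₂_jqModC (ZMod ℓ) hp) h

/-- `J` as an element of `𝔽_ℓ(J)` -/
def Jkappa : kappa ℓ N :=
  ⟨⟨jqModC (ZMod ℓ), jqModC_mem_full (ZMod ℓ) N⟩, mem_adjoin_simple_self _ _⟩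

theorem kappaEmb_Jkappa : kappaEmb ℓ N (Jkappa ℓ N) = jqModC (ZMod ℓ) := rfl

theorem hκ_tauJ : ∃ t : kappa ℓ N, kappaEmb ℓ N t = rhoF ℓ N (tauJ ℓ N) :=
  ⟨Jkappa ℓ N, by rw [kappaEmb_Jkappa, rhoF_tauJ]⟩

theorem hκ_tauJinv : ∃ t : kappa ℓ N, kappaEmb ℓ N t = rhoF ℓ N (tauJinv ℓ N) :=
  ⟨(Jkappa ℓ N)⁻¹, by rw [map_inv₀, kappaEmb_Jkappa, rhoF_tauJinv]⟩

/-! ### transcendence over `ℤ_(ℓ)` -/

theorem coe_aeval_F (τ : ↥(modularFunctionFieldFull N)) (p : Polynomial (Zl ℓ)) :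
    ((Polynomial.aeval τ p : ↥(modularFunctionFieldFull N)) : LaurentSeries ℚ)
      = Polynomial.eval₂ ((eps ℓ).comp (HahnSeries.C : Zl ℓ →+* LaurentSeries (Zl ℓ)))
          (τ : LaurentSeries ℚ) p := by
  rw [Polynomial.aeval_def]
  have h := Polynomial.hom_eval₂ p (algebraMap (Zl ℓ) ↥(modularFunctionFieldFull N))
    (algebraMap ↥(modularFunctionFieldFull N) (LaurentSeries ℚ)) τ
  have hcomp : (algebraMap ↥(modularFunctionFieldFull N) (LaurentSeries ℚ)).comp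
      (algebraMap (Zl ℓ) ↥(modularFunctionFieldFull N))
        = (eps ℓ).comp (HahnSeries.C : Zl ℓ →+* LaurentSeries (Zl ℓ)) := by
    ext a : 1
    exact coe_algebraMap_F ℓ N a
  rw [hcomp] at h
  exact h

theorem eval₂_algebraMap_jFull {p : Polynomial (Zl ℓ)}
    (h : Polynomial.eval₂ (algebraMap (Zl ℓ) ↥(modularFunctionFieldFull N)) (jFull N) p = 0) :
    p = 0 := by
  have h1 : ((Polynomial.aeval (jFull N) p : ↥(modularFunctionFieldFull N)) : LaurentSeries ℚ)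
      = 0 := by
    rw [Polynomial.aeval_def, h]; rfl
  rw [coe_aeval_F, coe_jFull_eq ℓ N, ← Polynomial.hom_eval₂, eps_eq_zero_iff] at h1
  exact eq_zero_of_eval₂_jqModC (Zl ℓ) h1

theorem transcendental_jFull : Transcendental (Zl ℓ) (jFull N) := by
  rw [transcendental_iff]
  intro p hp
  rw [Polynomial.aeval_def] at hp
  exact eval₂_algebraMap_jFull ℓ N hp

theorem transcendental_jFull_inv : Transcendental (Zl ℓ) (jFull N)⁻¹ := by
  rw [transcendental_iff]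
  intro p hp
  rw [Polynomial.aeval_def] at hp
  exact eq_zero_of_eval₂_inv _ (jFull_ne_zero N) (fun p hp => eval₂_algebraMap_jFull ℓ N hp) hp

/-! ### the descent for the three charts -/

/-- the degree bound in characteristic `0` for `τ` -/
def DegBound (τ : ↥(modularFunctionFieldFull N)) : Prop :=
  FiniteDimensional ℚ⟮τ⟯ ↥(modularFunctionFieldFull N) ∧
    Module.finrank ℚ⟮τ⟯ ↥(modularFunctionFieldFull N) ≤ dedekindPsi N

theorem descent_fin (hd : DegBound N (jFull N)) (hIG : IG N ℓ) (y : DF ℓ N)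
    (hy : ((ℓ : ℕ) : ↥(modularFunctionFieldFull N)) * (y : ↥(modularFunctionFieldFull N))
      ∈ chartAlgFin N ℓ) :
    (y : ↥(modularFunctionFieldFull N)) ∈ chartAlgFin N ℓ :=
  descent_core ℓ N (tauJ ℓ N) (htr_tauJ ℓ N) (hκ_tauJ ℓ N) (transcendental_jFull ℓ N)
    hd.1 hd.2 hIG y hy

theorem descent_inf (hd : DegBound N (jFull N)⁻¹) (hIG : IG N ℓ) (y : DF ℓ N)
    (hy : ((ℓ : ℕ) : ↥(modularFunctionFieldFull N)) * (y : ↥(modularFunctionFieldFull N))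
      ∈ chartAlgInf N ℓ) :
    (y : ↥(modularFunctionFieldFull N)) ∈ chartAlgInf N ℓ :=
  descent_core ℓ N (tauJinv ℓ N) (htr_tauJinv ℓ N) (hκ_tauJinv ℓ N)
    (transcendental_jFull_inv ℓ N) hd.1 hd.2 hIG y hy

theorem descent_mid (hd : DegBound N (jFull N)) (hIG : IG N ℓ) (y : DF ℓ N)
    (hy : ((ℓ : ℕ) : ↥(modularFunctionFieldFull N)) * (y : ↥(modularFunctionFieldFull N))
      ∈ chartAlgMid N ℓ) :
    (y : ↥(modularFunctionFieldFull N)) ∈ chartAlgMid N ℓ := by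
  have hset : insert (jFull N)⁻¹ ({jFull N} : Set ↥(modularFunctionFieldFull N))
      = {jFull N, (jFull N)⁻¹} := by
    ext x; simp [or_comm]
  have hy' : ((ℓ : ℕ) : ↥(modularFunctionFieldFull N)) * (y : ↥(modularFunctionFieldFull N))
      ∈ chartAlg N ℓ (insert (jFull N)⁻¹ ({jFull N} : Set ↥(modularFunctionFieldFull N))) := by
    rw [hset]; exact hy
  obtain ⟨n, hn⟩ := exists_pow_mul_mem_chartAlg (Set.mem_singleton _) (jFull_ne_zero N) hy'
  -- `jⁿ y ∈ D ∩ F` and `ℓ (jⁿ y) ∈ B_fin`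
  let z : DF ℓ N := (tauJ ℓ N) ^ n * y
  have hz : ((ℓ : ℕ) : ↥(modularFunctionFieldFull N)) * (z : ↥(modularFunctionFieldFull N))
      ∈ chartAlgFin N ℓ := by
    have : ((ℓ : ℕ) : ↥(modularFunctionFieldFull N)) * (z : ↥(modularFunctionFieldFull N))
        = jFull N ^ n * (((ℓ : ℕ) : ↥(modularFunctionFieldFull N))
          * (y : ↥(modularFunctionFieldFull N))) := by
      show ((ℓ : ℕ) : ↥(modularFunctionFieldFull N)) * (jFull N ^ n * (y : ↥(modularFunctionFieldFull N))) = _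
      ring
    rw [this]
    exact hn
  have hz' := descent_fin ℓ N hd hIG z hz
  have hz'' : (z : ↥(modularFunctionFieldFull N)) ∈ chartAlgMid N ℓ :=
    chartAlg_mono N ℓ (sFin_subset N) hz'
  have hjinv : (jFull N)⁻¹ ∈ chartAlgMid N ℓ := subset_chartAlg N ℓ _ (by simp)
  have : (y : ↥(modularFunctionFieldFull N))
      = (jFull N)⁻¹ ^ n * (z : ↥(modularFunctionFieldFull N)) := by
    show _ = (jFull N)⁻¹ ^ n * (jFull N ^ n * (y : ↥(modularFunctionFieldFull N)))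
    have h := jFull_ne_zero N
    rw [← mul_assoc, ← mul_pow, inv_mul_cancel₀ h, one_pow, one_mul]
  rw [this]
  exact Subalgebra.mul_mem _ (Subalgebra.pow_mem _ hjinv n) hz''

/-! ### the three kernel statements -/

theorem exists_rho_fin_of (hd : DegBound N (jFull N)) (hIG : IG N ℓ) :
    ∃ ρ : chartAlgFin N ℓ →+* LaurentSeries (ZMod ℓ),
      RingHom.ker ρ = Ideal.span {((ℓ : ℕ) : chartAlgFin N ℓ)} :=
  ⟨rhoChart ℓ N _ (sFin_subset N),
    ker_rhoChart_eq ℓ N _ (sFin_subset N) (descent_fin ℓ N hd hIG)⟩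

theorem exists_rho_inf_of (hd : DegBound N (jFull N)⁻¹) (hIG : IG N ℓ) :
    ∃ ρ : chartAlgInf N ℓ →+* LaurentSeries (ZMod ℓ),
      RingHom.ker ρ = Ideal.span {((ℓ : ℕ) : chartAlgInf N ℓ)} :=
  ⟨rhoChart ℓ N _ (sInf_subset N),
    ker_rhoChart_eq ℓ N _ (sInf_subset N) (descent_inf ℓ N hd hIG)⟩

theorem exists_rho_mid_of (hd : DegBound N (jFull N)) (hIG : IG N ℓ) :
    ∃ ρ : chartAlgMid N ℓ →+* LaurentSeries (ZMod ℓ),
      RingHom.ker ρ = Ideal.span {((ℓ : ℕ) : chartAlgMid N ℓ)} :=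
  ⟨rhoChart ℓ N _ (le_refl _),
    ker_rhoChart_eq ℓ N _ (le_refl _) (descent_mid ℓ N hd hIG)⟩

end Fermat.Agent.S28.Algebra
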