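import Mathlib
import Fermat.Agent.S28.P2Final
import Fermat.Agent.S28.P2Deg

/-!
# S28 (Igusa), algebra part P2: `(IG) ⇒ ker ρ = (ℓ)` on the three charts

`exists_rho_fin`, `exists_rho_inf`, `exists_rho_mid`: from the degree inequality `IG N ℓ` in
characteristic `ℓ`, each chart `B` of the Igusa scheme has a ring homomorphism
`ρ : B →+* 𝔽_ℓ((q))` with kernel `(ℓ)`.
-/

set_option autoImplicit false

noncomputable section

namespace Fermat.Agent.S28.Algebra

open ModularCurve ModularCurve.IgusaScheme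

variable (N : ℕ) [NeZero N] (ℓ : ℕ) [Fact ℓ.Prime]

theorem exists_rho_fin (h : IG N ℓ) :
    ∃ ρ : chartAlgFin N ℓ →+* LaurentSeries (ZMod ℓ),
      RingHom.ker ρ = Ideal.span {((ℓ : ℕ) : chartAlgFin N ℓ)} :=
  exists_rho_fin_of ℓ N (degBound_j N) h

theorem exists_rho_inf (h : IG N ℓ) :
    ∃ ρ : chartAlgInf N ℓ →+* LaurentSeries (ZMod ℓ),
      RingHom.ker ρ = Ideal.span {((ℓ : ℕ) : chartAlgInf N ℓ)} :=
  exists_rho_inf_of ℓ N (degBound_jinv N) h

theorem exists_rho_mid (h : IG N ℓ) :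
    ∃ ρ : chartAlgMid N ℓ →+* LaurentSeries (ZMod ℓ),
      RingHom.ker ρ = Ideal.span {((ℓ : ℕ) : chartAlgMid N ℓ)} :=
  exists_rho_mid_of ℓ N (degBound_j N) h

end Fermat.Agent.S28.Algebra
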