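import Mathlib
import Fermat.Prelude.Def_GaloisRep_Flat
import Fermat.Prelude.Def_ModularCurve_LaurentCoeff

/-!
# S28, piece II.4: `K ⊗ B` is a domain

`R = ℤ_(ℓ)` (`GaloisRep.ratLocalizedAt ℓ`), `B` a commutative `R`-algebra with a ring homomorphism
`ρ : B → 𝔽_ℓ((q))` whose kernel is `ℓ B`, `K` a field of characteristic `ℓ` (an `R`-algebra).
Then `K ⊗[R] B` embeds into `K((q))`, so it is a domain.
-/

set_option autoImplicit false
set_option linter.unusedSectionVars false
set_option linter.style.haveILetI false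

open scoped TensorProduct

noncomputable section

namespace Fermat.Agent.S28

variable (ℓ : ℕ)

/-- In `ℤ_(ℓ)` every element is `n · u` with `n` an integer and `u` the inverse of a natural
number. -/
theorem ratLoc_exists_eq (r : ↥(GaloisRep.ratLocalizedAt ℓ)) :
    ∃ (n : ℤ) (d : ℕ) (u : ↥(GaloisRep.ratLocalizedAt ℓ)),
      (d : ↥(GaloisRep.ratLocalizedAt ℓ)) * u = 1 ∧ r = (n : ↥(GaloisRep.ratLocalizedAt ℓ)) * u := by
  have hd : ((r : ℚ).den : ℚ) ≠ 0 := by exact_mod_cast (r : ℚ).den_nz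
  have hu : (((r : ℚ).den : ℚ)⁻¹) ∈ GaloisRep.ratLocalizedAt ℓ := by
    show (((r : ℚ).den : ℚ)⁻¹).den.Coprime ℓ
    rw [Rat.inv_natCast_den_of_pos (r : ℚ).den_pos]
    exact r.2
  refine ⟨(r : ℚ).num, (r : ℚ).den, ⟨_, hu⟩, ?_, ?_⟩
  · apply Subtype.ext
    simp [hd]
  · apply Subtype.ext
    simp only [Subring.coe_mul, Subring.coe_intCast]
    exact (Rat.num_div_den (r : ℚ)).symm.trans (div_eq_mul_inv _ _)

/-- Ring homomorphisms out of `ℤ_(ℓ)` are unique. -/
theorem ratLoc_ringHom_ext {S : Type*} [Ring S] (f g : ↥(GaloisRep.ratLocalizedAt ℓ) →+* S) :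
    f = g := by
  ext r
  obtain ⟨n, d, u, hdu, rfl⟩ := ratLoc_exists_eq ℓ r
  have hud : u * (d : ↥(GaloisRep.ratLocalizedAt ℓ)) = 1 := by rw [mul_comm]; exact hdu
  have hfu : f u = g u := by
    calc f u = f u * g ((d : ↥(GaloisRep.ratLocalizedAt ℓ)) * u) := by rw [hdu, map_one, mul_one]
      _ = f u * (f (d : ↥(GaloisRep.ratLocalizedAt ℓ)) * g u) := by
          rw [map_mul, map_natCast, map_natCast]
      _ = f (u * (d : ↥(GaloisRep.ratLocalizedAt ℓ))) * g u := by rw [map_mul, mul_assoc]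
      _ = g u := by rw [hud, map_one, one_mul]
  rw [map_mul, map_mul, map_intCast, map_intCast, hfu]

section TensorDomain

/-- A type synonym of `K((q))`, to control its algebra structures. -/
def LaurentK (K : Type*) [Field K] : Type _ := LaurentSeries K

instance laurentKCommRing (K : Type*) [Field K] : CommRing (LaurentK K) :=
  inferInstanceAs (CommRing (LaurentSeries K))

instance laurentKIsDomain (K : Type*) [Field K] : IsDomain (LaurentK K) :=
  inferInstanceAs (IsDomain (LaurentSeries K))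

/-- The identity `K((q)) → LaurentK K`. -/
def toLaurentK (K : Type*) [Field K] : LaurentSeries K →+* LaurentK K := RingHom.id _

/-- Coefficients of an element of `LaurentK K`. -/
def LaurentK.coeff {K : Type*} [Field K] (x : LaurentK K) (n : ℤ) : K :=
  HahnSeries.coeff (show LaurentSeries K from x) n

theorem LaurentK.ext {K : Type*} [Field K] {x y : LaurentK K} (h : ∀ n, x.coeff n = y.coeff n) :
    x = y :=
  HahnSeries.ext (funext h)

theorem LaurentK.coeff_toLaurentK {K : Type*} [Field K] (x : LaurentSeries K) (n : ℤ) :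
    (toLaurentK K x).coeff n = x.coeff n := rfl

theorem LaurentK.coeff_zero {K : Type*} [Field K] (n : ℤ) : (0 : LaurentK K).coeff n = 0 := rfl

theorem LaurentK.coeff_add {K : Type*} [Field K] (x y : LaurentK K) (n : ℤ) :
    (x + y).coeff n = x.coeff n + y.coeff n := rfl

instance laurentKAlgebra (K : Type*) [Field K] : Algebra K (LaurentK K) :=
  ((toLaurentK K).comp (HahnSeries.C : K →+* LaurentSeries K)).toAlgebra

theorem LaurentK.coeff_algebraMap_mul {K : Type*} [Field K] (k : K) (x : LaurentK K) (n : ℤ) :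
    (algebraMap K (LaurentK K) k * x).coeff n = k * x.coeff n := by
  show HahnSeries.coeff ((HahnSeries.C k : LaurentSeries K) * (show LaurentSeries K from x)) n = _
  rw [HahnSeries.C_mul_eq_smul, HahnSeries.coeff_smul, smul_eq_mul]
  rfl

variable [Fact ℓ.Prime] (B : Type*) [CommRing B] [Algebra ↥(GaloisRep.ratLocalizedAt ℓ) B]
  (K : Type*) [Field K] [CharP K ℓ] [Algebra ↥(GaloisRep.ratLocalizedAt ℓ) K]
  (ρ : B →+* LaurentSeries (ZMod ℓ))

instance laurentKAlgebraRatLoc : Algebra ↥(GaloisRep.ratLocalizedAt ℓ) (LaurentK K) :=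
  ((algebraMap K (LaurentK K)).comp (algebraMap ↥(GaloisRep.ratLocalizedAt ℓ) K)).toAlgebra

instance laurentKIsScalarTower :
    IsScalarTower ↥(GaloisRep.ratLocalizedAt ℓ) K (LaurentK K) :=
  IsScalarTower.of_algebraMap_eq fun _ => rfl

/-- The composite `B → 𝔽_ℓ((q)) → K((q))` as an `ℤ_(ℓ)`-algebra homomorphism. -/
def tensorDomainPsi : B →ₐ[↥(GaloisRep.ratLocalizedAt ℓ)] LaurentK K :=
  { ((toLaurentK K).comp (ModularCurve.coeffMap (ZMod.castHom (dvd_refl ℓ) K))).comp ρ with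
    commutes' := fun r => by
      have h := ratLoc_ringHom_ext ℓ
        ((((toLaurentK K).comp (ModularCurve.coeffMap (ZMod.castHom (dvd_refl ℓ) K))).comp ρ).comp
          (algebraMap ↥(GaloisRep.ratLocalizedAt ℓ) B))
        (algebraMap ↥(GaloisRep.ratLocalizedAt ℓ) (LaurentK K))
      exact congrArg (fun f => f r) h }

theorem coeff_tensorDomainPsi (y : B) (n : ℤ) :
    (tensorDomainPsi ℓ B K ρ y).coeff n = ZMod.castHom (dvd_refl ℓ) K ((ρ y).coeff n) := rfl

/-- The map `K ⊗ B → K((q))`. -/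
def tensorDomainPhi : K ⊗[↥(GaloisRep.ratLocalizedAt ℓ)] B →ₐ[K] LaurentK K :=
  Algebra.TensorProduct.lift (Algebra.ofId K (LaurentK K)) (tensorDomainPsi ℓ B K ρ)
    (fun _ _ => Commute.all _ _)

theorem coeff_tensorDomainPhi_tmul (k : K) (y : B) (n : ℤ) :
    (tensorDomainPhi ℓ B K ρ (k ⊗ₜ y)).coeff n =
      k * ZMod.castHom (dvd_refl ℓ) K ((ρ y).coeff n) := by
  rw [tensorDomainPhi, Algebra.TensorProduct.lift_tmul, Algebra.ofId_apply,
    LaurentK.coeff_algebraMap_mul, coeff_tensorDomainPsi]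

theorem LaurentK.coeff_map_sum {K : Type*} [Field K] {α : Type*} (s : Finset α)
    (f : α → LaurentK K) (n : ℤ) : (∑ i ∈ s, f i).coeff n = ∑ i ∈ s, (f i).coeff n := by
  classical
  induction s using Finset.induction_on with
  | empty => simp [LaurentK.coeff_zero]
  | insert a s ha ih => rw [Finset.sum_insert ha, Finset.sum_insert ha, LaurentK.coeff_add, ih]

variable {ι : Type*} [Algebra (ZMod ℓ) K] (b : Module.Basis ι (ZMod ℓ) K)

theorem algebraMap_zmod_eq_castHom (a : ZMod ℓ) :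
    algebraMap (ZMod ℓ) K a = ZMod.castHom (dvd_refl ℓ) K a :=
  congrArg (fun f => f a) (RingHom.ext_zmod (algebraMap (ZMod ℓ) K) (ZMod.castHom (dvd_refl ℓ) K))

/-- Every element of `K ⊗ B` is `∑ bᵢ ⊗ cᵢ`. -/
theorem exists_repr_tensor (x : K ⊗[↥(GaloisRep.ratLocalizedAt ℓ)] B) :
    ∃ c : ι →₀ B, x = c.sum (fun i y => b i ⊗ₜ[↥(GaloisRep.ratLocalizedAt ℓ)] y) := by
  classical
  induction x using TensorProduct.induction_on with
  | zero => exact ⟨0, Finsupp.sum_zero_index.symm⟩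
  | tmul k y =>
    refine ⟨(b.repr k).mapRange (fun a => ((a.val : ℕ) : ↥(GaloisRep.ratLocalizedAt ℓ)) • y)
      (by rw [ZMod.val_zero, Nat.cast_zero, zero_smul]), ?_⟩
    rw [Finsupp.sum_mapRange_index (fun i => TensorProduct.tmul_zero _ _)]
    have hk : k = (b.repr k).sum (fun i a => a • b i) := (b.linearCombination_repr k).symm
    conv_lhs => rw [hk]
    rw [Finsupp.sum, Finsupp.sum, TensorProduct.sum_tmul]
    refine Finset.sum_congr rfl fun i _ => ?_
    have h2 : (b.repr k) i • b i =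
        ((((b.repr k) i).val : ℕ) : ↥(GaloisRep.ratLocalizedAt ℓ)) • b i := by
      rw [Algebra.smul_def, Algebra.smul_def, algebraMap_zmod_eq_castHom, map_natCast,
        ZMod.castHom_apply, ZMod.natCast_val]
    rw [h2]
    exact TensorProduct.smul_tmul _ _ _
  | add x y hx hy =>
    obtain ⟨c, rfl⟩ := hx
    obtain ⟨d, rfl⟩ := hy
    refine ⟨c + d, ?_⟩
    rw [Finsupp.sum_add_index' (fun i => TensorProduct.tmul_zero _ _)
      (fun i y z => TensorProduct.tmul_add _ _ _)]

/-- If `∑ bᵢ ⊗ cᵢ` maps to `0` in `K((q))`, then every `ρ cᵢ` is zero. -/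
theorem rho_eq_zero_of_phi_eq_zero (c : ι →₀ B)
    (h : tensorDomainPhi ℓ B K ρ
      (c.sum (fun i y => b i ⊗ₜ[↥(GaloisRep.ratLocalizedAt ℓ)] y)) = 0) (i : ι) :
    ρ (c i) = 0 := by
  classical
  ext n
  rw [HahnSeries.coeff_zero]
  have hn : (tensorDomainPhi ℓ B K ρ
      (c.sum (fun i y => b i ⊗ₜ[↥(GaloisRep.ratLocalizedAt ℓ)] y))).coeff n = 0 := by
    rw [h, LaurentK.coeff_zero]
  rw [Finsupp.sum, map_sum, LaurentK.coeff_map_sum] at hn
  have hn' : ∑ j ∈ c.support, ((ρ (c j)).coeff n) • b j = 0 := by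
    rw [← hn]
    refine Finset.sum_congr rfl fun j _ => ?_
    rw [coeff_tensorDomainPhi_tmul, Algebra.smul_def, algebraMap_zmod_eq_castHom, mul_comm]
  by_cases hi : i ∈ c.support
  · exact linearIndependent_iff'.mp b.linearIndependent c.support
      (fun j => (ρ (c j)).coeff n) hn' i hi
  · rw [Finsupp.notMem_support_iff.mp hi, map_zero, HahnSeries.coeff_zero]

theorem tensorDomainPhi_injective (b : Module.Basis ι (ZMod ℓ) K)
    (hρ : RingHom.ker ρ = Ideal.span {(ℓ : B)}) :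
    Function.Injective (tensorDomainPhi ℓ B K ρ) := by
  classical
  rw [injective_iff_map_eq_zero]
  intro x hx
  obtain ⟨c, rfl⟩ := exists_repr_tensor ℓ B K b x
  rw [Finsupp.sum]
  refine Finset.sum_eq_zero fun i _ => ?_
  have hi : c i ∈ RingHom.ker ρ := rho_eq_zero_of_phi_eq_zero ℓ B K ρ b c hx i
  rw [hρ, Ideal.mem_span_singleton'] at hi
  obtain ⟨d, hd⟩ := hi
  have h1 : c i = ((ℓ : ℕ) : ↥(GaloisRep.ratLocalizedAt ℓ)) • d := by
    rw [← hd, Algebra.smul_def, map_natCast, mul_comm]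
  rw [h1, TensorProduct.tmul_smul, TensorProduct.smul_tmul', Algebra.smul_def, map_natCast,
    CharP.cast_eq_zero, zero_mul, TensorProduct.zero_tmul]

end TensorDomain

/-- **II.4**: if `ρ : B → 𝔽_ℓ((q))` has kernel `ℓ B`, then `K ⊗ B` is a domain for every field `K`
of characteristic `ℓ`. -/
theorem isDomain_tensor_of_ker_eq_span [Fact ℓ.Prime] (B : Type*) [CommRing B]
    [Algebra ↥(GaloisRep.ratLocalizedAt ℓ) B] (K : Type*) [Field K] [CharP K ℓ]
    [Algebra ↥(GaloisRep.ratLocalizedAt ℓ) K] (ρ : B →+* LaurentSeries (ZMod ℓ))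
    (hρ : RingHom.ker ρ = Ideal.span {(ℓ : B)}) :
    IsDomain (K ⊗[↥(GaloisRep.ratLocalizedAt ℓ)] B) := by
  letI : Algebra (ZMod ℓ) K := ZMod.algebra K ℓ
  exact Function.Injective.isDomain (tensorDomainPhi ℓ B K ρ).toRingHom
    (tensorDomainPhi_injective ℓ B K ρ (Module.Free.chooseBasis (ZMod ℓ) K) hρ)

end Fermat.Agent.S28
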