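import Fermat.Agent.S28.Glue
import Fermat.Agent.S28.TensorDomain

/-!
# S28: assembly of the scheme glue (P1) with II.4

`isIntegral_pullback_of_rho`: S28 follows from the existence, for each of the three chart algebras
`B`, of a ring homomorphism `ρ : B → 𝔽_ℓ((q))` with kernel `ℓ B`.
-/

set_option autoImplicit false

open AlgebraicGeometry CategoryTheory CategoryTheory.Limits ModularCurve ModularCurve.IgusaScheme
open scoped TensorProduct

noncomputable section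

namespace Fermat.Agent.S28

theorem isIntegral_pullback_of_rho (N : ℕ) [NeZero N] (ℓ : ℕ) [Fact ℓ.Prime]
    (hfin : ∃ ρ : chartAlgFin N ℓ →+* LaurentSeries (ZMod ℓ),
      RingHom.ker ρ = Ideal.span {(ℓ : chartAlgFin N ℓ)})
    (hinf : ∃ ρ : chartAlgInf N ℓ →+* LaurentSeries (ZMod ℓ),
      RingHom.ker ρ = Ideal.span {(ℓ : chartAlgInf N ℓ)})
    (hmid : ∃ ρ : chartAlgMid N ℓ →+* LaurentSeries (ZMod ℓ),
      RingHom.ker ρ = Ideal.span {(ℓ : chartAlgMid N ℓ)})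
    (K : Type) [Field K] [CharP K ℓ] [Algebra ↥(GaloisRep.ratLocalizedAt ℓ) K] :
    IsIntegral ↑(pullback (igusaTo N ℓ)
      (Spec.map (CommRingCat.ofHom (algebraMap ↥(GaloisRep.ratLocalizedAt ℓ) K)))) := by
  obtain ⟨ρ₁, h₁⟩ := hfin
  obtain ⟨ρ₂, h₂⟩ := hinf
  obtain ⟨ρ₃, h₃⟩ := hmid
  have d₁ := isDomain_tensor_of_ker_eq_span ℓ (chartAlgFin N ℓ) K ρ₁ h₁
  have d₂ := isDomain_tensor_of_ker_eq_span ℓ (chartAlgInf N ℓ) K ρ₂ h₂
  have d₃ := isDomain_tensor_of_ker_eq_span ℓ (chartAlgMid N ℓ) K ρ₃ h₃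
  exact isIntegral_pullback_of_charts N ℓ K d₁ d₂ d₃.toNontrivial

end Fermat.Agent.S28
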