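import Mathlib
import Fermat.Prelude.Def_ModularCurve_IgusaScheme

/-!
# S28, piece P1: scheme glue

`isIntegral_pullback_of_charts`: the base change of the Igusa scheme to a field `K` is integral as
soon as the three chart algebras, tensored with `K`, are domains (`Fin`, `Inf`) resp. nontrivial
(`Mid`).
-/

set_option autoImplicit false

open AlgebraicGeometry CategoryTheory CategoryTheory.Limits ModularCurve ModularCurve.IgusaScheme
open scoped TensorProduct

noncomputable section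

namespace Fermat.Agent.S28

universe u

/-- A scheme with an open cover by integral schemes, all of whose charts contain a common point,
is integral. -/
theorem isIntegral_of_openCover_of_point {X : Scheme.{u}} (𝒰 : X.OpenCover)
    (h : ∀ i, IsIntegral (𝒰.X i)) (x : X) (hx : ∀ i, x ∈ Set.range (𝒰.f i)) :
    IsIntegral X := by
  have : ∀ i, IsReduced (𝒰.X i) := fun i => inferInstance
  have : IsReduced X := IsReduced.of_openCover X 𝒰
  have : Nonempty X := ⟨x⟩
  have : PreirreducibleSpace X := by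
    refine PreirreducibleSpace.of_isOpenCover (U := fun i => (𝒰.f i).opensRange) ?_
      𝒰.isOpenCover_opensRange ?_
    · intro i j _
      simp only [Function.onFun]
      rw [← TopologicalSpace.Opens.coe_disjoint, Set.not_disjoint_iff]
      exact ⟨x, hx i, hx j⟩
    · intro i
      have h1 : IsPreirreducible (Set.range (𝒰.f i)) := by
        rw [← Set.image_univ]
        exact (PreirreducibleSpace.isPreirreducible_univ (X := 𝒰.X i)).image _
          (𝒰.f i).continuous.continuousOn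
      exact (isPreirreducible_iff_preirreducibleSpace).mp h1
  have : IrreducibleSpace X := ⟨inferInstance⟩
  exact isIntegral_of_irreducibleSpace_of_isReduced X

variable (N : ℕ) [NeZero N] (ℓ : ℕ) [Fact ℓ.Prime]

/-- The two-chart open cover of the Igusa scheme. -/
def igusaOpenCover : (ModularCurve.IgusaScheme N ℓ).OpenCover :=
  Scheme.Cover.mkOfCovers Bool (fun b => bif b then XFin N ℓ else XInf N ℓ)
    (fun b => match b with
      | true => ιFin N ℓ
      | false => ιInf N ℓ)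
    (fun x => by
      rcases mem_range_ιFin_or_mem_range_ιInf N ℓ x with ⟨y, hy⟩ | ⟨y, hy⟩
      · exact ⟨true, y, hy⟩
      · exact ⟨false, y, hy⟩)
    (fun b => by
      cases b
      · exact isOpenImmersion_ιInf N ℓ
      · exact isOpenImmersion_ιFin N ℓ)

set_option maxHeartbeats 4000000 in
set_option synthInstance.maxHeartbeats 400000 in
theorem isIntegral_pullback_of_charts' (K : Type) [Field K]
    [Algebra ↥(GaloisRep.ratLocalizedAt ℓ) K]
    (hfin : IsDomain (chartAlgFin N ℓ ⊗[↥(GaloisRep.ratLocalizedAt ℓ)] K))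
    (hinf : IsDomain (chartAlgInf N ℓ ⊗[↥(GaloisRep.ratLocalizedAt ℓ)] K))
    (hmid : Nontrivial (chartAlgMid N ℓ ⊗[↥(GaloisRep.ratLocalizedAt ℓ)] K)) :
    IsIntegral ↑(pullback (igusaTo N ℓ)
      (Spec.map (CommRingCat.ofHom (algebraMap ↥(GaloisRep.ratLocalizedAt ℓ) K)))) := by
  set g := Spec.map (CommRingCat.ofHom (algebraMap ↥(GaloisRep.ratLocalizedAt ℓ) K)) with hg
  let 𝒱 := Scheme.Pullback.openCoverOfLeft (igusaOpenCover N ℓ) (igusaTo N ℓ) g
  -- the charts are integral
  have hchart : ∀ i, IsIntegral (𝒱.X i) := by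
    intro i
    cases i
    · -- the chart at infinity
      have e : pullback (ιInf N ℓ ≫ igusaTo N ℓ) g ≅
          Spec (.of (chartAlgInf N ℓ ⊗[↥(GaloisRep.ratLocalizedAt ℓ)] K)) :=
        pullback.congrHom (ιInf_igusaTo N ℓ) rfl ≪≫
          pullbackSpecIso ↥(GaloisRep.ratLocalizedAt ℓ) (chartAlgInf N ℓ) K
      have : IsIntegral (Spec (.of (chartAlgInf N ℓ ⊗[↥(GaloisRep.ratLocalizedAt ℓ)] K))) :=
        inferInstance
      have hiso : IsIso e.inv := Iso.isIso_inv e
      exact @IsIntegral.of_isIso _ _ this e.inv hiso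
    · have e : pullback (ιFin N ℓ ≫ igusaTo N ℓ) g ≅
          Spec (.of (chartAlgFin N ℓ ⊗[↥(GaloisRep.ratLocalizedAt ℓ)] K)) :=
        pullback.congrHom (ιFin_igusaTo N ℓ) rfl ≪≫
          pullbackSpecIso ↥(GaloisRep.ratLocalizedAt ℓ) (chartAlgFin N ℓ) K
      have : IsIntegral (Spec (.of (chartAlgFin N ℓ ⊗[↥(GaloisRep.ratLocalizedAt ℓ)] K))) :=
        inferInstance
      have hiso : IsIso e.inv := Iso.isIso_inv e
      exact @IsIntegral.of_isIso _ _ this e.inv hiso
  -- a point in the intersection of the charts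
  have hnon : Nonempty (Spec (.of (chartAlgMid N ℓ ⊗[↥(GaloisRep.ratLocalizedAt ℓ)] K))) :=
    inferInstance
  obtain ⟨t⟩ := hnon
  have hcomm : Spec.map (CommRingCat.ofHom
      (algebraMap ↥(GaloisRep.ratLocalizedAt ℓ) (chartAlgMid N ℓ))) ≫ 𝟙 _ =
      (fFin N ℓ ≫ ιFin N ℓ) ≫ igusaTo N ℓ := by
    have h : (inclFin N ℓ).toRingHom.comp
        (algebraMap ↥(GaloisRep.ratLocalizedAt ℓ) (chartAlgFin N ℓ)) =
        algebraMap ↥(GaloisRep.ratLocalizedAt ℓ) (chartAlgMid N ℓ) :=
      RingHom.ext fun a => (inclFin N ℓ).commutes a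
    rw [Category.comp_id, Category.assoc, ιFin_igusaTo, ← Spec.map_comp, ← CommRingCat.ofHom_comp,
      h]
  let w : pullback (Spec.map (CommRingCat.ofHom
      (algebraMap ↥(GaloisRep.ratLocalizedAt ℓ) (chartAlgMid N ℓ)))) g ⟶
      pullback (igusaTo N ℓ) g :=
    pullback.map _ g (igusaTo N ℓ) g (fFin N ℓ ≫ ιFin N ℓ) (𝟙 _) (𝟙 _) hcomm (by simp)
  let x : ↑(pullback (igusaTo N ℓ) g) :=
    w ((pullbackSpecIso ↥(GaloisRep.ratLocalizedAt ℓ) (chartAlgMid N ℓ) K).inv t)
  have hfst : pullback.fst (igusaTo N ℓ) g x =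
      (fFin N ℓ ≫ ιFin N ℓ) (pullback.fst _ g
        ((pullbackSpecIso ↥(GaloisRep.ratLocalizedAt ℓ) (chartAlgMid N ℓ) K).inv t)) := by
    have hw : w ≫ pullback.fst (igusaTo N ℓ) g = pullback.fst _ g ≫ (fFin N ℓ ≫ ιFin N ℓ) :=
      pullback.lift_fst _ _ _
    change pullback.fst (igusaTo N ℓ) g (w _) = _
    rw [← Scheme.Hom.comp_apply, hw, Scheme.Hom.comp_apply]
  refine isIntegral_of_openCover_of_point 𝒱 hchart x ?_
  intro i
  have hr : Set.range (𝒱.f i) = _ :=
    Scheme.Pullback.range_map ((igusaOpenCover N ℓ).f i ≫ igusaTo N ℓ) g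
      (igusaTo N ℓ) g ((igusaOpenCover N ℓ).f i) (𝟙 _) (𝟙 _) (by simp) (by simp)
  rw [hr]
  refine ⟨?_, ?_⟩
  · rw [Set.mem_preimage, hfst]
    cases i
    · rw [glue_condition, Scheme.Hom.comp_apply]
      exact ⟨_, rfl⟩
    · rw [Scheme.Hom.comp_apply]
      exact ⟨_, rfl⟩
  · simp

/-- The same with the tensor products written `K ⊗ B`. -/
theorem isIntegral_pullback_of_charts (K : Type) [Field K]
    [Algebra ↥(GaloisRep.ratLocalizedAt ℓ) K]
    (hfin : IsDomain (K ⊗[↥(GaloisRep.ratLocalizedAt ℓ)] chartAlgFin N ℓ))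
    (hinf : IsDomain (K ⊗[↥(GaloisRep.ratLocalizedAt ℓ)] chartAlgInf N ℓ))
    (hmid : Nontrivial (K ⊗[↥(GaloisRep.ratLocalizedAt ℓ)] chartAlgMid N ℓ)) :
    IsIntegral ↑(pullback (igusaTo N ℓ)
      (Spec.map (CommRingCat.ofHom (algebraMap ↥(GaloisRep.ratLocalizedAt ℓ) K)))) := by
  refine isIntegral_pullback_of_charts' N ℓ K ?_ ?_ ?_
  · exact MulEquiv.isDomain _
      (Algebra.TensorProduct.comm ↥(GaloisRep.ratLocalizedAt ℓ) (chartAlgFin N ℓ) K).toMulEquiv
  · exact MulEquiv.isDomain _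
      (Algebra.TensorProduct.comm ↥(GaloisRep.ratLocalizedAt ℓ) (chartAlgInf N ℓ) K).toMulEquiv
  · exact @Equiv.nontrivial _ _ (Algebra.TensorProduct.comm ↥(GaloisRep.ratLocalizedAt ℓ)
      (chartAlgMid N ℓ) K).toEquiv hmid

end Fermat.Agent.S28
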