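import Mathlib
import Fermat.Prelude.Def_ModularCurve_X0ModL
import Fermat.Agent.S28.P2IG
import Fermat.Agent.S28.ModPoly
import Fermat.Agent.S28.Induction
import Fermat.Agent.S28.FinDimL
import Fermat.Agent.S28.FrobDescent

/-!
# S28 (Igusa): the degree inequality `(IG)` for `ℓ ∤ N`

Assembly of the pieces: Frobenius descent of the modular equation (`FrobDescent`), the induction
`[G_N : 𝔽_ℓ(J)] = ψ(N)` (`Induction`), and finiteness of `L_N` over `𝔽_ℓ(J)` (`FinDimL`).
-/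

set_option autoImplicit false

noncomputable section

namespace Fermat.Agent.S28.IGProof

open ModularCurve IntermediateField

/-- **(IG)** holds when `ℓ ∤ N`. -/
theorem ig_of_not_dvd (N : ℕ) [NeZero N] (ℓ : ℕ) [Fact ℓ.Prime] (hℓN : ¬ ℓ ∣ N) :
    Fermat.Agent.S28.Algebra.IG N ℓ := by
  have hne : ∀ p : ℕ, p ∣ N → p ≠ ℓ := by
    rintro p hpN rfl
    exact hℓN hpN
  have hmod : ∀ p, ∀ hp : p.Prime, p ∣ N →
      (haveI := Fact.mk hp; Fermat.Agent.S28.P6.ModPoly (ZMod ℓ) p) := by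
    intro p hp hpN
    haveI := Fact.mk hp
    exact Fermat.Agent.S28.FrobDescent.modPoly_zmod ℓ p (hne p hpN)
  refine Fermat.Agent.S28.FinDimL.ig_of_relfinrank (ZMod ℓ) N hmod ?_
  apply Fermat.Agent.S28.P6.relfinrank_GN
  intro p hp hpN
  haveI := Fact.mk hp
  exact ⟨Fermat.Agent.S28.FrobDescent.modPoly_zmod ℓ p (hne p hpN),
    Fermat.Agent.S28.FrobDescent.jp_not_mem_zmod ℓ p (hne p hpN)⟩

end Fermat.Agent.S28.IGProof
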